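import Fermat.Agent.S41.Ops
import Fermat.Agent.S41.EP.Defs
import Fermat.Agent.S41.EP.Bridge

/-!
# S41 / G7 : the descended operators `TH`, `UH` satisfy the transfer relations `EP.IsHeckeT`, `EP.IsHeckeU`

Proof: `a = bd u`; `TH a = bd (opT u)` (`opH_bd`, `isOp_T`); `opT u s = ∑_{x : OnePoint (ZMod l)} u (repQ l x • s)` (`Soft.TT_eq_sum`, `opT_eq_TT`).
Given integral transfer data `matT l x * γ = c x * matT l (σ x)`, cast to `GL (Fin 2) ℚ`: `repQ l x * mapGL ℚ γ = mapGL ℚ (c x) * repQ l (σ x)`; so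
`bd (opT u) γ = ∑_x [u (repQ x • γ • s) - u (repQ x • s)] = ∑_x [u (c x • repQ (σ x) • s) - u (repQ x • s)] = ∑_x bd u (c x) + ∑_x [u (repQ (σ x) • s) - u (repQ x • s)]`
and the last sum vanishes (`Equiv.sum_comp`).
-/

set_option autoImplicit false

open Matrix Matrix.SpecialLinearGroup CongruenceSubgroup OnePoint
open scoped MatrixGroups

namespace Fermat.Agent.S41

variable {A : Type*} [AddCommGroup A]

theorem isHeckeT_TH {M l : ℕ} [NeZero l] (hl : l.Prime) (hlM : ¬ l ∣ M) (a : HH A M) :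
    EP.IsHeckeT M l (a : Additive (Gamma0 M) →+ A) (TH A M l a : Additive (Gamma0 M) →+ A) :=
  isHeckeT_TH' hl hlM a

theorem isHeckeU_UH {N q : ℕ} [NeZero q] (hq : q.Prime) (hqN : ¬ q ∣ N) (a : HH A (N * q)) :
    EP.IsHeckeU (N * q) q (a : Additive (Gamma0 (N * q)) →+ A)
      (UH A (N * q) q a : Additive (Gamma0 (N * q)) →+ A) :=
  isHeckeU_UH' (Dvd.intro_left N rfl) a

end Fermat.Agent.S41
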