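import Fermat.Agent.S41.Defs
import Fermat.Agent.S41.EP.Parab

/-!
# S41 / G1, G2 : `H Γ A` is the module of parabolic homomorphisms; `HH ℤ M` is finite free.

**G1a** `isParabolicHom_of_mem_H`: `γ ∈ SL(2,ℤ)` with `trace² = 4` fixes a cusp (`∞` if `c = 0`, else `(a-d)/(2c)`), then `bd_apply` at that cusp.
**G1b** `mem_H_of_isParabolicHom`: choose representatives `r` of the `Γ`-orbits on `OnePoint ℚ` and `g s ∈ Γ` with `g s • r s = s`; `u s := φ (g s)`.
 For `γ ∈ Γ`: `(g (γ s))⁻¹ γ (g s)` fixes `r s`; an element of `SL(2,ℤ)` fixing a cusp has `trace² = 4` (`∞`: `c = 0`, `a d = 1`;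
 `x = m/n`: the eigenvalue is a rational root of `X² - tX + 1`, so `±1`; or conjugate the cusp to `∞` by an element of `SL(2,ℤ)`), so `φ` kills it.
**G2** `Γ₀(M)` is finitely generated (`Subgroup.fg_of_index_ne_zero`, `SpecialLinearGroup.SL2Z_generators`, see `SoftMain.lean`), so `Hom(Γ₀(M), ℤ)` embeds in `ℤ^S`;
 submodules of finite free `ℤ`-modules are finite free.
(The proofs of G1a, G1b are in `EP/Parab.lean`.)
-/

set_option autoImplicit false

open Matrix Matrix.SpecialLinearGroup CongruenceSubgroup OnePoint ModularCurve.Period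
open scoped MatrixGroups

namespace Fermat.Agent.S41

variable {Γ : Subgroup SL(2, ℤ)} {A : Type*} [AddCommGroup A]

/-- **G1a** -/
theorem isParabolicHom_of_mem_H {φ : Additive Γ →+ A} (h : φ ∈ H Γ A) : IsParabolicHom Γ φ :=
  (mem_H_iff' φ).1 h

/-- **G1b** -/
theorem mem_H_of_isParabolicHom {φ : Additive Γ →+ A} (h : IsParabolicHom Γ φ) : φ ∈ H Γ A :=
  (mem_H_iff' φ).2 h

theorem mem_H_iff {φ : Additive Γ →+ A} : φ ∈ H Γ A ↔ IsParabolicHom Γ φ :=
  ⟨isParabolicHom_of_mem_H, mem_H_of_isParabolicHom⟩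

/-- `Hom(Γ₀(M), ℤ)` embeds in a finite power of `ℤ`. -/
theorem exists_injective_eval (M : ℕ) [NeZero M] :
    ∃ (n : ℕ) (ev : (Additive (Gamma0 M) →+ ℤ) →ₗ[ℤ] (Fin n → ℤ)), Function.Injective ev := by
  have hSL : Group.FG SL(2, ℤ) :=
    Group.fg_iff.mpr ⟨{ModularGroup.S, ModularGroup.T}, SpecialLinearGroup.SL2Z_generators, by simp⟩
  have hfg : Group.FG (Gamma0 M) := Subgroup.fg_of_index_ne_zero _
  obtain ⟨S, hS, hSfin⟩ := Group.fg_iff.mp hfg
  obtain ⟨n, e, he⟩ : ∃ (n : ℕ) (e : Fin n → Gamma0 M), Set.range e = S := by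
    have := hSfin.fintype
    refine ⟨Fintype.card S, fun i => ((Fintype.equivFin S).symm i : Gamma0 M), ?_⟩
    ext g
    constructor
    · rintro ⟨i, rfl⟩
      exact ((Fintype.equivFin S).symm i).2
    · intro hg
      exact ⟨Fintype.equivFin S ⟨g, hg⟩, by simp⟩
  let ev : (Additive (Gamma0 M) →+ ℤ) →ₗ[ℤ] (Fin n → ℤ) :=
    { toFun := fun φ i => φ (Additive.ofMul (e i))
      map_add' := fun _ _ => rfl
      map_smul' := fun _ _ => rfl }
  refine ⟨n, ev, ?_⟩
  intro φ ψ h
  refine AddMonoidHom.ext fun γ' => ?_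
  obtain ⟨γ, rfl⟩ : ∃ γ : Gamma0 M, Additive.ofMul γ = γ' := ⟨Additive.toMul γ', rfl⟩
  have hγ : γ ∈ Subgroup.closure S := by rw [hS]; trivial
  induction hγ using Subgroup.closure_induction with
  | mem x hx =>
    rw [← he] at hx
    obtain ⟨i, rfl⟩ := hx
    exact congrFun h i
  | one => simp
  | mul x y _ _ hx hy => rw [ofMul_mul, map_add, map_add, hx, hy]
  | inv x _ hx => rw [ofMul_inv, map_neg, map_neg, hx]

/-- **G2** -/
theorem HH_finite (M : ℕ) [NeZero M] : Module.Finite ℤ (HH ℤ M) := by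
  obtain ⟨n, ev, hev⟩ := exists_injective_eval M
  exact Module.Finite.of_injective (ev ∘ₗ (HH ℤ M).subtype)
    (hev.comp Subtype.val_injective)

/-- **G2** -/
theorem HH_free (M : ℕ) [NeZero M] : Module.Free ℤ (HH ℤ M) := by
  obtain ⟨n, ev, hev⟩ := exists_injective_eval M
  have hinj : Function.Injective (ev ∘ₗ (HH ℤ M).subtype) := hev.comp Subtype.val_injective
  exact Module.Free.of_equiv (LinearEquiv.ofInjective _ hinj).symm

/-- divisibility in `H`: a class all of whose values are divisible by `p` is `p •` a class. -/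
theorem exists_eq_smul_of_dvd {p : ℤ} (hp : p ≠ 0) (x : H Γ ℤ)
    (h : ∀ γ, p ∣ (x : Additive Γ →+ ℤ) γ) : ∃ x' : H Γ ℤ, x = p • x' := by
  choose v hv using h
  have hv0 : v 0 = 0 := by
    have := hv 0
    rw [map_zero] at this
    rcases mul_eq_zero.mp this.symm with h | h
    · exact absurd h hp
    · exact h
  have hvadd : ∀ a b, v (a + b) = v a + v b := by
    intro a b
    apply mul_left_cancel₀ hp
    rw [mul_add, ← hv, ← hv, ← hv, map_add]
  let χ : Additive Γ →+ ℤ := { toFun := v, map_zero' := hv0, map_add' := hvadd }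
  have hχ : (x : Additive Γ →+ ℤ) = p • χ := by
    refine AddMonoidHom.ext fun g => ?_
    simp [χ, hv g]
  have hpar : IsParabolicHom Γ χ := by
    intro γ hγ
    have h1 := isParabolicHom_of_mem_H x.2 γ hγ
    rw [hχ] at h1
    rcases mul_eq_zero.mp (show p * χ (Additive.ofMul γ) = 0 by simpa using h1) with h | h
    · exact absurd h hp
    · exact h
  exact ⟨⟨χ, mem_H_of_isParabolicHom hpar⟩, Subtype.ext hχ⟩

end Fermat.Agent.S41
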