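import Fermat.Agent.S41.Ops
import Fermat.Agent.S41.Bd

/-!
# S41 / G8 : Ihara's lemma on the lattices, from `Soft.soft_ihara`

`h₁ = bd u₁`, `h₂ = bd u₂`; reduce mod `p`: `F_i := fun s => (u_i s : ZMod p)` are potentials for `Γ₀(N)`; `resH h₁ + betaH h₂ = bd (u₁ + opB q u₂) = p • y`
means that `F₁ + F₂ ∘ dgQ q` is `Γ₀(Nq)`-invariant.  `soft_ihara` gives `DD l (DD l₁ F_i)` invariant; `DD` commutes with the reduction, so all values of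
`bd (DD l (DD l₁ u_i)) = (TH l - (l+1)) ((TH l₁ - (l₁+1)) h_i)` are divisible by `p`; `exists_eq_smul_of_dvd`.
-/

set_option autoImplicit false

open Matrix Matrix.SpecialLinearGroup CongruenceSubgroup OnePoint
open scoped MatrixGroups

namespace Fermat.Agent.S41

/-- reduction mod `p` commutes with `DD`. -/
theorem DD_cast (p l : ℕ) (u : OnePoint ℚ → ℤ) :
    Soft.DD l (fun s => ((u s : ℤ) : ZMod p)) = fun s => ((Soft.DD l u s : ℤ) : ZMod p) := by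
  funext s
  simp only [Soft.DD, Soft.TT]
  push_cast
  simp

/-- `(T_l - l - 1)` on `HH` in terms of `DD`. -/
theorem TH_sub_bd {N l : ℕ} (hl : l.Prime) (hlN : ¬ l ∣ N) (u : Symb (Gamma0 N) ℤ) :
    ∃ hu' : Soft.DD l u.1 ∈ Symb (Gamma0 N) ℤ,
      TH ℤ N l (bd (Gamma0 N) ℤ u) - ((l : ℤ) + 1) • bd (Gamma0 N) ℤ u
        = bd (Gamma0 N) ℤ ⟨Soft.DD l u.1, hu'⟩ := by
  have hop := isOp_T (A := ℤ) hl hlN
  have hmem : Soft.DD l u.1 ∈ Symb (Gamma0 N) ℤ := by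
    rw [← opT_sub_eq_DD]
    exact (Symb (Gamma0 N) ℤ).sub_mem (hop.symb u.1 u.2) ((Symb (Gamma0 N) ℤ).smul_mem _ u.2)
  refine ⟨hmem, ?_⟩
  rw [TH, opH_bd hop, ← _root_.map_smul, ← map_sub]
  congr 1
  apply Subtype.ext
  exact opT_sub_eq_DD l u.1

theorem ihara_key {N l l₁ p : ℕ} (hp : p.Prime) (hl : l.Prime) (hlN : ¬ l ∣ N) (hl₁ : l₁.Prime)
    (hl₁N : ¬ l₁ ∣ N) (u : Symb (Gamma0 N) ℤ)
    (hinv : Soft.IsInv (Gamma0 N) (Soft.DD l (Soft.DD l₁ (fun s => ((u.1 s : ℤ) : ZMod p))))) :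
    ∃ h', TH ℤ N l (TH ℤ N l₁ (bd (Gamma0 N) ℤ u) - ((l₁ : ℤ) + 1) • bd (Gamma0 N) ℤ u)
      - ((l : ℤ) + 1) • (TH ℤ N l₁ (bd (Gamma0 N) ℤ u) - ((l₁ : ℤ) + 1) • bd (Gamma0 N) ℤ u)
        = (p : ℤ) • h' := by
  obtain ⟨hu', e1⟩ := TH_sub_bd hl₁ hl₁N u
  rw [e1]
  obtain ⟨hu'', e2⟩ := TH_sub_bd hl hlN ⟨Soft.DD l₁ u.1, hu'⟩
  rw [e2]
  apply exists_eq_smul_of_dvd (by exact_mod_cast hp.ne_zero)
  intro γ
  have h1 := bd_apply (⟨Soft.DD l (Soft.DD l₁ u.1), hu''⟩ : Symb (Gamma0 N) ℤ) (Additive.toMul γ) ∞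
  have h2 : ((bd (Gamma0 N) ℤ ⟨Soft.DD l (Soft.DD l₁ u.1), hu''⟩ : HH ℤ N) :
      Additive (Gamma0 N) →+ ℤ) γ = _ := h1
  rw [h2, ← ZMod.intCast_zmod_eq_zero_iff_dvd, Int.cast_sub, sub_eq_zero]
  rw [DD_cast, DD_cast] at hinv
  exact hinv _ (Additive.toMul γ).2 ∞

theorem not_dvd_of_modEq_one {l M N : ℕ} (hl : l.Prime) (h : l ≡ 1 [MOD M]) (hNM : N ∣ M) :
    ¬ l ∣ N := by
  intro hd
  have h1 : l ≡ 1 [MOD l] := h.of_dvd (hd.trans hNM)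
  have h2 : l ∣ 1 := by
    have := (Nat.modEq_iff_dvd' hl.one_lt.le).1 h1.symm
    have h3 : l ∣ l - 1 := this
    have h4 := Nat.le_of_dvd (by have := hl.two_le; omega) h3
    have := hl.two_le
    omega
  exact hl.one_lt.ne' (Nat.dvd_one.1 h2)

theorem ihara_H {N q : ℕ} (hN : 0 < N) (hq : q.Prime) (hqN : ¬ q ∣ N) :
    ∃ M₀ : ℕ, 0 < M₀ ∧ ∀ l l₁ : ℕ, l.Prime → l₁.Prime → l ≡ 1 [MOD M₀] → l ≠ q →
      l₁ ≡ 1 [MOD N * q] → ∀ p : ℕ, p.Prime → ∀ h₁ h₂ : HH ℤ N,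
      (∃ z, resH ℤ N q h₁ + betaH ℤ N q h₂ = (p : ℤ) • z) →
      (∃ h', TH ℤ N l (TH ℤ N l₁ h₁ - ((l₁ : ℤ) + 1) • h₁)
          - ((l : ℤ) + 1) • (TH ℤ N l₁ h₁ - ((l₁ : ℤ) + 1) • h₁) = (p : ℤ) • h') ∧
      (∃ h', TH ℤ N l (TH ℤ N l₁ h₂ - ((l₁ : ℤ) + 1) • h₂)
          - ((l : ℤ) + 1) • (TH ℤ N l₁ h₂ - ((l₁ : ℤ) + 1) • h₂) = (p : ℤ) • h') := by
  obtain ⟨M₀, hM₀, hsoft⟩ := Soft.soft_ihara.{0} hN hq hqN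
  refine ⟨M₀ * N, Nat.mul_pos hM₀ hN, ?_⟩
  intro l l₁ hl hl₁ hlM hlq hl₁M p hp h₁ h₂ hz
  have hlN : ¬ l ∣ N := not_dvd_of_modEq_one hl hlM (Dvd.intro_left _ rfl)
  have hl₁N : ¬ l₁ ∣ N := not_dvd_of_modEq_one hl₁ hl₁M (Dvd.intro _ rfl)
  obtain ⟨u₁, rfl⟩ := bd_surjective h₁
  obtain ⟨u₂, rfl⟩ := bd_surjective h₂
  obtain ⟨z, hz⟩ := hz
  have hcast : ∀ u : Symb (Gamma0 N) ℤ,
      Soft.IsPot (Gamma0 N) (fun s => ((u.1 s : ℤ) : ZMod p)) := by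
    intro u γ hγ
    obtain ⟨c, hc⟩ := mem_Symb_iff_soft.1 u.2 γ hγ
    exact ⟨(c : ZMod p), fun s => by
      show ((u.1 (mapGL ℚ γ • s) : ℤ) : ZMod p) = ((u.1 s : ℤ) : ZMod p) + (c : ZMod p)
      rw [hc]; push_cast; rfl⟩
  have hinv : Soft.IsInv (Gamma0 (N * q))
      (fun s => ((u₁.1 s : ℤ) : ZMod p) + ((u₂.1 (Soft.dgQ q • s) : ℤ) : ZMod p)) := by
    intro γ hγ s
    rw [resH, betaH, opH_bd (isOp_res (Gamma0_mul_le N q)), opH_bd (isOp_B hq hqN), ← map_add] at hz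
    have h1 := bd_apply ((⟨LinearMap.id u₁.1, (isOp_res (Gamma0_mul_le N q)).symb u₁.1 u₁.2⟩ :
      Symb (Gamma0 (N * q)) ℤ) + ⟨opB ℤ q u₂.1, (isOp_B hq hqN).symb u₂.1 u₂.2⟩) ⟨γ, hγ⟩ s
    rw [hz] at h1
    have h2 : (p : ℤ) * ((z : Additive (Gamma0 (N * q)) →+ ℤ) (Additive.ofMul ⟨γ, hγ⟩))
        = (u₁.1 (mapGL ℚ γ • s) + u₂.1 (Soft.dgQ q • (mapGL ℚ γ • s)))
          - (u₁.1 s + u₂.1 (Soft.dgQ q • s)) := by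
      rw [← opB_apply q u₂.1, ← opB_apply q u₂.1]
      exact h1
    have h3 : (((p : ℤ) * ((z : Additive (Gamma0 (N * q)) →+ ℤ) (Additive.ofMul ⟨γ, hγ⟩)) : ℤ) : ZMod p)
        = (((u₁.1 (mapGL ℚ γ • s) + u₂.1 (Soft.dgQ q • (mapGL ℚ γ • s)))
          - (u₁.1 s + u₂.1 (Soft.dgQ q • s)) : ℤ) : ZMod p) := by rw [h2]
    push_cast at h3
    rw [ZMod.natCast_self, zero_mul] at h3
    exact (sub_eq_zero.1 h3.symm)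
  obtain ⟨r1, r2⟩ := hsoft l l₁ hl hl₁ (hlM.of_dvd (Dvd.intro _ rfl)) hlq hl₁M (ZMod p) _ _
    (hcast u₁) (hcast u₂) hinv
  exact ⟨ihara_key hp hl hlN hl₁ hl₁N u₁ r1, ihara_key hp hl hlN hl₁ hl₁N u₂ r2⟩

end Fermat.Agent.S41
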