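import Fermat.Agent.S41.TopB
import Fermat.Agent.S41.HeckeRel
import Fermat.Agent.S41.EP.In
import Fermat.Agent.S41.EP.Out
import Fermat.Agent.HW.NEMain
import Fermat.Prelude.Def_FLTPrelim_ModularRep
import Fermat.Prelude.Def_FreyPackage_LevelRaising

/-!
# S41 / G-9 : final assembly
-/

set_option autoImplicit false

open WeierstrassCurve WeierstrassCurve.Affine WeierstrassCurve.Affine.Point
open scoped CongruenceSubgroup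
open CongruenceSubgroup

namespace Fermat.Agent.S41

theorem top
    (E : WeierstrassCurve ℚ) [E.IsElliptic] {W : WeierstrassCurve ℤ} (hW : W.IsIntegralModelOf E)
    {p N q' : ℕ} (hp : p.Prime) (hp2 : p ≠ 2) (hN : 0 < N) (hq' : q'.Prime) (hq'N : ¬ q' ∣ N) (hq'p : q' ≠ p)
    (hirr : GaloisRepIsIrreducible (K := AlgebraicClosure ℚ) ℚ E p)
    (f : CuspForm (CongruenceSubgroup.Gamma0 N) 2) (𝔪 : Ideal (integralClosure ℤ ℂ))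
    (hf : f.IsNormalizedEigenform) (hmax : 𝔪.IsMaximal) (hpm : (p : integralClosure ℤ ℂ) ∈ 𝔪)
    (hcong : ∀ ℓ : ℕ, ℓ.Prime → W.IsGoodPrimeFor ℓ → ¬ ℓ ∣ N → ℓ ≠ p →
      ∃ a : integralClosure ℤ ℂ, (a : ℂ) = ModularFormClass.qCoeff f ℓ ∧
        a - ((W.apOfModel ℓ : ℤ) : integralClosure ℤ ℂ) ∈ 𝔪)
    (hLR : ∃ a : integralClosure ℤ ℂ, (a : ℂ) = ModularFormClass.qCoeff f q' ∧
      a ^ 2 - ((q' : integralClosure ℤ ℂ) + 1) ^ 2 ∈ 𝔪) :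
    ∃ (g : CuspForm (CongruenceSubgroup.Gamma0 (N * q')) 2) (𝔪' : Ideal (integralClosure ℤ ℂ)),
      g.IsNormalizedEigenform ∧ 𝔪'.IsMaximal ∧ (p : integralClosure ℤ ℂ) ∈ 𝔪' ∧
      (∀ ℓ : ℕ, ℓ.Prime → W.IsGoodPrimeFor ℓ → ¬ ℓ ∣ N * q' → ℓ ≠ p →
        ∃ a : integralClosure ℤ ℂ, (a : ℂ) = ModularFormClass.qCoeff g ℓ ∧
          a - ((W.apOfModel ℓ : ℤ) : integralClosure ℤ ℂ) ∈ 𝔪') ∧
      g.IsNewAt q' := by
  classical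
  have : NeZero N := ⟨hN.ne'⟩
  have : NeZero q' := ⟨hq'.ne_zero⟩
  have : NeZero (N * q') := ⟨Nat.mul_ne_zero hN.ne' hq'.ne_zero⟩
  have hp0 : (p : ℤ) ≠ 0 := by exact_mod_cast hp.ne_zero
  obtain ⟨x0, y0, hxy⟩ := exists_bezout hq' hq'N
  -- the sign
  obtain ⟨aq, haq, hLR'⟩ := hLR
  obtain ⟨ε, hε, hεm⟩ : ∃ ε : ℤ, ε * ε = 1 ∧
      aq - ((ε * ((q' : ℤ) + 1) : ℤ) : integralClosure ℤ ℂ) ∈ 𝔪 := by
    have hfac : (aq - ((q' : integralClosure ℤ ℂ) + 1)) * (aq + ((q' : integralClosure ℤ ℂ) + 1)) ∈ 𝔪 := by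
      have : (aq - ((q' : integralClosure ℤ ℂ) + 1)) * (aq + ((q' : integralClosure ℤ ℂ) + 1))
          = aq ^ 2 - ((q' : integralClosure ℤ ℂ) + 1) ^ 2 := by ring
      rw [this]; exact hLR'
    rcases hmax.isPrime.mem_or_mem hfac with h | h
    · refine ⟨1, by norm_num, ?_⟩
      have : ((1 * ((q' : ℤ) + 1) : ℤ) : integralClosure ℤ ℂ) = (q' : integralClosure ℤ ℂ) + 1 := by
        push_cast; ring
      rw [this]; exact h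
    · refine ⟨-1, by norm_num, ?_⟩
      have : aq - ((-1 * ((q' : ℤ) + 1) : ℤ) : integralClosure ℤ ℂ)
          = aq + ((q' : integralClosure ℤ ℂ) + 1) := by
        push_cast; ring
      rw [this]; exact h
  -- the set of primes and the eigenvalues
  let S : Set ℕ := {ℓ | ℓ.Prime ∧ W.IsGoodPrimeFor ℓ ∧ ¬ ℓ ∣ N * q' ∧ ℓ ≠ p}
  let θ : ℕ → ℤ := fun ℓ => if ℓ = q' then ε * ((q' : ℤ) + 1) else W.apOfModel ℓ
  have hSq : ∀ ℓ ∈ S, ℓ ≠ q' := by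
    rintro ℓ hℓ rfl
    exact hℓ.2.2.1 (Dvd.intro_left N rfl)
  have hθS : ∀ ℓ ∈ S, θ ℓ = W.apOfModel ℓ := fun ℓ hℓ => if_neg (hSq ℓ hℓ)
  have hθq : θ q' = ε * ((q' : ℤ) + 1) := if_pos rfl
  have hSN : ∀ ℓ ∈ S, ¬ ℓ ∣ N := fun ℓ hℓ h => hℓ.2.2.1 (h.mul_right q')
  -- the class `x`
  obtain ⟨x, hxpar, hxp, hxT⟩ := EP.inStatement hp f 𝔪 hf hmax hpm (S ∪ {q'}) θ
    (by
      rintro ℓ (hℓ | hℓ)
      · exact ⟨hℓ.1, hSN ℓ hℓ⟩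
      · rw [Set.mem_singleton_iff] at hℓ
        subst hℓ
        exact ⟨hq', hq'N⟩)
    (by
      rintro ℓ (hℓ | hℓ)
      · rw [hθS ℓ hℓ]
        exact hcong ℓ hℓ.1 hℓ.2.1 (hSN ℓ hℓ) hℓ.2.2.2
      · rw [Set.mem_singleton_iff] at hℓ
        subst hℓ
        rw [hθq]
        exact ⟨aq, haq, hεm⟩)
  let xH : HH ℤ N := ⟨x, mem_H_of_isParabolicHom hxpar⟩
  have hxH : ∀ ℓ ∈ S ∪ {q'}, ℓ.Prime → ¬ ℓ ∣ N → ∃ x', TH ℤ N ℓ xH - θ ℓ • xH = (p : ℤ) • x' := by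
    intro ℓ hℓ hℓp hℓN
    have : NeZero ℓ := ⟨hℓp.ne_zero⟩
    obtain ⟨x₂, hx₂⟩ := hxT ℓ hℓ _ (isHeckeT_TH hℓp hℓN xH)
    apply exists_eq_smul_of_dvd hp0
    intro γ
    refine ⟨x₂ γ, ?_⟩
    have := DFunLike.congr_fun hx₂ γ
    exact this
  obtain ⟨y, hy1, hy2, hyp, hyT⟩ := lattice_level_raising hp hp2 hq' hq'N hxy S
    (fun ℓ hℓ => ⟨hℓ.1, hℓ.2.2.1⟩) θ
    (by
      intro m hm
      obtain ⟨ℓ, hℓp, -, hℓg, hℓne, hℓ1, hℓE⟩ :=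
        HW.exists_prime_not_eisenstein E hW hp hp2 hirr (m * (N * q'))
          (Nat.mul_pos hm (Nat.mul_pos hN hq'.pos)) ∅
      have hℓN : ¬ ℓ ∣ N * q' := by
        intro h
        have h1 : ℓ ≡ 1 [MOD ℓ] := (Nat.ModEq.of_mul_left m hℓ1).of_dvd h
        have h2 : ℓ ∣ 1 := by
          have := (Nat.modEq_iff_dvd' hℓp.one_lt.le).1 h1.symm
          have h3 : ℓ ∣ ℓ := dvd_refl ℓ
          exact (Nat.dvd_sub_iff_right hℓp.one_lt.le h3).1 this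
        exact hℓp.one_lt.ne' (Nat.dvd_one.1 h2)
      have hℓS : ℓ ∈ S := ⟨hℓp, hℓg, hℓN, hℓne⟩
      refine ⟨ℓ, hℓS, Nat.ModEq.of_mul_right _ hℓ1, ?_⟩
      rw [hθS ℓ hℓS]
      exact hℓE)
    ε hε xH
    (by
      rintro ⟨x', hx'⟩
      exact hxp ⟨x'.1, congrArg Subtype.val hx'⟩)
    (fun ℓ hℓ => hxH ℓ (Or.inl hℓ) hℓ.1 (hSN ℓ hℓ))
    (by
      have := hxH q' (Or.inr rfl) hq' hq'N
      rwa [hθq] at this)
  -- the lattice `Λ = ker γ†`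
  let K : Submodule ℤ (HH ℤ (N * q')) :=
    LinearMap.ker (coresH ℤ N q' x0 y0) ⊓ LinearMap.ker (coresH ℤ N q' x0 y0 ∘ₗ wH ℤ N q' x0 y0)
  have hKmem : ∀ z, z ∈ K ↔ coresH ℤ N q' x0 y0 z = 0 ∧
      coresH ℤ N q' x0 y0 (wH ℤ N q' x0 y0 z) = 0 := fun z => Iff.rfl
  have hfree := HH_free N
  have hKT : ∀ ℓ ∈ S, ∀ z ∈ K, TH ℤ (N * q') ℓ z ∈ K := by
    intro ℓ hℓ z hz
    rw [hKmem] at hz ⊢
    rw [coresH_TH hq' hq'N hxy hℓ.1 hℓ.2.2.1, coresH_wH_TH hq' hq'N hxy hℓ.1 hℓ.2.2.1, hz.1, hz.2,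
      _root_.map_zero]
    exact ⟨rfl, rfl⟩
  let Λ : AddSubgroup (Additive (Gamma0 (N * q')) →+ ℤ) :=
    (K.map (HH ℤ (N * q')).subtype).toAddSubgroup
  have hΛ : ∀ z ∈ K, (z : Additive (Gamma0 (N * q')) →+ ℤ) ∈ Λ := fun z hz => ⟨z, hz, rfl⟩
  have hyK : y ∈ K := ⟨hy1, hy2⟩
  obtain ⟨g, 𝔪', hg, hmax', hpm', hgcong, hgq⟩ := EP.outStatement (M := N * q') (p := p) (q := q')
    hp hq' (Dvd.intro_left N rfl) S θ (fun ℓ hℓ => ⟨hℓ.1, hℓ.2.2.1⟩) Λ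
    (by
      rintro _ ⟨z, -, rfl⟩
      exact isParabolicHom_of_mem_H z.2)
    (by
      rintro ℓ hℓ _ _ ⟨z, hz, rfl⟩
      exact ⟨_, hΛ _ (hKT ℓ hℓ z hz), isHeckeT_TH hℓ.1 hℓ.2.2.1 z⟩)
    (by
      rintro _ ⟨z, hz, rfl⟩
      refine ⟨(UH ℤ (N * q') q' z : Additive (Gamma0 (N * q')) →+ ℤ), isHeckeU_UH hq' hq'N z, ?_⟩
      have := isHeckeU_UH hq' hq'N (UH ℤ (N * q') q' z)
      rwa [UH_UH_of_ker hq' hq'N hxy z hz.1 hz.2] at this)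
    y (hΛ y hyK)
    (by
      rintro ⟨_, ⟨z, -, rfl⟩, hz⟩
      exact hyp ⟨z, Subtype.ext hz⟩)
    (by
      intro ℓ hℓ _
      obtain ⟨y', hy'⟩ := hyT ℓ hℓ
      have hy'K : y' ∈ K := by
        have h0 : (p : ℤ) • y' ∈ K := by
          rw [← hy']
          exact K.sub_mem (hKT ℓ hℓ y hyK) (K.smul_mem _ hyK)
        rw [hKmem] at h0 ⊢
        rw [_root_.map_smul, _root_.map_smul, _root_.map_smul] at h0
        exact ⟨(smul_eq_zero.1 h0.1).resolve_left hp0, (smul_eq_zero.1 h0.2).resolve_left hp0⟩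
      exact ⟨_, hΛ _ (hKT ℓ hℓ y hyK), _, hΛ _ hy'K, isHeckeT_TH hℓ.1 hℓ.2.2.1 y,
        congrArg Subtype.val hy'⟩)
  refine ⟨g, 𝔪', hg, hmax', hpm', ?_, hgq⟩
  intro ℓ hℓp hℓg hℓN hℓne
  have hℓS : ℓ ∈ S := ⟨hℓp, hℓg, hℓN, hℓne⟩
  have := hgcong ℓ hℓS
  rwa [hθS ℓ hℓS] at this

end Fermat.Agent.S41
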