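import Mathlib

/-! # S41 / ALGEBRA : abstract level raising (Mathlib only). -/

set_option autoImplicit false

namespace Fermat.Agent.S41.ALR

/-- **Lemma r.** A finite module without nonzero element killed by `m` is "away from `m`". -/
theorem exists_mem_ideal_smul_eq {𝔸 Y : Type*} [CommRing 𝔸] [AddCommGroup Y] [Module 𝔸 Y] [Finite Y]
    (m : Ideal 𝔸) (h : ∀ y : Y, (∀ t ∈ m, t • y = 0) → y = 0) :
    ∃ r ∈ m, ∀ y : Y, r • y = y := by
  have hart : IsArtinian 𝔸 Y := isArtinian_of_finite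
  let f : ℕ →o (Submodule 𝔸 Y)ᵒᵈ :=
    { toFun := fun n => OrderDual.toDual (m ^ n • (⊤ : Submodule 𝔸 Y))
      monotone' := by
        intro a b hab
        exact Submodule.smul_mono_left (Ideal.pow_le_pow_right hab) }
  obtain ⟨n, hn⟩ := IsArtinian.monotone_stabilizes f
  have hn1 : m ^ n • (⊤ : Submodule 𝔸 Y) = m ^ (n + 1) • (⊤ : Submodule 𝔸 Y) :=
    hn (n + 1) (Nat.le_succ n)
  have hle : m ^ n • (⊤ : Submodule 𝔸 Y) ≤ m • (m ^ n • (⊤ : Submodule 𝔸 Y)) := by
    rw [← mul_smul, ← pow_succ', ← hn1]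
  have hfg : (m ^ n • (⊤ : Submodule 𝔸 Y)).FG := by
    have : IsNoetherian 𝔸 Y := inferInstance
    exact IsNoetherian.noetherian _
  obtain ⟨a, ha1, ha⟩ :=
    Submodule.exists_sub_one_mem_and_smul_eq_zero_of_fg_of_le_smul m _ hfg hle
  have key : ∀ j : ℕ, ∀ w : Y, (∀ t ∈ m ^ j, t • w = 0) → w = 0 := by
    intro j
    induction j with
    | zero =>
      intro w hw
      have := hw 1 (by simp)
      simpa using this
    | succ j ih =>
      intro w hw
      apply ih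
      intro t ht
      apply h
      intro s hs
      rw [← mul_smul]
      apply hw
      rw [pow_succ']
      exact Ideal.mul_mem_mul hs ht
  have hay : ∀ y : Y, a • y = 0 := by
    intro y
    apply key n
    intro t ht
    rw [smul_comm]
    apply ha
    exact Submodule.smul_mem_smul ht Submodule.mem_top
  refine ⟨1 - a, ?_, ?_⟩
  · have := m.neg_mem ha1
    simpa using this
  · intro y
    rw [sub_smul, one_smul, hay, sub_zero]

/-- every functional mod `p` is represented by a form which is left-nondegenerate mod `p`. -/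
theorem dual_rep {p : ℕ} [Fact p.Prime] {X : Type*} [AddCommGroup X] [Module.Finite ℤ X]
    [Module.Free ℤ X] (bX : X →ₗ[ℤ] X →ₗ[ℤ] ℤ)
    (hnd : ∀ x, (∀ y, (p : ℤ) ∣ bX x y) → ∃ x', x = (p : ℤ) • x') (lam : X →+ ZMod p) :
    ∃ κ, ∀ x, lam x = ((bX κ x : ℤ) : ZMod p) := by
  classical
  let b := Module.Free.chooseBasis ℤ X
  let M : Matrix (Module.Free.ChooseBasisIndex ℤ X) (Module.Free.ChooseBasisIndex ℤ X) (ZMod p) :=
    fun i j => ((bX (b i) (b j) : ℤ) : ZMod p)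
  -- lifting vectors
  have hlift : ∀ v : Module.Free.ChooseBasisIndex ℤ X → ZMod p,
      ∃ w : Module.Free.ChooseBasisIndex ℤ X → ℤ, ∀ i, ((w i : ℤ) : ZMod p) = v i := by
    intro v
    choose w hw using fun i => ZMod.intCast_surjective (v i)
    exact ⟨w, hw⟩
  have hvm : ∀ (w : Module.Free.ChooseBasisIndex ℤ X → ℤ) (j),
      Matrix.vecMul (fun i => ((w i : ℤ) : ZMod p)) M j
        = ((bX (∑ i, w i • b i) (b j) : ℤ) : ZMod p) := by
    intro w j
    simp only [Matrix.vecMul, dotProduct, M, map_sum, LinearMap.sum_apply, map_smul,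
      LinearMap.smul_apply, smul_eq_mul]
    push_cast
    rfl
  have hinj : Function.Injective (fun v => Matrix.vecMul v M) := by
    have hlin : ∀ v, Matrix.vecMul v M = 0 → v = 0 := by
      intro v hv
      obtain ⟨w, hw⟩ := hlift v
      have hv' : v = fun i => ((w i : ℤ) : ZMod p) := by
        ext i; rw [hw]
      set κ := ∑ i, w i • b i with hκ
      have h1 : ∀ j, (p : ℤ) ∣ bX κ (b j) := by
        intro j
        rw [← ZMod.intCast_zmod_eq_zero_iff_dvd, hκ, ← hvm, ← hv', hv]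
        rfl
      have h2 : ∀ y, (p : ℤ) ∣ bX κ y := by
        intro y
        rw [← b.sum_repr y, map_sum]
        apply Finset.dvd_sum
        intro j _
        rw [map_smul, smul_eq_mul]
        exact Dvd.dvd.mul_left (h1 j) _
      obtain ⟨x', hx'⟩ := hnd κ h2
      ext i
      have h3 : b.repr κ i = w i := by
        rw [hκ, map_sum, Finsupp.finsetSum_apply]
        simp [Finsupp.single_apply]
      rw [← hw i, ← h3, hx', map_smul, Finsupp.smul_apply, smul_eq_mul]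
      simp
    intro v v' hvv
    have : Matrix.vecMul (v - v') M = 0 := by
      rw [Matrix.sub_vecMul]
      exact sub_eq_zero.2 hvv
    exact sub_eq_zero.1 (hlin _ this)
  have hsurj := Matrix.vecMul_surjective_iff_isUnit.2 (Matrix.vecMul_injective_iff_isUnit.1 hinj)
  obtain ⟨v, hv⟩ := hsurj (fun j => lam (b j))
  obtain ⟨w, hw⟩ := hlift v
  have hv' : v = fun i => ((w i : ℤ) : ZMod p) := by
    ext i; rw [hw]
  refine ⟨∑ i, w i • b i, ?_⟩
  intro x
  have hb : ∀ j, lam (b j) = ((bX (∑ i, w i • b i) (b j) : ℤ) : ZMod p) := by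
    intro j
    rw [← hvm, ← hv']
    exact (congrFun hv j).symm
  conv_lhs => rw [← b.sum_repr x]
  conv_rhs => rw [← b.sum_repr x]
  rw [map_sum, map_sum]
  push_cast
  apply Finset.sum_congr rfl
  intro j _
  rw [map_zsmul, map_smul, hb, smul_eq_mul]
  push_cast
  rw [zsmul_eq_mul]

/-- separation by a functional mod `p`. -/
theorem sep {p : ℕ} [Fact p.Prime] {X : Type*} [AddCommGroup X] (D : AddSubgroup X)
    (hp : ∀ x : X, p • x ∈ D) (x : X) (hx : x ∉ D) :
    ∃ lam : X →+ ZMod p, (∀ d ∈ D, lam d = 0) ∧ lam x ≠ 0 := by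
  have hp0 : ∀ z : X ⧸ D, p • z = 0 := by
    intro z
    obtain ⟨x, rfl⟩ := QuotientAddGroup.mk_surjective z
    rw [← QuotientAddGroup.mk_nsmul, QuotientAddGroup.eq_zero_iff]
    exact hp x
  have inst : Module (ZMod p) (X ⧸ D) := AddCommGroup.zmodModule hp0
  have hne : (QuotientAddGroup.mk x : X ⧸ D) ≠ 0 := by
    rw [Ne, QuotientAddGroup.eq_zero_iff]
    exact hx
  obtain ⟨lam₀, hlam₀⟩ := Module.Projective.exists_dual_ne_zero (V := X ⧸ D) (ZMod p) hne
  refine ⟨lam₀.toAddMonoidHom.comp (QuotientAddGroup.mk' D), ?_, hlam₀⟩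
  intro d hd
  have : (QuotientAddGroup.mk' D) d = 0 := (QuotientAddGroup.eq_zero_iff d).2 hd
  rw [AddMonoidHom.comp_apply, this, map_zero]

/-- the core: vanishing of the obstruction class in `coker γd`. -/
theorem core {p : ℕ} [Fact p.Prime] {𝔸 X L : Type*} [CommRing 𝔸] [AddCommGroup X] [Module 𝔸 X]
    [Module.Finite ℤ X] [Module.Free ℤ X] [AddCommGroup L]
    (m : Ideal 𝔸) (γ : X →ₗ[ℤ] L) (γd : L →ₗ[ℤ] X)
    (hD : ∀ (a : 𝔸) (y : L), ∃ y', a • γd y = γd y')
    (hK : ∀ (a : 𝔸) (x : X), (∃ y, γ x = (p : ℤ) • y) → ∃ y, γ (a • x) = (p : ℤ) • y)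
    (bX : X →ₗ[ℤ] X →ₗ[ℤ] ℤ) (bL : L →ₗ[ℤ] L →ₗ[ℤ] ℤ)
    (hadj : ∀ x y, bL (γ x) y = bX x (γd y))
    (hsa : ∀ (a : 𝔸) x y, bX (a • x) y = bX x (a • y))
    (hndX : ∀ x, (∀ y, (p : ℤ) ∣ bX x y) → ∃ x', x = (p : ℤ) • x')
    (hndL : ∀ y, (∀ y', (p : ℤ) ∣ bL y y') → ∃ y'', y = (p : ℤ) • y'')
    (hIhara : ∀ h, (∀ t ∈ m, ∃ h', t • h = (p : ℤ) • h') → (∃ y, γ h = (p : ℤ) • y) →
      ∃ h', h = (p : ℤ) • h')
    (u : X) (hu : ∃ y₀, (p : ℤ) • u = γd y₀) (hum : ∀ t ∈ m, ∃ y, t • u = γd y) :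
    ∃ y', u = γd y' := by
  classical
  let P : Submodule 𝔸 X :=
    { carrier := {x | ∃ x', x = (p : ℤ) • x'}
      zero_mem' := ⟨0, by simp⟩
      add_mem' := by
        rintro _ _ ⟨a, rfl⟩ ⟨b, rfl⟩
        exact ⟨a + b, by rw [smul_add]⟩
      smul_mem' := by
        rintro c _ ⟨a, rfl⟩
        exact ⟨c • a, by rw [smul_comm]⟩ }
  let K : Submodule 𝔸 X :=
    { carrier := {x | ∃ y, γ x = (p : ℤ) • y}
      zero_mem' := ⟨0, by simp⟩
      add_mem' := by
        rintro a b ⟨y, hy⟩ ⟨y', hy'⟩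
        exact ⟨y + y', by rw [map_add, hy, hy', smul_add]⟩
      smul_mem' := fun a x hx => hK a x hx }
  let D : Submodule 𝔸 X :=
    { carrier := {x | ∃ y, x = γd y}
      zero_mem' := ⟨0, by simp⟩
      add_mem' := by
        rintro _ _ ⟨y, rfl⟩ ⟨y', rfl⟩
        exact ⟨y + y', by rw [map_add]⟩
      smul_mem' := by
        rintro a _ ⟨y, rfl⟩
        exact hD a y }
  have hPmem : ∀ x, x ∈ P ↔ ∃ x', x = (p : ℤ) • x' := fun _ => Iff.rfl
  have hKmem : ∀ x, x ∈ K ↔ ∃ y, γ x = (p : ℤ) • y := fun _ => Iff.rfl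
  have hDmem : ∀ x, x ∈ D ↔ ∃ y, x = γd y := fun _ => Iff.rfl
  have hfin : Finite (X ⧸ P) := by
    have h1 : Finite (ℤ ⧸ Ideal.span {(p : ℤ)}) :=
      Finite.of_equiv _ (Int.quotientSpanEquivZMod p).symm.toEquiv
    have h2 : Finite (X ⧸ (Ideal.span {(p : ℤ)} • (⊤ : Submodule ℤ X))) :=
      Submodule.finite_quotient_smul _ Module.Finite.fg_top
    have h3 : P.toAddSubgroup = (Ideal.span {(p : ℤ)} • (⊤ : Submodule ℤ X)).toAddSubgroup := by
      ext x
      rw [Submodule.mem_toAddSubgroup, Submodule.mem_toAddSubgroup,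
        Submodule.ideal_span_singleton_smul, Submodule.mem_smul_pointwise_iff_exists, hPmem]
      constructor
      · rintro ⟨x', rfl⟩
        exact ⟨x', Submodule.mem_top, rfl⟩
      · rintro ⟨x', -, rfl⟩
        exact ⟨x', rfl⟩
    have h4 : (Ideal.span {(p : ℤ)} • (⊤ : Submodule ℤ X)).toAddSubgroup.FiniteIndex :=
      @AddSubgroup.finiteIndex_of_finite_quotient _ _ _ h2
    rw [← h3] at h4
    exact P.toAddSubgroup.finite_quotient_of_finiteIndex
  -- Lemma r on the image of `K` in `X ⧸ P`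
  obtain ⟨r, hrm, hr⟩ := exists_mem_ideal_smul_eq (Y := K.map P.mkQ) m (by
    rintro ⟨y, hy⟩ hty
    obtain ⟨κ, hκ, rfl⟩ := Submodule.mem_map.1 hy
    have h1 : κ ∈ P := by
      apply hIhara κ _ hκ
      intro t ht
      have := congrArg Subtype.val (hty t ht)
      simp only [Submodule.coe_smul, Submodule.coe_zero] at this
      rw [← map_smul, Submodule.mkQ_apply, Submodule.Quotient.mk_eq_zero] at this
      exact this
    apply Subtype.ext
    simpa using h1)
  have hrK : ∀ κ ∈ K, κ - r • κ ∈ P := by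
    intro κ hκ
    have := congrArg Subtype.val (hr ⟨P.mkQ κ, Submodule.mem_map_of_mem hκ⟩)
    simp only [Submodule.coe_smul] at this
    rw [← map_smul, Submodule.mkQ_apply, Submodule.mkQ_apply, eq_comm,
      Submodule.Quotient.eq] at this
    exact this
  -- duality step
  have hs : ∀ x₁ : X, x₁ - r • x₁ ∈ D ⊔ P := by
    intro x₁
    by_contra hcon
    obtain ⟨lam, hlamD, hlam₀⟩ := sep (p := p) (D ⊔ P).toAddSubgroup (by
      intro x
      rw [Submodule.mem_toAddSubgroup]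
      apply Submodule.mem_sup_right
      exact ⟨x, by rw [natCast_zsmul]⟩) (x₁ - r • x₁) hcon
    obtain ⟨κ, hκ⟩ := dual_rep bX hndX lam
    have hκK : κ ∈ K := by
      apply hndL
      intro y
      rw [hadj, ← ZMod.intCast_zmod_eq_zero_iff_dvd, ← hκ]
      exact hlamD _ (Submodule.mem_sup_left ⟨y, rfl⟩)
    obtain ⟨κ', hκ'⟩ := hrK κ hκK
    apply hlam₀
    rw [hκ, map_sub, ← hsa, ← LinearMap.sub_apply, ← map_sub, hκ', map_smul,
      LinearMap.smul_apply, smul_eq_mul]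
    simp
  -- the cokernel
  have hsC : ∀ c : X ⧸ D, ∃ c₁ : X ⧸ D, c - r • c = (p : ℤ) • c₁ := by
    intro c
    obtain ⟨x, rfl⟩ := Submodule.Quotient.mk_surjective _ c
    obtain ⟨d, hd, π, ⟨x', rfl⟩, hsum⟩ := Submodule.mem_sup.1 (hs x)
    refine ⟨D.mkQ x', ?_⟩
    rw [← Submodule.mkQ_apply, ← map_smul, ← map_sub, ← hsum, map_add, map_zsmul,
      Submodule.mkQ_apply, (Submodule.Quotient.mk_eq_zero _).2 hd, zero_add]
  have hpow : ∀ (n : ℕ) (c : X ⧸ D), ∃ c' : X ⧸ D, (1 - r) ^ n • c = ((p : ℤ) ^ n) • c' := by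
    intro n
    induction n with
    | zero => intro c; exact ⟨c, by simp⟩
    | succ n ih =>
      intro c
      obtain ⟨c₁, hc₁⟩ := hsC c
      obtain ⟨c₂, hc₂⟩ := ih c₁
      refine ⟨c₂, ?_⟩
      rw [pow_succ, mul_smul, sub_smul, one_smul, hc₁, smul_comm, hc₂, ← mul_smul, pow_succ']
  have hubar : ∀ n : ℕ, (1 - r) ^ n • D.mkQ u = D.mkQ u := by
    intro n
    induction n with
    | zero => simp
    | succ n ih =>
      rw [pow_succ, mul_smul, sub_smul, one_smul]
      have : r • D.mkQ u = 0 := by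
        rw [← map_smul, Submodule.mkQ_apply, Submodule.Quotient.mk_eq_zero]
        exact hum r hrm
      rw [this, sub_zero, ih]
  have hfinC : Module.Finite ℤ (X ⧸ D) :=
    Module.Finite.of_surjective D.mkQ.toAddMonoidHom.toIntLinearMap
      (Submodule.Quotient.mk_surjective D)
  have hmem : D.mkQ u ∈ (⨅ i : ℕ, (Ideal.span {(p : ℤ)}) ^ i • ⊤ : Submodule ℤ (X ⧸ D)) := by
    rw [Submodule.mem_iInf]
    intro i
    obtain ⟨c', hc'⟩ := hpow i (D.mkQ u)
    rw [← hubar i, hc']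
    exact Submodule.smul_mem_smul (Ideal.pow_mem_pow (Ideal.mem_span_singleton_self _) i)
      Submodule.mem_top
  obtain ⟨⟨ρ, hρ⟩, hρu⟩ := (Ideal.mem_iInf_smul_pow_eq_bot_iff _ _).1 hmem
  obtain ⟨c, rfl⟩ := Ideal.mem_span_singleton'.1 hρ
  have hpu : (p : ℤ) • D.mkQ u = 0 := by
    rw [← map_zsmul, Submodule.mkQ_apply, Submodule.Quotient.mk_eq_zero]
    exact hu
  have h0 : D.mkQ u = 0 := by
    rw [← hρu]
    simp only
    rw [mul_smul, hpu, smul_zero]
  rw [Submodule.mkQ_apply, Submodule.Quotient.mk_eq_zero] at h0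
  exact h0

end Fermat.Agent.S41.ALR

namespace Fermat.Agent.S41

open ALR in
/-- **Abstract level raising.**  `X = H × H` (old lattice), `L` the lattice at the raised level, `γ` the degeneracy
map, `γd` its adjoint.  If `γ` is injective mod `p` on `θ`-eigenvectors (Ihara) and `h₀` is a `θ`-eigenvector mod `p`
killed mod `p` by `γd ∘ γ`, then `ker γd` contains a `θ`-eigenvector mod `p`. -/
theorem abstract_level_raising {p : ℕ} [Fact p.Prime] {X L ι : Type*} [AddCommGroup X]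
    [Module.Finite ℤ X] [Module.Free ℤ X] [AddCommGroup L]
    (T : ι → Module.End ℤ X) (T' : ι → Module.End ℤ L) (θ : ι → ℤ)
    (hcomm : ∀ i j, Commute (T i) (T j))
    (γ : X →ₗ[ℤ] L) (γd : L →ₗ[ℤ] X)
    (hγ : ∀ i x, γ (T i x) = T' i (γ x)) (hγd : ∀ i y, γd (T' i y) = T i (γd y))
    (bX : X →ₗ[ℤ] X →ₗ[ℤ] ℤ) (bL : L →ₗ[ℤ] L →ₗ[ℤ] ℤ)
    (hadj : ∀ x y, bL (γ x) y = bX x (γd y))
    (hsa : ∀ i x y, bX (T i x) y = bX x (T i y))
    (hndX : ∀ x, (∀ y, (p : ℤ) ∣ bX x y) → ∃ x', x = (p : ℤ) • x')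
    (hndL : ∀ y, (∀ y', (p : ℤ) ∣ bL y y') → ∃ y'', y = (p : ℤ) • y'')
    (hIhara : ∀ h, (∀ i, ∃ h', T i h - θ i • h = (p : ℤ) • h') → (∃ y, γ h = (p : ℤ) • y) →
      ∃ h', h = (p : ℤ) • h')
    (h₀ : X) (h₀ne : ¬ ∃ h', h₀ = (p : ℤ) • h')
    (h₀eig : ∀ i, ∃ h', T i h₀ - θ i • h₀ = (p : ℤ) • h')
    (h₀ker : ∃ u, γd (γ h₀) = (p : ℤ) • u) :
    ∃ y : L, γd y = 0 ∧ (¬ ∃ y', y = (p : ℤ) • y') ∧
      ∀ i, ∃ y', T' i y - θ i • y = (p : ℤ) • y' := by
  classical
  have hp0 : (p : ℤ) ≠ 0 := by exact_mod_cast (Fact.out : p.Prime).ne_zero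
  have hc : ∀ a ∈ Set.range T, ∀ b ∈ Set.range T, a * b = b * a := by
    rintro _ ⟨i, rfl⟩ _ ⟨j, rfl⟩
    exact hcomm i j
  let inst : CommRing (Algebra.adjoin ℤ (Set.range T)) :=
    { (Algebra.adjoin ℤ (Set.range T)).toRing with
      mul_comm := (Algebra.isMulCommutative_adjoin ℤ hc).is_comm.comm }
  have hsmul : ∀ (a : Algebra.adjoin ℤ (Set.range T)) (x : X),
      a • x = (a : Module.End ℤ X) x := fun _ _ => rfl
  have hcommA : ∀ a ∈ Algebra.adjoin ℤ (Set.range T), ∀ b ∈ Algebra.adjoin ℤ (Set.range T),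
      a * b = b * a := by
    intro a ha b hb
    exact congrArg Subtype.val (mul_comm (⟨a, ha⟩ : Algebra.adjoin ℤ (Set.range T)) ⟨b, hb⟩)
  have hD' : ∀ a ∈ Algebra.adjoin ℤ (Set.range T), ∀ y, ∃ y', a (γd y) = γd y' := by
    intro a ha
    induction ha using Algebra.adjoin_induction with
    | mem a ha =>
      obtain ⟨i, rfl⟩ := ha
      intro y
      exact ⟨T' i y, (hγd i y).symm⟩
    | algebraMap r =>
      intro y
      exact ⟨r • y, by rw [map_smul]; rfl⟩
    | add a b _ _ iha ihb =>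
      intro y
      obtain ⟨y1, h1⟩ := iha y
      obtain ⟨y2, h2⟩ := ihb y
      exact ⟨y1 + y2, by rw [LinearMap.add_apply, h1, h2, map_add]⟩
    | mul a b _ _ iha ihb =>
      intro y
      obtain ⟨y1, h1⟩ := ihb y
      obtain ⟨y2, h2⟩ := iha y1
      exact ⟨y2, by rw [Module.End.mul_apply, h1, h2]⟩
  have hK' : ∀ a ∈ Algebra.adjoin ℤ (Set.range T), ∃ a' : Module.End ℤ L,
      ∀ x, γ (a x) = a' (γ x) := by
    intro a ha
    induction ha using Algebra.adjoin_induction with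
    | mem a ha =>
      obtain ⟨i, rfl⟩ := ha
      exact ⟨T' i, hγ i⟩
    | algebraMap r =>
      exact ⟨algebraMap ℤ _ r, fun x => by
        rw [Module.algebraMap_end_apply, Module.algebraMap_end_apply, map_smul]⟩
    | add a b _ _ iha ihb =>
      obtain ⟨a', h1⟩ := iha
      obtain ⟨b', h2⟩ := ihb
      exact ⟨a' + b', fun x => by
        rw [LinearMap.add_apply, map_add, h1, h2, LinearMap.add_apply]⟩
    | mul a b _ _ iha ihb =>
      obtain ⟨a', h1⟩ := iha
      obtain ⟨b', h2⟩ := ihb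
      exact ⟨a' * b', fun x => by
        rw [Module.End.mul_apply, h1, h2, Module.End.mul_apply]⟩
  have hsa' : ∀ a ∈ Algebra.adjoin ℤ (Set.range T), ∀ x y, bX (a x) y = bX x (a y) := by
    intro a ha
    induction ha using Algebra.adjoin_induction with
    | mem a ha =>
      obtain ⟨i, rfl⟩ := ha
      exact hsa i
    | algebraMap r =>
      intro x y
      rw [Module.algebraMap_end_apply, Module.algebraMap_end_apply, map_smul, map_smul,
        LinearMap.smul_apply]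
    | add a b _ _ iha ihb =>
      intro x y
      rw [LinearMap.add_apply, LinearMap.add_apply, map_add, map_add, LinearMap.add_apply,
        iha, ihb]
    | mul a b ha hb iha ihb =>
      intro x y
      rw [Module.End.mul_apply, iha, ihb, ← Module.End.mul_apply, ← hcommA a ha b hb]
  let t : ι → Algebra.adjoin ℤ (Set.range T) := fun i =>
    ⟨T i - algebraMap ℤ _ (θ i), Subalgebra.sub_mem _ (Algebra.subset_adjoin ⟨i, rfl⟩)
      (Subalgebra.algebraMap_mem _ _)⟩
  have ht : ∀ i x, t i • x = T i x - θ i • x := by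
    intro i x
    rw [hsmul]
    simp only [t, LinearMap.sub_apply, Module.algebraMap_end_apply]
  -- the obstruction
  obtain ⟨u, hu⟩ := h₀ker
  have huT : ∀ i, ∃ y, T i u - θ i • u = γd y := by
    intro i
    obtain ⟨h', hh'⟩ := h₀eig i
    refine ⟨γ h', ?_⟩
    have h1 : (p : ℤ) • (T i u - θ i • u) = (p : ℤ) • γd (γ h') := by
      rw [← map_smul, ← map_smul, ← hh', smul_sub, ← map_smul, ← hu, smul_comm, ← hu, map_sub,
        map_sub, hγ, hγd, map_smul, map_smul]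
    exact smul_right_injective X hp0 h1
  obtain ⟨y', hy'⟩ := core (p := p) (Ideal.span (Set.range t)) γ γd
    (fun a y => hD' a.1 a.2 y)
    (fun a x hx => by
      obtain ⟨y, hy⟩ := hx
      obtain ⟨a', ha'⟩ := hK' a.1 a.2
      exact ⟨a' y, by rw [hsmul, ha', hy, map_smul]⟩)
    bX bL hadj (fun a x y => hsa' a.1 a.2 x y) hndX hndL
    (fun h hh hγh => hIhara h (fun i => by
      obtain ⟨h', hh'⟩ := hh (t i) (Ideal.subset_span ⟨i, rfl⟩)
      exact ⟨h', by rw [← ht, hh']⟩) hγh)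
    u ⟨γ h₀, hu.symm⟩ (by
      intro s hs
      induction hs using Submodule.span_induction with
      | mem s hs =>
        obtain ⟨i, rfl⟩ := hs
        rw [ht]
        exact huT i
      | zero => exact ⟨0, by simp⟩
      | add a b _ _ iha ihb =>
        obtain ⟨y1, h1⟩ := iha
        obtain ⟨y2, h2⟩ := ihb
        exact ⟨y1 + y2, by rw [add_smul, h1, h2, map_add]⟩
      | smul a b _ ihb =>
        obtain ⟨y1, h1⟩ := ihb
        obtain ⟨y2, h2⟩ := hD' a.1 a.2 y1
        exact ⟨y2, by rw [smul_eq_mul, mul_smul, h1, ← h2]; rfl⟩)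
  refine ⟨γ h₀ - (p : ℤ) • y', ?_, ?_, ?_⟩
  · rw [map_sub, map_smul, hu, ← hy', sub_self]
  · rintro ⟨y'', hy''⟩
    apply h₀ne
    apply hIhara h₀ h₀eig
    exact ⟨y'' + y', by rw [smul_add, ← hy'']; abel⟩
  · intro i
    obtain ⟨h', hh'⟩ := h₀eig i
    refine ⟨γ h' - (T' i y' - θ i • y'), ?_⟩
    have h1 : (p : ℤ) • γ h' = T' i (γ h₀) - θ i • γ h₀ := by
      rw [← map_smul, ← hh', map_sub, hγ, map_smul]
    rw [smul_sub (p : ℤ) (γ h'), h1, map_sub, map_smul, smul_sub, smul_sub,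
      smul_comm (θ i) (p : ℤ) y']
    abel

end Fermat.Agent.S41
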