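import Fermat.Agent.S41.Soft

/-!
# S41: the soft Ihara lemma (function level), final statement
-/

set_option autoImplicit false

open Matrix Matrix.SpecialLinearGroup CongruenceSubgroup OnePoint
open scoped MatrixGroups

namespace Fermat.Agent.S41.Soft

noncomputable section

/-- every element of `Γ₀(N)` becomes "good" after left multiplication by parabolic elements -/
theorem exists_good {N q : ℕ} (hq : q.Prime) (hqN : ¬ q ∣ N) (g : SL(2, ℤ)) :
    ∃ m y : ℤ, (Lw N y * (ModularGroup.T ^ m * g)) 0 0 ≠ 0 ∧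
      IsCoprime (q : ℤ) ((Lw N y * (ModularGroup.T ^ m * g)) 1 0) := by
  have hdet : g 0 0 * g 1 1 - g 0 1 * g 1 0 = 1 := by
    have := g.det_coe
    rwa [Matrix.det_fin_two] at this
  have hqZ : Prime (q : ℤ) := Nat.prime_iff_prime_int.mp hq
  have e00 : ∀ m y : ℤ, (Lw N y * (ModularGroup.T ^ m * g)) 0 0 = g 0 0 + m * g 1 0 := by
    intro m y
    rw [Matrix.SpecialLinearGroup.coe_mul, Matrix.SpecialLinearGroup.coe_mul,
      ModularGroup.coe_T_zpow]
    simp [Lw, Matrix.mul_apply, Fin.sum_univ_two, Matrix.vecMul, dotProduct]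
  have e10 : ∀ m y : ℤ, (Lw N y * (ModularGroup.T ^ m * g)) 1 0
      = (N : ℤ) * y * (g 0 0 + m * g 1 0) + g 1 0 := by
    intro m y
    rw [Matrix.SpecialLinearGroup.coe_mul, Matrix.SpecialLinearGroup.coe_mul,
      ModularGroup.coe_T_zpow]
    simp [Lw, Matrix.mul_apply, Fin.sum_univ_two, Matrix.vecMul, dotProduct]
  obtain ⟨m, hm⟩ : ∃ m : ℤ, g 0 0 + m * g 1 0 ≠ 0 := by
    by_cases ha : g 0 0 = 0
    · refine ⟨1, ?_⟩
      rw [ha] at hdet ⊢
      intro h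
      have : g 1 0 = 0 := by linarith
      rw [this] at hdet
      simp at hdet
    · exact ⟨0, by simpa using ha⟩
  by_cases hc : (q : ℤ) ∣ g 1 0
  · refine ⟨m, 1, by rw [e00]; exact hm, ?_⟩
    rw [e10, hqZ.coprime_iff_not_dvd]
    intro h
    have h1 : (q : ℤ) ∣ (N : ℤ) * 1 * (g 0 0 + m * g 1 0) := (dvd_add_left hc).mp h
    rw [mul_one] at h1
    rcases hqZ.dvd_or_dvd h1 with h2 | h2
    · exact hqN (by exact_mod_cast h2)
    · have h3 : (q : ℤ) ∣ g 0 0 := (dvd_add_left (hc.mul_left m)).mp h2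
      have h4 : (q : ℤ) ∣ 1 := by
        rw [← hdet]
        exact dvd_sub (h3.mul_right _) (hc.mul_left _)
      exact hqZ.not_dvd_one h4
  · refine ⟨m, 0, by rw [e00]; exact hm, ?_⟩
    rw [e10, hqZ.coprime_iff_not_dvd]
    simpa using hc

universe u

/-- **Soft Ihara lemma**, function level. -/
theorem soft_ihara {N q : ℕ} (hN : 0 < N) (hq : q.Prime) (hqN : ¬ q ∣ N) :
    ∃ M₀ : ℕ, 0 < M₀ ∧ ∀ l l₁ : ℕ, l.Prime → l₁.Prime → l ≡ 1 [MOD M₀] → l ≠ q →
      l₁ ≡ 1 [MOD N * q] → ∀ (A : Type u) [AddCommGroup A] (F₁ F₂ : OnePoint ℚ → A),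
      IsPot (Gamma0 N) F₁ → IsPot (Gamma0 N) F₂ →
      IsInv (Gamma0 (N * q)) (fun s => F₁ s + F₂ (dgQ q • s)) →
      IsInv (Gamma0 N) (DD l (DD l₁ F₁)) ∧ IsInv (Gamma0 N) (DD l (DD l₁ F₂)) := by
  classical
  have : NeZero N := ⟨hN.ne'⟩
  have hfg0 : Group.FG SL(2, ℤ) :=
    Group.fg_iff.mpr ⟨{ModularGroup.S, ModularGroup.T}, SpecialLinearGroup.SL2Z_generators,
      by simp⟩
  have hfg : Group.FG (Gamma0 N) := Subgroup.fg_of_index_ne_zero _
  obtain ⟨S, hS, hSfin⟩ := Group.fg_iff.mp hfg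
  choose m y h00 h10 using fun g : SL(2, ℤ) => exists_good (N := N) hq hqN g
  let good : SL(2, ℤ) → SL(2, ℤ) := fun g => Lw N (y g) * (ModularGroup.T ^ (m g) * g)
  let M₀ : ℕ := N * ∏ g ∈ hSfin.toFinset, ((good (g : SL(2, ℤ))) 0 0).natAbs
  have hM₀ : 0 < M₀ := by
    refine Nat.mul_pos hN (Finset.prod_pos fun g _ => ?_)
    exact Int.natAbs_pos.mpr (h00 _)
  refine ⟨M₀, hM₀, ?_⟩
  intro l l₁ hl hl₁ hlM hlq hl₁M A _ F₁ F₂ h₁ h₂ hG
  have hlM' : (M₀ : ℤ) ∣ (l : ℤ) - 1 := by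
    have := (Nat.modEq_iff_dvd.mp hlM.symm)
    simpa using this
  have hl₁M' : ((N * q : ℕ) : ℤ) ∣ (l₁ : ℤ) - 1 := by
    have := (Nat.modEq_iff_dvd.mp hl₁M.symm)
    simpa using this
  have hNl : (N : ℤ) ∣ (l : ℤ) - 1 := by
    refine Dvd.dvd.trans ?_ hlM'
    exact_mod_cast Dvd.intro _ rfl
  have hlN : ¬ l ∣ N := by
    intro h
    have h1 : (l : ℤ) ∣ (l : ℤ) - 1 := Dvd.dvd.trans (by exact_mod_cast h) hNl
    have h2 : (l : ℤ) ∣ 1 := by
      have := dvd_sub (dvd_refl (l : ℤ)) h1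
      simpa using this
    have h3 : l ∣ 1 := by exact_mod_cast h2
    exact hl.one_lt.ne' (Nat.dvd_one.mp h3)
  have hl₁N : ¬ l₁ ∣ N := by
    intro h
    have h1 : (l₁ : ℤ) ∣ (l₁ : ℤ) - 1 := by
      refine Dvd.dvd.trans ?_ hl₁M'
      have : l₁ ∣ N * q := h.mul_right q
      exact_mod_cast this
    have h2 : (l₁ : ℤ) ∣ 1 := by
      have := dvd_sub (dvd_refl (l₁ : ℤ)) h1
      simpa using this
    have h3 : l₁ ∣ 1 := by exact_mod_cast h2
    exact hl₁.one_lt.ne' (Nat.dvd_one.mp h3)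
  obtain ⟨hq1, hq2⟩ := step1 hq hqN hl₁ hl₁M' F₁ F₂ h₁ h₂ hG
  -- the general argument
  have main : ∀ F : OnePoint ℚ → A, IsPot (Gamma0 N) F → (∀ s, F (dgQ q • dgQ q • s) = F s) →
      IsInv (Gamma0 N) (DD l F) := by
    intro F hF hFq γ hγ
    have hD : IsPot (Gamma0 N) (DD l F) := hF.DD hl hlN
    have hmem : (⟨γ, hγ⟩ : Gamma0 N) ∈ Subgroup.closure S := by rw [hS]; trivial
    have key : ∀ x : Gamma0 N, x ∈ Subgroup.closure S →
        ∀ s, DD l F (mapGL ℚ (x : SL(2, ℤ)) • s) = DD l F s := by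
      intro x hx
      induction hx using Subgroup.closure_induction with
      | mem x hx =>
        intro s
        have hgood : good (x : SL(2, ℤ)) ∈ Gamma0 N :=
          mul_mem (Lw_mem N _) (mul_mem (T_zpow_mem N _) x.2)
        have hdvd : (N : ℤ) * (good (x : SL(2, ℤ))) 0 0 ∣ (l : ℤ) - 1 := by
          refine Dvd.dvd.trans ?_ hlM'
          have h1 : ((good (x : SL(2, ℤ))) 0 0).natAbs ∣
              ∏ g ∈ hSfin.toFinset, ((good (g : SL(2, ℤ))) 0 0).natAbs :=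
            Finset.dvd_prod_of_mem (fun g : Gamma0 N => ((good (g : SL(2, ℤ))) 0 0).natAbs)
              (hSfin.mem_toFinset.mpr hx)
          have h2 : (good (x : SL(2, ℤ))) 0 0 ∣
              ((∏ g ∈ hSfin.toFinset, ((good (g : SL(2, ℤ))) 0 0).natAbs : ℕ) : ℤ) :=
            Int.natAbs_dvd.mp (by exact_mod_cast h1)
          show (N : ℤ) * (good (x : SL(2, ℤ))) 0 0 ∣ ((N * _ : ℕ) : ℤ)
          rw [Nat.cast_mul]
          exact mul_dvd_mul_left _ h2
        have h3 := step2 hq hl hlN hlq F hF hFq (good (x : SL(2, ℤ))) hgood (h10 _) hdvd s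
        have h4 : mapGL ℚ (good (x : SL(2, ℤ))) • s = mapGL ℚ (Lw N (y (x : SL(2, ℤ)))) •
            mapGL ℚ (ModularGroup.T ^ (m (x : SL(2, ℤ)))) • mapGL ℚ (x : SL(2, ℤ)) • s := by
          rw [← mul_smul, ← mul_smul, ← map_mul, ← map_mul, mul_assoc]
        rw [h4, hD.inv_Lw, hD.inv_T_zpow] at h3
        exact h3
      | one => intro s; simp
      | mul a b _ _ ha hb =>
        intro s
        rw [Subgroup.coe_mul, map_mul, mul_smul, ha, hb]
      | inv a _ ha =>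
        intro s
        have := ha (mapGL ℚ ((a⁻¹ : Gamma0 N) : SL(2, ℤ)) • s)
        rw [← mul_smul, ← map_mul, ← Subgroup.coe_mul, mul_inv_cancel] at this
        simpa using this.symm
    exact key ⟨γ, hγ⟩ hmem
  exact ⟨main _ (h₁.DD hl₁ hl₁N) hq1, main _ (h₂.DD hl₁ hl₁N) hq2⟩

end

end Fermat.Agent.S41.Soft
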