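import Fermat.Agent.S41.Defs
import Fermat.Agent.S41.SoftMain
import Fermat.Agent.S41.PD.Defs

/-!
# S41 : dictionary between `Defs.lean` (`Symb`, `Inv`, `opT`, ...), `Soft*.lean` (`Soft.IsPot`, `Soft.TT`, ...)
and `PD/Defs.lean` (`PD.IsPot`, ...)
-/

set_option autoImplicit false

open Matrix Matrix.SpecialLinearGroup CongruenceSubgroup OnePoint
open scoped MatrixGroups

namespace Fermat.Agent.S41

variable {Γ : Subgroup SL(2, ℤ)} {A : Type*} [AddCommGroup A]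

theorem mem_Symb_iff_soft {u : OnePoint ℚ → A} : u ∈ Symb Γ A ↔ Soft.IsPot Γ u := by
  constructor
  · intro h γ hγ
    refine ⟨u (mapGL ℚ γ • ∞) - u ∞, fun s => ?_⟩
    rw [← h γ hγ s ∞]
    abel
  · intro h γ hγ s t
    obtain ⟨c, hc⟩ := h γ hγ
    rw [hc, hc]
    abel

theorem mem_Inv_iff_soft {u : OnePoint ℚ → A} : u ∈ Inv Γ A ↔ Soft.IsInv Γ u := Iff.rfl

theorem mem_Symb_iff_pd {u : OnePoint ℚ → A} : u ∈ Symb Γ A ↔ PD.IsPot Γ u := mem_Symb_iff_soft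

theorem mem_Inv_iff_pd {u : OnePoint ℚ → A} : u ∈ Inv Γ A ↔ PD.IsInv Γ u := Iff.rfl

theorem mk2_eq_upQ (q i : ℕ) : mk2 1 i 0 q = Soft.upQ q i := by
  rcases eq_or_ne q 0 with rfl | hq
  · simp [mk2, Soft.upQ]
  · apply Units.ext
    rw [Soft.val_upQ hq, coe_mk2]
    simpa using hq

theorem mk2_eq_dgQ (q : ℕ) : mk2 q 0 0 1 = Soft.dgQ q := by
  rcases eq_or_ne q 0 with rfl | hq
  · simp [mk2, Soft.dgQ]
  · apply Units.ext
    rw [Soft.val_dgQ hq, coe_mk2]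
    simpa using hq

theorem opB_apply (q : ℕ) (u : OnePoint ℚ → A) (s : OnePoint ℚ) :
    opB A q u s = u (Soft.dgQ q • s) := by
  rw [opB, pull_apply, mk2_eq_dgQ]

theorem opU_apply (q : ℕ) (u : OnePoint ℚ → A) (s : OnePoint ℚ) :
    opU A q u s = ∑ i ∈ Finset.range q, u (Soft.upQ q i • s) := by
  rw [opU, LinearMap.sum_apply, Finset.sum_apply]
  refine Finset.sum_congr rfl fun i _ => ?_
  rw [pull_apply, mk2_eq_upQ]

theorem opT_eq_TT (l : ℕ) (u : OnePoint ℚ → A) : opT A l u = Soft.TT l u := by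
  funext s
  rw [opT, LinearMap.add_apply, Pi.add_apply, opB_apply, opU_apply]
  rfl

theorem opT_sub_eq_DD (l : ℕ) (u : OnePoint ℚ → A) :
    opT A l u - ((l : ℤ) + 1) • u = Soft.DD l u := by
  funext s
  rw [Pi.sub_apply, opT_eq_TT, Pi.smul_apply, Soft.DD]
  congr 1
  have : ((l : ℤ) + 1) = ((l + 1 : ℕ) : ℤ) := by push_cast; ring
  rw [this, natCast_zsmul]

end Fermat.Agent.S41
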