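import Mathlib

/-!
# S41: cusps congruent modulo `M` are `Γ(M)`-equivalent; `T_l = l+1` on `Γ₀(M)`-invariant
functions on the cusps, `l ≡ 1 mod M`.
-/

set_option autoImplicit false

open Matrix Matrix.SpecialLinearGroup CongruenceSubgroup OnePoint
open scoped MatrixGroups

namespace Fermat.Agent.S41

/-- a primitive vector `≡ (1,0) mod M` is the first column of an element of `Γ(M)`. -/
theorem exists_Gamma_col (M : ℕ) {r s : ℤ} (hcop : IsCoprime r s) (hr : (M : ℤ) ∣ r - 1)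
    (hs : (M : ℤ) ∣ s) : ∃ γ : SL(2, ℤ), γ ∈ Gamma M ∧ γ 0 0 = r ∧ γ 1 0 = s := by
  obtain ⟨u, v, huv⟩ := hcop
  -- `d₀ = u`, `b₀ = -v`
  refine ⟨⟨!![r, (-v) * (1 - r); s, u - (-v) * s], ?_⟩, ?_, rfl, rfl⟩
  · rw [Matrix.det_fin_two_of]
    linear_combination huv
  · rw [Gamma_mem]
    have h1 : ((r - 1 : ℤ) : ZMod M) = 0 := (ZMod.intCast_zmod_eq_zero_iff_dvd _ _).2 hr
    have h2 : ((s : ℤ) : ZMod M) = 0 := (ZMod.intCast_zmod_eq_zero_iff_dvd _ _).2 hs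
    have h1' : ((r : ℤ) : ZMod M) = 1 := by
      push_cast at h1
      exact sub_eq_zero.1 h1
    have h3 : ((u : ℤ) : ZMod M) = 1 := by
      have := congrArg (fun z : ℤ => (z : ZMod M)) huv
      push_cast at this
      rw [h1', h2] at this
      simpa using this
    refine ⟨?_, ?_, ?_, ?_⟩
    · simpa using h1'
    · simp [h1']
    · simpa using h2
    · simp [h2, h3]

theorem smul_infty_eq_of_col (A B : GL (Fin 2) ℚ) {c : ℚ} (hc : c ≠ 0) (h0 : A 0 0 = c * B 0 0)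
    (h1 : A 1 0 = c * B 1 0) : A • (∞ : OnePoint ℚ) = B • (∞ : OnePoint ℚ) := by
  rw [smul_infty_eq_ite, smul_infty_eq_ite, h0, h1]
  by_cases hB : B 1 0 = 0
  · simp [hB]
  · rw [if_neg hB, if_neg (mul_ne_zero hc hB), mul_div_mul_left _ _ hc]

theorem mapGL_apply (g : SL(2, ℤ)) (i j : Fin 2) : (mapGL ℚ g : GL (Fin 2) ℚ) i j = (g i j : ℚ) := by
  simp [mapGL_coe_matrix]

/-- an integral matrix `≡ 1 mod M` of prime determinant `l ≡ 1 mod M` moves every cusp inside its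
`Γ(M)`-orbit. -/
theorem exists_Gamma_smul_eq (M : ℕ) {l : ℕ} (hl : l.Prime) (hlM : (M : ℤ) ∣ (l : ℤ) - 1)
    (D : Matrix (Fin 2) (Fin 2) ℤ) (hdet : D.det = l) (h00 : (M : ℤ) ∣ D 0 0 - 1)
    (h01 : (M : ℤ) ∣ D 0 1) (h10 : (M : ℤ) ∣ D 1 0) (h11 : (M : ℤ) ∣ D 1 1 - 1)
    (δ : GL (Fin 2) ℚ) (hδ : ∀ i j, δ i j = (D i j : ℚ)) (s : OnePoint ℚ) :
    ∃ γ : SL(2, ℤ), γ ∈ Gamma M ∧ δ • s = mapGL ℚ γ • s := by
  obtain ⟨g, rfl⟩ := exists_mem_SL2 ℤ s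
  have hg : g 0 0 * g 1 1 - g 0 1 * g 1 0 = 1 := by
    have := g.det_coe
    rwa [Matrix.det_fin_two] at this
  rw [Matrix.det_fin_two] at hdet
  set x : ℤ := D 0 0 * g 0 0 + D 0 1 * g 1 0 with hx
  set y : ℤ := D 1 0 * g 0 0 + D 1 1 * g 1 0 with hy
  have hxy : x * (D 1 0 * g 0 1 + D 1 1 * g 1 1) - y * (D 0 0 * g 0 1 + D 0 1 * g 1 1) = l := by
    rw [hx, hy, ← hdet]
    linear_combination (D 0 0 * D 1 1 - D 0 1 * D 1 0) * hg
  set c : ℕ := Int.gcd x y with hc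
  have hcl : (c : ℤ) ∣ (l : ℤ) := by
    rw [← hxy]
    exact dvd_sub (Dvd.dvd.mul_right (Int.gcd_dvd_left x y) _) (Dvd.dvd.mul_right (Int.gcd_dvd_right x y) _)
  have hcl' : c ∣ l := by exact_mod_cast hcl
  have hc0 : c ≠ 0 := by
    rintro h0
    rw [h0] at hcl'
    exact hl.ne_zero (Nat.eq_zero_of_zero_dvd hcl')
  have hcM : (M : ℤ) ∣ (c : ℤ) - 1 := by
    rcases (Nat.dvd_prime hl).1 hcl' with h | h
    · rw [h]; simp
    · rw [h]; exact hlM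
  obtain ⟨x', hx'⟩ : (c : ℤ) ∣ x := Int.gcd_dvd_left x y
  obtain ⟨y', hy'⟩ : (c : ℤ) ∣ y := Int.gcd_dvd_right x y
  have hcop : IsCoprime x' y' := by
    have hb := Int.gcd_eq_gcd_ab x y
    rw [← hc] at hb
    refine ⟨Int.gcdA x y, Int.gcdB x y, ?_⟩
    have hc0' : (c : ℤ) ≠ 0 := by exact_mod_cast hc0
    apply mul_left_cancel₀ hc0'
    linear_combination (-1 : ℤ) * hb - Int.gcdA x y * hx' - Int.gcdB x y * hy'
  -- the vector `w = g⁻¹ (x', y')`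
  set w0 : ℤ := g 1 1 * x' - g 0 1 * y' with hw0
  set w1 : ℤ := -(g 1 0) * x' + g 0 0 * y' with hw1
  have hxw : x' = g 0 0 * w0 + g 0 1 * w1 := by
    rw [hw0, hw1]; linear_combination (-x') * hg
  have hyw : y' = g 1 0 * w0 + g 1 1 * w1 := by
    rw [hw0, hw1]; linear_combination (-y') * hg
  have hcopw : IsCoprime w0 w1 := by
    obtain ⟨u, v, huv⟩ := hcop
    refine ⟨u * g 0 0 + v * g 1 0, u * g 0 1 + v * g 1 1, ?_⟩
    linear_combination huv - u * hxw - v * hyw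
  have cast0 : ∀ z : ℤ, (M : ℤ) ∣ z → ((z : ℤ) : ZMod M) = 0 :=
    fun z hz => (ZMod.intCast_zmod_eq_zero_iff_dvd _ _).2 hz
  have e00 : ((D 0 0 : ℤ) : ZMod M) = 1 := by
    have := cast0 _ h00; push_cast at this; exact sub_eq_zero.1 this
  have e11 : ((D 1 1 : ℤ) : ZMod M) = 1 := by
    have := cast0 _ h11; push_cast at this; exact sub_eq_zero.1 this
  have ec : ((c : ℤ) : ZMod M) = 1 := by
    have := cast0 _ hcM; push_cast at this ⊢; exact sub_eq_zero.1 this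
  have ex : ((x' : ℤ) : ZMod M) = ((g 0 0 : ℤ) : ZMod M) := by
    have h1 : ((x : ℤ) : ZMod M) = ((c : ℤ) : ZMod M) * ((x' : ℤ) : ZMod M) := by
      rw [hx']; push_cast; ring
    rw [ec, one_mul] at h1
    rw [← h1, hx]
    push_cast
    rw [e00, cast0 _ h01]
    ring
  have ey : ((y' : ℤ) : ZMod M) = ((g 1 0 : ℤ) : ZMod M) := by
    have h1 : ((y : ℤ) : ZMod M) = ((c : ℤ) : ZMod M) * ((y' : ℤ) : ZMod M) := by
      rw [hy']; push_cast; ring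
    rw [ec, one_mul] at h1
    rw [← h1, hy]
    push_cast
    rw [e11, cast0 _ h10]
    ring
  have hgM : ((g 0 0 : ℤ) : ZMod M) * ((g 1 1 : ℤ) : ZMod M)
      - ((g 0 1 : ℤ) : ZMod M) * ((g 1 0 : ℤ) : ZMod M) = 1 := by
    have := congrArg (fun z : ℤ => (z : ZMod M)) hg
    push_cast at this
    exact this
  have hw0M : (M : ℤ) ∣ w0 - 1 := by
    rw [← ZMod.intCast_zmod_eq_zero_iff_dvd, hw0]
    push_cast
    rw [ex, ey]
    linear_combination hgM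
  have hw1M : (M : ℤ) ∣ w1 := by
    rw [← ZMod.intCast_zmod_eq_zero_iff_dvd, hw1]
    push_cast
    rw [ex, ey]
    ring
  obtain ⟨γ', hγ', hγ0, hγ1⟩ := exists_Gamma_col M hcopw hw0M hw1M
  refine ⟨g * γ' * g⁻¹, (Gamma_normal M).conj_mem γ' hγ' g, ?_⟩
  rw [← mul_smul, ← mul_smul, ← map_mul, inv_mul_cancel_right]
  have hcQ : (c : ℚ) ≠ 0 := by exact_mod_cast hc0
  apply smul_infty_eq_of_col _ _ hcQ
  · rw [mapGL_apply, Matrix.GeneralLinearGroup.coe_mul, Matrix.mul_apply, Fin.sum_univ_two,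
      Matrix.SpecialLinearGroup.coe_mul, Matrix.mul_apply, Fin.sum_univ_two, hδ, hδ, mapGL_apply,
      mapGL_apply, hγ0, hγ1, ← hxw]
    have : (x : ℚ) = (c : ℚ) * (x' : ℚ) := by rw [hx']; push_cast; ring
    rw [← this, hx]
    push_cast
    ring
  · rw [mapGL_apply, Matrix.GeneralLinearGroup.coe_mul, Matrix.mul_apply, Fin.sum_univ_two,
      Matrix.SpecialLinearGroup.coe_mul, Matrix.mul_apply, Fin.sum_univ_two, hδ, hδ, mapGL_apply,
      mapGL_apply, hγ0, hγ1, ← hyw]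
    have : (y : ℚ) = (c : ℚ) * (y' : ℚ) := by rw [hy']; push_cast; ring
    rw [← this, hy]
    push_cast
    ring

theorem Gamma_le_Gamma0 (M : ℕ) : Gamma M ≤ Gamma0 M := by
  intro γ hγ
  rw [Gamma_mem] at hγ
  rw [Gamma0_mem]
  exact hγ.2.2.1

section invariant

variable {A : Type*} (u : OnePoint ℚ → A) {M l : ℕ}

theorem invariant_diag_left (hu : ∀ γ ∈ Gamma0 M, ∀ s, u (mapGL ℚ γ • s) = u s) (hl : l.Prime)
    (hlM : (M : ℤ) ∣ (l : ℤ) - 1) (δ : GL (Fin 2) ℚ)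
    (hδ : (δ : Matrix (Fin 2) (Fin 2) ℚ) = !![(l : ℚ), 0; 0, 1]) (s : OnePoint ℚ) :
    u (δ • s) = u s := by
  obtain ⟨γ, hγ, h⟩ := exists_Gamma_smul_eq M hl hlM !![(l : ℤ), 0; 0, 1]
    (by simp [Matrix.det_fin_two_of]) (by simpa using hlM) (by simp) (by simp) (by simp) δ
    (by intro i j; rw [hδ]; fin_cases i <;> fin_cases j <;> simp) s
  rw [h, hu γ (Gamma_le_Gamma0 M hγ)]

theorem invariant_diag_right (hu : ∀ γ ∈ Gamma0 M, ∀ s, u (mapGL ℚ γ • s) = u s) (hl : l.Prime)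
    (hlM : (M : ℤ) ∣ (l : ℤ) - 1) (δ : GL (Fin 2) ℚ)
    (hδ : (δ : Matrix (Fin 2) (Fin 2) ℚ) = !![1, 0; 0, (l : ℚ)]) (s : OnePoint ℚ) :
    u (δ • s) = u s := by
  obtain ⟨γ, hγ, h⟩ := exists_Gamma_smul_eq M hl hlM !![1, 0; 0, (l : ℤ)]
    (by simp [Matrix.det_fin_two_of]) (by simp) (by simp) (by simp) (by simpa using hlM) δ
    (by intro i j; rw [hδ]; fin_cases i <;> fin_cases j <;> simp) s
  rw [h, hu γ (Gamma_le_Gamma0 M hγ)]

theorem invariant_upper (hu : ∀ γ ∈ Gamma0 M, ∀ s, u (mapGL ℚ γ • s) = u s) (hl : l.Prime)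
    (hlM : (M : ℤ) ∣ (l : ℤ) - 1) (i : ℤ) (δ : GL (Fin 2) ℚ)
    (hδ : (δ : Matrix (Fin 2) (Fin 2) ℚ) = !![1, (i : ℚ); 0, (l : ℚ)]) (s : OnePoint ℚ) :
    u (δ • s) = u s := by
  have hT : ModularGroup.T ^ i ∈ Gamma0 M := by
    rw [Gamma0_mem, ModularGroup.coe_T_zpow]
    simp
  have h1 : δ • s = (δ * (mapGL ℚ (ModularGroup.T ^ i))⁻¹) • mapGL ℚ (ModularGroup.T ^ i) • s := by
    rw [← mul_smul, inv_mul_cancel_right]
  rw [h1, ← hu _ hT s]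
  apply invariant_diag_right u hu hl hlM
  rw [← map_inv, Matrix.GeneralLinearGroup.coe_mul, hδ, ← _root_.zpow_neg]
  have e : ∀ a b, (mapGL ℚ (ModularGroup.T ^ (-i)) : GL (Fin 2) ℚ) a b
      = ((!![1, -i; 0, 1] : Matrix (Fin 2) (Fin 2) ℤ) a b : ℚ) := by
    intro a b
    rw [mapGL_apply, ModularGroup.coe_T_zpow]
  ext a b
  rw [Matrix.mul_apply, Fin.sum_univ_two, e, e]
  fin_cases a <;> fin_cases b <;> simp

end invariant

end Fermat.Agent.S41
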