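import Mathlib
import Fermat.Prelude.Def_ModularCurve_PeriodMap

/-!
# S41 : basic definitions (symbols = potentials on the cusps, operators, the lattices `H Γ A`)

* cusps = `OnePoint ℚ` with Mathlib's action of `GL (Fin 2) ℚ`; `SL(2,ℤ)` acts through `mapGL ℚ`.
* `Symb Γ A` : functions `u` on the cusps such that `u (γ s) - u s` does not depend on `s` (`γ ∈ Γ`).
* `Inv Γ A` : the `Γ`-invariant functions.
* `bd0 Γ A : Symb Γ A → Hom(Γ, A)`, `H Γ A` its range (`= parabolicHoms ℤ Γ A`, see `Bd.lean`).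
* every operator is a `ℤ`-linear map `D` on functions (a sum of `pull δ`); `opH Γ' Γ D : H Γ' A → H Γ A` is its descent.
-/

set_option autoImplicit false

open Matrix Matrix.SpecialLinearGroup CongruenceSubgroup OnePoint
open scoped MatrixGroups

namespace Fermat.Agent.S41

noncomputable section

/-- the matrix `[[a,b],[c,d]]` in `GL₂(ℚ)` (junk value `1` if the determinant vanishes). -/
def mk2 (a b c d : ℚ) : GL (Fin 2) ℚ :=
  if h : (!![a, b; c, d] : Matrix (Fin 2) (Fin 2) ℚ).det ≠ 0 then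
    Matrix.GeneralLinearGroup.mkOfDetNeZero !![a, b; c, d] h else 1

theorem coe_mk2 {a b c d : ℚ} (h : a * d - b * c ≠ 0) :
    ((mk2 a b c d : GL (Fin 2) ℚ) : Matrix (Fin 2) (Fin 2) ℚ) = !![a, b; c, d] := by
  have h' : (!![a, b; c, d] : Matrix (Fin 2) (Fin 2) ℚ).det ≠ 0 := by
    rwa [Matrix.det_fin_two_of]
  rw [mk2, dif_pos h']
  rfl

section general

variable (Γ : Subgroup SL(2, ℤ)) (A : Type*) [AddCommGroup A]

/-- precomposition with `δ`. -/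
def pull (δ : GL (Fin 2) ℚ) : (OnePoint ℚ → A) →ₗ[ℤ] (OnePoint ℚ → A) where
  toFun u := fun s => u (δ • s)
  map_add' _ _ := rfl
  map_smul' _ _ := rfl

@[simp] theorem pull_apply (δ : GL (Fin 2) ℚ) (u : OnePoint ℚ → A) (s : OnePoint ℚ) :
    pull A δ u s = u (δ • s) := rfl

/-- symbols (potentials) for `Γ`. -/
def Symb : Submodule ℤ (OnePoint ℚ → A) where
  carrier := {u | ∀ γ ∈ Γ, ∀ s t, u (mapGL ℚ γ • s) - u s = u (mapGL ℚ γ • t) - u t}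
  zero_mem' := by intro γ _ s t; simp
  add_mem' := by
    intro u v hu hv γ hγ s t
    have h1 := hu γ hγ s t
    have h2 := hv γ hγ s t
    simp only [Pi.add_apply]
    rw [add_sub_add_comm, h1, h2, add_sub_add_comm]
  smul_mem' := by
    intro c u hu γ hγ s t
    have h1 := hu γ hγ s t
    simp only [Pi.smul_apply]
    rw [← smul_sub, h1, smul_sub]

/-- invariant functions. -/
def Inv : Submodule ℤ (OnePoint ℚ → A) where
  carrier := {u | ∀ γ ∈ Γ, ∀ s, u (mapGL ℚ γ • s) = u s}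
  zero_mem' := by intro γ _ s; simp
  add_mem' := by
    intro u v hu hv γ hγ s
    simp only [Pi.add_apply]
    rw [hu γ hγ s, hv γ hγ s]
  smul_mem' := by
    intro c u hu γ hγ s
    simp only [Pi.smul_apply]
    rw [hu γ hγ s]

variable {Γ A}

theorem mem_Symb {u : OnePoint ℚ → A} :
    u ∈ Symb Γ A ↔ ∀ γ ∈ Γ, ∀ s t, u (mapGL ℚ γ • s) - u s = u (mapGL ℚ γ • t) - u t := Iff.rfl

theorem mem_Inv {u : OnePoint ℚ → A} :
    u ∈ Inv Γ A ↔ ∀ γ ∈ Γ, ∀ s, u (mapGL ℚ γ • s) = u s := Iff.rfl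

theorem Inv_le_Symb : Inv Γ A ≤ Symb Γ A := by
  intro u hu γ hγ s t
  rw [hu γ hγ s, hu γ hγ t, sub_self, sub_self]

theorem const_mem_Inv (a : A) : (fun _ => a) ∈ Inv Γ A := fun _ _ _ => rfl

variable (Γ A)

/-- the homomorphism `γ ↦ u (γ ∞) - u ∞` attached to a symbol. -/
def bd0 : Symb Γ A →ₗ[ℤ] (Additive Γ →+ A) where
  toFun u :=
    { toFun := fun γ => u.1 (mapGL ℚ ((Additive.toMul γ : Γ) : SL(2, ℤ)) • ∞) - u.1 ∞
      map_zero' := by simp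
      map_add' := by
        intro γ δ
        have h := u.2 _ (Additive.toMul γ).2 (mapGL ℚ ((Additive.toMul δ : Γ) : SL(2, ℤ)) • ∞) ∞
        simp only [toMul_add, Subgroup.coe_mul, map_mul, mul_smul]
        rw [← h]
        abel }
  map_add' u v := by
    refine AddMonoidHom.ext fun γ => ?_
    change (u.1 _ + v.1 _) - (u.1 ∞ + v.1 ∞) = (u.1 _ - u.1 ∞) + (v.1 _ - v.1 ∞)
    abel
  map_smul' c u := by
    refine AddMonoidHom.ext fun γ => ?_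
    change c • u.1 _ - c • u.1 ∞ = c • (u.1 _ - u.1 ∞)
    rw [smul_sub]

/-- the lattice: homomorphisms `Γ → A` having a potential on the cusps (`= parabolicHoms ℤ Γ A`). -/
def H : Submodule ℤ (Additive Γ →+ A) := LinearMap.range (bd0 Γ A)

/-- `bd0` with values in `H`. -/
def bd : Symb Γ A →ₗ[ℤ] H Γ A := (bd0 Γ A).rangeRestrict

variable {Γ A}

theorem bd_surjective : Function.Surjective (bd Γ A) := LinearMap.surjective_rangeRestrict _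

theorem bd_apply (u : Symb Γ A) (γ : Γ) (s : OnePoint ℚ) :
    (bd Γ A u : Additive Γ →+ A) (Additive.ofMul γ) = u.1 (mapGL ℚ (γ : SL(2, ℤ)) • s) - u.1 s :=
  u.2 _ γ.2 ∞ s

theorem bd_eq_zero_iff (u : Symb Γ A) : bd Γ A u = 0 ↔ u.1 ∈ Inv Γ A := by
  constructor
  · intro h γ hγ s
    have := bd_apply u ⟨γ, hγ⟩ s
    rw [h] at this
    exact (sub_eq_zero.1 this.symm)
  · intro h
    apply Subtype.ext
    refine AddMonoidHom.ext fun γ => ?_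
    have := bd_apply u (Additive.toMul γ) ∞
    rw [h _ (Additive.toMul γ).2 ∞, sub_self] at this
    exact this

/-- `D` maps symbols for `Γ'` to symbols for `Γ` and invariants to invariants. -/
structure IsOp (Γ' Γ : Subgroup SL(2, ℤ)) (D : (OnePoint ℚ → A) →ₗ[ℤ] (OnePoint ℚ → A)) : Prop where
  symb : ∀ u ∈ Symb Γ' A, D u ∈ Symb Γ A
  inv : ∀ u ∈ Inv Γ' A, D u ∈ Inv Γ A

open Classical in
/-- the descent of `D` to `H Γ' A → H Γ A` (junk `0` if `D` is not an operator). -/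
def opH (Γ' Γ : Subgroup SL(2, ℤ)) (D : (OnePoint ℚ → A) →ₗ[ℤ] (OnePoint ℚ → A)) :
    H Γ' A →ₗ[ℤ] H Γ A :=
  if h : IsOp Γ' Γ D then
    (Submodule.liftQ (LinearMap.ker (bd Γ' A)) (bd Γ A ∘ₗ D.restrict h.symb) (by
      intro u hu
      rw [LinearMap.mem_ker, bd_eq_zero_iff] at hu
      rw [LinearMap.mem_ker, LinearMap.comp_apply, bd_eq_zero_iff]
      exact h.inv _ hu)) ∘ₗ
      ((bd Γ' A).quotKerEquivOfSurjective bd_surjective).symm.toLinearMap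
  else 0

variable {Γ' Γ'' : Subgroup SL(2, ℤ)}

theorem opH_bd {D : (OnePoint ℚ → A) →ₗ[ℤ] (OnePoint ℚ → A)} (h : IsOp Γ' Γ D) (u : Symb Γ' A) :
    opH Γ' Γ D (bd Γ' A u) = bd Γ A ⟨D u.1, h.symb u.1 u.2⟩ := by
  rw [opH, dif_pos h, LinearMap.comp_apply]
  have : ((bd Γ' A).quotKerEquivOfSurjective bd_surjective).symm.toLinearMap (bd Γ' A u)
      = Submodule.Quotient.mk u := by
    rw [LinearEquiv.coe_coe, LinearEquiv.symm_apply_eq]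
    rfl
  rw [this]
  rfl

/-- two operators agreeing modulo invariants have the same descent. -/
theorem opH_congr {D D' : (OnePoint ℚ → A) →ₗ[ℤ] (OnePoint ℚ → A)} (h : IsOp Γ' Γ D)
    (h' : IsOp Γ' Γ D') (hDD : ∀ u ∈ Symb Γ' A, D u - D' u ∈ Inv Γ A) :
    opH Γ' Γ D = opH Γ' Γ D' := by
  ext1 x
  obtain ⟨u, rfl⟩ := bd_surjective x
  rw [opH_bd h, opH_bd h', ← sub_eq_zero, ← map_sub, bd_eq_zero_iff]
  exact hDD u.1 u.2

theorem IsOp.comp {D D' : (OnePoint ℚ → A) →ₗ[ℤ] (OnePoint ℚ → A)} (h : IsOp Γ' Γ D)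
    (h' : IsOp Γ'' Γ' D') : IsOp Γ'' Γ (D ∘ₗ D') :=
  ⟨fun u hu => h.symb _ (h'.symb u hu), fun u hu => h.inv _ (h'.inv u hu)⟩

theorem opH_comp {D D' : (OnePoint ℚ → A) →ₗ[ℤ] (OnePoint ℚ → A)} (h : IsOp Γ' Γ D)
    (h' : IsOp Γ'' Γ' D') : opH Γ' Γ D ∘ₗ opH Γ'' Γ' D' = opH Γ'' Γ (D ∘ₗ D') := by
  ext1 x
  obtain ⟨u, rfl⟩ := bd_surjective x
  rw [LinearMap.comp_apply, opH_bd h', opH_bd h, opH_bd (h.comp h')]
  rfl

theorem IsOp.add {D D' : (OnePoint ℚ → A) →ₗ[ℤ] (OnePoint ℚ → A)} (h : IsOp Γ' Γ D)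
    (h' : IsOp Γ' Γ D') : IsOp Γ' Γ (D + D') :=
  ⟨fun u hu => (Symb Γ A).add_mem (h.symb u hu) (h'.symb u hu),
    fun u hu => (Inv Γ A).add_mem (h.inv u hu) (h'.inv u hu)⟩

theorem opH_add {D D' : (OnePoint ℚ → A) →ₗ[ℤ] (OnePoint ℚ → A)} (h : IsOp Γ' Γ D)
    (h' : IsOp Γ' Γ D') : opH Γ' Γ (D + D') = opH Γ' Γ D + opH Γ' Γ D' := by
  ext1 x
  obtain ⟨u, rfl⟩ := bd_surjective x
  rw [LinearMap.add_apply, opH_bd h', opH_bd h, opH_bd (h.add h'), ← map_add]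
  rfl

theorem IsOp.smul {D : (OnePoint ℚ → A) →ₗ[ℤ] (OnePoint ℚ → A)} (h : IsOp Γ' Γ D) (c : ℤ) :
    IsOp Γ' Γ (c • D) :=
  ⟨fun u hu => (Symb Γ A).smul_mem c (h.symb u hu), fun u hu => (Inv Γ A).smul_mem c (h.inv u hu)⟩

theorem opH_smul {D : (OnePoint ℚ → A) →ₗ[ℤ] (OnePoint ℚ → A)} (h : IsOp Γ' Γ D) (c : ℤ) :
    opH Γ' Γ (c • D) = c • opH Γ' Γ D := by
  ext1 x
  obtain ⟨u, rfl⟩ := bd_surjective x
  rw [LinearMap.smul_apply, opH_bd h, opH_bd (h.smul c), ← _root_.map_smul]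
  rfl

theorem isOp_id : IsOp Γ Γ (LinearMap.id : (OnePoint ℚ → A) →ₗ[ℤ] (OnePoint ℚ → A)) :=
  ⟨fun _ hu => hu, fun _ hu => hu⟩

theorem opH_id : opH Γ Γ (LinearMap.id : (OnePoint ℚ → A) →ₗ[ℤ] (OnePoint ℚ → A)) = LinearMap.id := by
  ext1 x
  obtain ⟨u, rfl⟩ := bd_surjective x
  rw [opH_bd isOp_id]
  rfl

/-- restriction to a smaller group. -/
theorem isOp_res (hle : Γ ≤ Γ') :
    IsOp Γ' Γ (LinearMap.id : (OnePoint ℚ → A) →ₗ[ℤ] (OnePoint ℚ → A)) :=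
  ⟨fun _ hu γ hγ => hu γ (hle hγ), fun _ hu γ hγ => hu γ (hle hγ)⟩

end general

section concrete

variable (A : Type*) [AddCommGroup A]

/-- `U_q u (s) = ∑_{i<q} u ((s+i)/q)`. -/
def opU (q : ℕ) : (OnePoint ℚ → A) →ₗ[ℤ] (OnePoint ℚ → A) :=
  ∑ i ∈ Finset.range q, pull A (mk2 1 i 0 q)

/-- `β^* u (s) = u (q s)`. -/
def opB (q : ℕ) : (OnePoint ℚ → A) →ₗ[ℤ] (OnePoint ℚ → A) := pull A (mk2 q 0 0 1)

/-- `T_l u (s) = u (l s) + ∑_{i<l} u ((s+i)/l)`. -/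
def opT (l : ℕ) : (OnePoint ℚ → A) →ₗ[ℤ] (OnePoint ℚ → A) := opB A l + opU A l

/-- the Atkin-Lehner matrix `W = [[q, y],[N q, q x]]` (`q x - N y = 1`, so `det W = q`). -/
def matW (N q : ℕ) (x y : ℤ) : GL (Fin 2) ℚ := mk2 q y (N * q) (q * x)

/-- `w u = u ∘ W`. -/
def opW (N q : ℕ) (x y : ℤ) : (OnePoint ℚ → A) →ₗ[ℤ] (OnePoint ℚ → A) := pull A (matW N q x y)

/-- the trace `Γ₀(Nq) → Γ₀(N)` : `1 + U_q ∘ w` (representatives `1`, `q⁻¹ W [[1,b],[0,q]]`). -/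
def opC (N q : ℕ) (x y : ℤ) : (OnePoint ℚ → A) →ₗ[ℤ] (OnePoint ℚ → A) :=
  LinearMap.id + opU A q ∘ₗ opW A N q x y

/-- `u ↦ u ∘ diag(-1,1)`. -/
def opJ : (OnePoint ℚ → A) →ₗ[ℤ] (OnePoint ℚ → A) := pull A (mk2 (-1) 0 0 1)

/-- the lattice at level `M`. -/
abbrev HH (M : ℕ) : Submodule ℤ (Additive (Gamma0 M) →+ A) := H (Gamma0 M) A

def TH (M l : ℕ) : HH A M →ₗ[ℤ] HH A M := opH (Gamma0 M) (Gamma0 M) (opT A l)
def UH (M q : ℕ) : HH A M →ₗ[ℤ] HH A M := opH (Gamma0 M) (Gamma0 M) (opU A q)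
def resH (N q : ℕ) : HH A N →ₗ[ℤ] HH A (N * q) := opH (Gamma0 N) (Gamma0 (N * q)) LinearMap.id
def betaH (N q : ℕ) : HH A N →ₗ[ℤ] HH A (N * q) := opH (Gamma0 N) (Gamma0 (N * q)) (opB A q)
def wH (N q : ℕ) (x y : ℤ) : HH A (N * q) →ₗ[ℤ] HH A (N * q) :=
  opH (Gamma0 (N * q)) (Gamma0 (N * q)) (opW A N q x y)
def coresH (N q : ℕ) (x y : ℤ) : HH A (N * q) →ₗ[ℤ] HH A N :=
  opH (Gamma0 (N * q)) (Gamma0 N) (opC A N q x y)
def JH (M : ℕ) : HH A M →ₗ[ℤ] HH A M := opH (Gamma0 M) (Gamma0 M) (opJ A)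

end concrete

end

end Fermat.Agent.S41
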