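import Mathlib

/-! # S41 / F2 : the Farey complex is simply connected (Manin's presentation), matrix form.

`e : SL(2,ℤ) → A` is a 1-cochain on oriented Farey edges (`g ↦ (g∞ → g0)`), antisymmetric
(`e (g*S) = - e g`), closed on Farey triangles (`g, g(ST), g(ST)²`).  Then `e` is exact:
`e g = F (g*S) - F g` with `F` depending only on the cusp `g∞` (`F (g*T) = F g`, `F (-g) = F g`).

Proof: `F` is defined by Euclid's algorithm (recursion on `|c|`), the edge relation is proved by induction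
on `|c| + |d|` with the triangle rule. -/

set_option autoImplicit false

open scoped MatrixGroups
open ModularGroup Matrix.SpecialLinearGroup

namespace Fermat.Agent.S41.FareySC

lemma mulS_10 (g : SL(2, ℤ)) : (g * S) 1 0 = g 1 1 := by
  simp [coe_S, Matrix.mul_apply, Fin.sum_univ_two]

lemma mulS_11 (g : SL(2, ℤ)) : (g * S) 1 1 = - g 1 0 := by
  simp [coe_S, Matrix.mul_apply, Fin.sum_univ_two]

lemma mulTz_10 (g : SL(2, ℤ)) (k : ℤ) : (g * T ^ k) 1 0 = g 1 0 := by
  simp [coe_T_zpow, Matrix.mul_apply, Fin.sum_univ_two]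

lemma mulTz_11 (g : SL(2, ℤ)) (k : ℤ) : (g * T ^ k) 1 1 = g 1 0 * k + g 1 1 := by
  simp [coe_T_zpow, Matrix.mul_apply, Fin.sum_univ_two]

lemma mulT_10 (g : SL(2, ℤ)) : (g * T) 1 0 = g 1 0 := by
  simp [coe_T, Matrix.mul_apply, Fin.sum_univ_two]

lemma mulT_11 (g : SL(2, ℤ)) : (g * T) 1 1 = g 1 0 + g 1 1 := by
  simp [coe_T, Matrix.mul_apply, Fin.sum_univ_two]

lemma neg_10 (g : SL(2, ℤ)) : (-g) 1 0 = - g 1 0 := by simp

lemma neg_11 (g : SL(2, ℤ)) : (-g) 1 1 = - g 1 1 := by simp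

lemma SS_eq : S * S = (-1 : SL(2, ℤ)) := by
  ext i j
  fin_cases i <;> fin_cases j <;> simp [coe_S, Matrix.mul_apply, Fin.sum_univ_two]

lemma TSTST_eq : T * S * T * S * T = (S : SL(2, ℤ)) := by
  ext i j
  fin_cases i <;> fin_cases j <;> simp [coe_S, coe_T, Matrix.mul_apply, Fin.sum_univ_two]

/-- sign normalisation -/
noncomputable def sn (g : SL(2, ℤ)) : SL(2, ℤ) := if 0 < g 1 0 then g else -g

/-- Euclid-reduced representative of the coset `± g ⟨T⟩`. -/
noncomputable def red (g : SL(2, ℤ)) : SL(2, ℤ) := sn g * T ^ (-((sn g) 1 1 / (sn g) 1 0))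

lemma sn_10_pos {g : SL(2, ℤ)} (h : g 1 0 ≠ 0) : 0 < (sn g) 1 0 := by
  unfold sn
  split_ifs with h1
  · exact h1
  · rw [neg_10]; omega

lemma sn_10_natAbs (g : SL(2, ℤ)) : ((sn g) 1 0).natAbs = (g 1 0).natAbs := by
  unfold sn
  split_ifs with h1
  · rfl
  · rw [neg_10, Int.natAbs_neg]

lemma sn_neg {g : SL(2, ℤ)} (h : g 1 0 ≠ 0) : sn (-g) = sn g := by
  unfold sn
  rw [neg_10]
  split_ifs with h1 h2 h2
  · omega
  · rfl
  · rw [neg_neg]
  · omega

lemma sn_mulT (g : SL(2, ℤ)) : sn (g * T) = sn g * T := by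
  unfold sn
  rw [mulT_10]
  split_ifs with h1
  · rfl
  · rw [neg_mul]

lemma red_10 (g : SL(2, ℤ)) : (red g) 1 0 = (sn g) 1 0 := by
  unfold red; rw [mulTz_10]

lemma red_11 (g : SL(2, ℤ)) : (red g) 1 1 = (sn g) 1 1 % (sn g) 1 0 := by
  unfold red; rw [mulTz_11, Int.emod_def]; ring

lemma red_neg {g : SL(2, ℤ)} (h : g 1 0 ≠ 0) : red (-g) = red g := by
  unfold red; rw [sn_neg h]

lemma red_mulT {g : SL(2, ℤ)} (h : g 1 0 ≠ 0) : red (g * T) = red g := by
  unfold red
  rw [sn_mulT, mulT_10, mulT_11]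
  have hpos := sn_10_pos h
  rw [Int.add_ediv_of_dvd_left (dvd_refl _), Int.ediv_self hpos.ne', mul_assoc]
  congr 1
  rw [neg_add, zpow_add, zpow_neg_one, mul_inv_cancel_left]

lemma red_eq_self {g : SL(2, ℤ)} (h0 : 0 < g 1 0) (h1 : 0 ≤ g 1 1) (h2 : g 1 1 < g 1 0) :
    red g = g := by
  unfold red sn
  rw [if_pos h0, Int.ediv_eq_zero_of_lt h1 h2]
  simp

variable {A : Type*} [AddCommGroup A]

/-- the potential, by Euclid's algorithm. -/
noncomputable def pot (e : SL(2, ℤ) → A) (g : SL(2, ℤ)) : A :=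
  if h : g 1 0 = 0 then 0 else pot e (red g * S) - e (red g)
termination_by (g 1 0).natAbs
decreasing_by
  rw [mulS_10, red_11, ← sn_10_natAbs g]
  have hpos := sn_10_pos h
  have h1 := Int.emod_nonneg ((sn g) 1 1) hpos.ne'
  have h2 := Int.emod_lt_of_pos ((sn g) 1 1) hpos
  omega

lemma pot_of_zero (e : SL(2, ℤ) → A) {g : SL(2, ℤ)} (h : g 1 0 = 0) : pot e g = 0 := by
  rw [pot, dif_pos h]

lemma pot_of_ne (e : SL(2, ℤ) → A) {g : SL(2, ℤ)} (h : g 1 0 ≠ 0) :
    pot e g = pot e (red g * S) - e (red g) := by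
  rw [pot, dif_neg h]

lemma pot_mulT (e : SL(2, ℤ) → A) (g : SL(2, ℤ)) : pot e (g * T) = pot e g := by
  by_cases h : g 1 0 = 0
  · rw [pot_of_zero e h, pot_of_zero e (by rw [mulT_10]; exact h)]
  · rw [pot_of_ne e h, pot_of_ne e (by rw [mulT_10]; exact h), red_mulT h]

lemma pot_neg (e : SL(2, ℤ) → A) (g : SL(2, ℤ)) : pot e (-g) = pot e g := by
  by_cases h : g 1 0 = 0
  · rw [pot_of_zero e h, pot_of_zero e (by rw [neg_10, h, neg_zero])]
  · rw [pot_of_ne e h, pot_of_ne e (by rw [neg_10]; omega), red_neg h]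

lemma pot_mulTinv (e : SL(2, ℤ) → A) (g : SL(2, ℤ)) : pot e (g * T⁻¹) = pot e g := by
  have := pot_mulT e (g * T⁻¹)
  rwa [inv_mul_cancel_right, eq_comm] at this

/-- the edge relation -/
def Edge (e : SL(2, ℤ) → A) (g : SL(2, ℤ)) : Prop := pot e (g * S) = pot e g + e g

section

variable {e : SL(2, ℤ) → A} (hneg : ∀ g, e (-g) = e g) (hS : ∀ g, e (g * S) = - e g)
  (hU : ∀ g, e g + e (g * (S * T)) + e (g * (S * T) * (S * T)) = 0)

include hneg in
lemma Edge.neg {g : SL(2, ℤ)} (h : Edge e (-g)) : Edge e g := by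
  unfold Edge at *
  rwa [neg_mul, pot_neg, pot_neg, hneg] at h

include hS in
lemma Edge.ofS {g : SL(2, ℤ)} (h : Edge e (g * S)) : Edge e g := by
  unfold Edge at *
  rw [mul_assoc, SS_eq, mul_neg, mul_one, pot_neg, hS] at h
  rw [h]; abel

lemma edge_def {g : SL(2, ℤ)} (h0 : 0 < g 1 0) (h1 : 0 ≤ g 1 1) (h2 : g 1 1 < g 1 0) :
    Edge e g := by
  unfold Edge
  rw [pot_of_ne e h0.ne' (g := g), red_eq_self h0 h1 h2]
  abel

include hS hU in
lemma edge_triangle {g : SL(2, ℤ)} (h1 : Edge e (g * T)) (h2 : Edge e (g * T * S * T)) :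
    Edge e g := by
  unfold Edge at *
  have e1 : g * T * S * T * S = g * S * T⁻¹ := by
    have : T * S * T * S = S * T⁻¹ := by
      rw [eq_mul_inv_iff_mul_eq]; exact TSTST_eq
    calc g * T * S * T * S = g * (T * S * T * S) := by simp only [mul_assoc]
      _ = g * S * T⁻¹ := by rw [this, mul_assoc]
  rw [e1, pot_mulTinv, pot_mulT, h1, pot_mulT] at h2
  have e2 := hU (g * T)
  have e3 : g * T * (S * T) * (S * T) = g * S := by
    calc g * T * (S * T) * (S * T) = g * (T * S * T * S * T) := by simp only [mul_assoc]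
      _ = g * S := by rw [TSTST_eq]
  have e4 : g * T * (S * T) = g * T * S * T := by simp only [mul_assoc]
  rw [e3, e4, hS] at e2
  rw [h2]
  have : e (g * T) + e (g * T * S * T) = e g := by
    have := eq_neg_of_add_eq_zero_left e2
    rw [neg_neg] at this
    exact this
  rw [add_assoc, this]

include hS hU in
lemma edge_negcase {g : SL(2, ℤ)} (h0 : 0 < g 1 0) (h1 : - g 1 0 ≤ g 1 1) (h2 : g 1 1 < 0)
    (ih : ∀ g' : SL(2, ℤ), (g' 1 0).natAbs + (g' 1 1).natAbs < (g 1 0).natAbs + (g 1 1).natAbs →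
      Edge e g') : Edge e g := by
  apply edge_triangle hS hU
  · apply edge_def
    · rw [mulT_10]; exact h0
    · rw [mulT_11]; omega
    · rw [mulT_10, mulT_11]; omega
  · apply ih
    rw [mulT_10, mulT_11, mulS_10, mulS_11, mulT_10, mulT_11]
    omega

include hneg hS hU in
lemma edge_pos {g : SL(2, ℤ)} (h0 : 0 < g 1 0)
    (ih : ∀ g' : SL(2, ℤ), (g' 1 0).natAbs + (g' 1 1).natAbs < (g 1 0).natAbs + (g 1 1).natAbs →
      Edge e g') : Edge e g := by
  rcases lt_or_ge (g 1 1) 0 with hd | hd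
  · rcases lt_or_ge (g 1 1) (- g 1 0) with hd2 | hd2
    · -- `-gS`
      apply Edge.ofS hS
      apply Edge.neg hneg
      apply edge_def
      · rw [neg_10, mulS_10]; omega
      · rw [neg_11, mulS_11]; omega
      · rw [neg_10, neg_11, mulS_10, mulS_11]; omega
    · exact edge_negcase hS hU h0 hd2 hd ih
  · rcases lt_or_ge (g 1 1) (g 1 0) with hd2 | hd2
    · exact edge_def h0 hd hd2
    · apply Edge.ofS hS
      apply edge_negcase hS hU
      · rw [mulS_10]; omega
      · rw [mulS_10, mulS_11]; omega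
      · rw [mulS_11]; omega
      · intro g' hg'
        apply ih
        rw [mulS_10, mulS_11] at hg'
        omega

include hneg hS hU in
lemma edge_all (g : SL(2, ℤ)) : Edge e g := by
  induction hn : (g 1 0).natAbs + (g 1 1).natAbs using Nat.strong_induction_on generalizing g with
  | _ n ih =>
    have ih' : ∀ g' : SL(2, ℤ),
        (g' 1 0).natAbs + (g' 1 1).natAbs < (g 1 0).natAbs + (g 1 1).natAbs → Edge e g' := by
      intro g' hg'
      exact ih _ (hn ▸ hg') g' rfl
    rcases lt_trichotomy (g 1 0) 0 with h | h | h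
    · apply Edge.neg hneg
      apply edge_pos hneg hS hU
      · rw [neg_10]; omega
      · intro g' hg'
        apply ih'
        rw [neg_10, neg_11] at hg'
        omega
    · -- c = 0
      have hdet := g.det_coe
      rw [Matrix.det_fin_two, h] at hdet
      have hd : g 1 1 ≠ 0 := by
        intro h0
        rw [h0] at hdet
        simp at hdet
      rcases lt_or_gt_of_ne hd with hd | hd
      · apply Edge.ofS hS
        apply Edge.neg hneg
        apply edge_def
        · rw [neg_10, mulS_10]; omega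
        · rw [neg_11, mulS_11]; omega
        · rw [neg_10, neg_11, mulS_10, mulS_11]; omega
      · apply Edge.ofS hS
        apply edge_def
        · rw [mulS_10]; omega
        · rw [mulS_11]; omega
        · rw [mulS_10, mulS_11]; omega
    · exact edge_pos hneg hS hU h ih'

end

end Fermat.Agent.S41.FareySC

namespace Fermat.Agent.S41

open FareySC in
/-- **F2**: the Farey complex is simply connected (matrix form). -/
theorem farey_simply_connected {A : Type*} [AddCommGroup A] (e : SL(2, ℤ) → A)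
    (hneg : ∀ g, e (-g) = e g) (hS : ∀ g, e (g * S) = - e g)
    (hU : ∀ g, e g + e (g * (S * T)) + e (g * (S * T) * (S * T)) = 0) :
    ∃ F : SL(2, ℤ) → A, (∀ g, F (g * T) = F g) ∧ (∀ g, F (-g) = F g) ∧
      (∀ g, F (g * S) = F g + e g) :=
  ⟨pot e, pot_mulT e, pot_neg e, edge_all hneg hS hU⟩

end Fermat.Agent.S41
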