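import Fermat.Agent.S41.Ops.Ident
import Fermat.Agent.S41.Ops.Comm

/-! # S41 : aggregator for `Ops/*` (operators on symbols and their identities). -/
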