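import Mathlib

/-!
# S41: the cyclic orientation cocycle on the cusps `ℙ¹(ℚ)`
-/

set_option autoImplicit false

open Matrix OnePoint
open scoped MatrixGroups

namespace Fermat.Agent.S41.Orient

/-- first homogeneous coordinate of a cusp -/
def c0 (a : OnePoint ℚ) : ℚ := a.elim 1 (fun s => s)

/-- second homogeneous coordinate of a cusp -/
def c1 (a : OnePoint ℚ) : ℚ := a.elim 0 (fun _ => 1)

@[simp] theorem c0_infty : c0 ∞ = 1 := rfl
@[simp] theorem c1_infty : c1 ∞ = 0 := rfl
@[simp] theorem c0_coe (s : ℚ) : c0 (s : OnePoint ℚ) = s := rfl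
@[simp] theorem c1_coe (s : ℚ) : c1 (s : OnePoint ℚ) = 1 := rfl

/-- the determinant of two cusps (in normalised homogeneous coordinates) -/
def dt (a b : OnePoint ℚ) : ℚ := c0 a * c1 b - c1 a * c0 b

/-- integer valued sign -/
def sg (x : ℚ) : ℤ := ((SignType.sign x : SignType) : ℤ)

theorem sg_mul (x y : ℚ) : sg (x * y) = sg x * sg y := by
  simp [sg, sign_mul]

theorem sg_pos {x : ℚ} (h : 0 < x) : sg x = 1 := by simp [sg, sign_pos h]

theorem sg_neg' {x : ℚ} (h : x < 0) : sg x = -1 := by simp [sg, sign_neg h]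

@[simp] theorem sg_zero : sg 0 = 0 := by simp [sg]

theorem sg_neg (x : ℚ) : sg (-x) = - sg x := by
  rcases lt_trichotomy x 0 with h | h | h
  · rw [sg_neg' h, sg_pos (by linarith)]; simp
  · simp [h]
  · rw [sg_pos h, sg_neg' (by linarith)]

/-- the cyclic orientation of three cusps -/
def orc (a b c : OnePoint ℚ) : ℤ := sg (dt a b * dt b c * dt c a)

/-- the primitive of `- orc` -/
def sgm (a b : OnePoint ℚ) : ℤ := sg (dt a b * c1 a * c1 b)

theorem sg_sub_comm (a b : ℚ) : sg (b - a) = - sg (a - b) := by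
  rw [← sg_neg]; congr 1; ring

theorem sg_three (a b c : ℚ) :
    sg (a - b) * sg (b - c) * sg (c - a) = -(sg (b - c) - sg (a - c) + sg (a - b)) := by
  rcases lt_trichotomy a b with h1 | h1 | h1 <;> rcases lt_trichotomy b c with h2 | h2 | h2 <;>
    rcases lt_trichotomy a c with h3 | h3 | h3 <;>
    first
      | (exfalso; linarith)
      | (subst h1; simp [sg_sub_comm a c])
      | (subst h2; simp [sg_sub_comm a b])
      | (subst h3; simp [sg_sub_comm a b])
      | skip
  all_goals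
    first
      | rw [sg_neg' (sub_neg.mpr h1)]
      | rw [sg_pos (sub_pos.mpr h1)]
  all_goals
    first
      | rw [sg_neg' (sub_neg.mpr h2)]
      | rw [sg_pos (sub_pos.mpr h2)]
  all_goals rw [sg_neg' (sub_neg.mpr h3), sg_pos (sub_pos.mpr h3)]
  all_goals norm_num

theorem orc_eq (a b c : OnePoint ℚ) : orc a b c = - (sgm b c - sgm a c + sgm a b) := by
  induction a using OnePoint.rec <;> induction b using OnePoint.rec <;>
    induction c using OnePoint.rec <;> simp only [orc, sgm, dt, c0_infty, c1_infty, c0_coe, c1_coe]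
  case infty.infty.infty => simp
  case infty.infty.coe c => simp
  case infty.coe.infty b => simp
  case coe.infty.infty a => simp
  case infty.coe.coe b c =>
    have : (1 * 1 - 0 * b) * (b * 1 - 1 * c) * (c * 0 - 1 * 1) = -(b - c) := by ring
    rw [this, sg_neg]
    simp
  case coe.infty.coe a c =>
    have : (a * 0 - 1 * 1) * (1 * 1 - 0 * c) * (c * 1 - 1 * a) = a - c := by ring
    rw [this]
    simp
  case coe.coe.infty a b =>
    have : (a * 1 - 1 * b) * (b * 0 - 1 * 1) * (1 * 1 - 0 * a) = -(a - b) := by ring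
    rw [this, sg_neg]
    simp
  case coe.coe.coe a b c =>
    simp only [mul_one, one_mul]
    rw [sg_mul, sg_mul]
    exact sg_three a b c

theorem orc_cocycle (a b c d : OnePoint ℚ) :
    orc b c d - orc a c d + orc a b d - orc a b c = 0 := by
  rw [orc_eq, orc_eq, orc_eq, orc_eq]
  ring

theorem dt_swap (a b : OnePoint ℚ) : dt b a = - dt a b := by
  unfold dt; ring

theorem orc_swap (a b c : OnePoint ℚ) : orc b a c = - orc a b c := by
  unfold orc
  rw [← sg_neg]
  congr 1
  rw [dt_swap a b, dt_swap c a, dt_swap b c]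
  ring

theorem orc_rot (a b c : OnePoint ℚ) : orc b c a = orc a b c := by
  unfold orc
  congr 1
  ring

theorem orc_self (a c : OnePoint ℚ) : orc a a c = 0 := by
  have := orc_swap a a c
  omega

/-- the action of `GL₂(ℚ)` in homogeneous coordinates -/
theorem exists_scalar (g : GL (Fin 2) ℚ) (a : OnePoint ℚ) : ∃ μ : ℚ, μ ≠ 0 ∧
    g 0 0 * c0 a + g 0 1 * c1 a = μ * c0 (g • a) ∧ g 1 0 * c0 a + g 1 1 * c1 a = μ * c1 (g • a) := by
  have hdet : g 0 0 * g 1 1 - g 0 1 * g 1 0 ≠ 0 := by
    have := g.det_ne_zero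
    rwa [Matrix.det_fin_two] at this
  induction a using OnePoint.rec with
  | infty =>
    rw [smul_infty_eq_ite]
    by_cases h : g 1 0 = 0
    · rw [if_pos h]
      refine ⟨g 0 0, ?_, by simp, by simp [h]⟩
      intro h0
      apply hdet
      rw [h, h0]; ring
    · rw [if_neg h]
      refine ⟨g 1 0, h, ?_, by simp⟩
      change g 0 0 * 1 + g 0 1 * 0 = g 1 0 * (g 0 0 / g 1 0)
      field_simp
      ring
  | coe s =>
    rw [smul_some_eq_ite]
    by_cases h : g 1 0 * s + g 1 1 = 0
    · rw [if_pos h]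
      refine ⟨g 0 0 * s + g 0 1, ?_, by simp, by simpa using h⟩
      intro h0
      apply hdet
      linear_combination g 0 0 * h - g 1 0 * h0
    · rw [if_neg h]
      refine ⟨g 1 0 * s + g 1 1, h, ?_, by simp⟩
      change g 0 0 * s + g 0 1 * 1 = (g 1 0 * s + g 1 1) * ((g 0 0 * s + g 0 1) / (g 1 0 * s + g 1 1))
      rw [mul_one]
      exact (mul_div_cancel₀ _ h).symm

theorem orc_smul (g : GL (Fin 2) ℚ) (hg : 0 < (g : Matrix (Fin 2) (Fin 2) ℚ).det)
    (a b c : OnePoint ℚ) : orc (g • a) (g • b) (g • c) = orc a b c := by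
  obtain ⟨α, hα, a0, a1⟩ := exists_scalar g a
  obtain ⟨β, hβ, b0, b1⟩ := exists_scalar g b
  obtain ⟨γ, hγ, e0, e1⟩ := exists_scalar g c
  rw [Matrix.det_fin_two] at hg
  set D := g 0 0 * g 1 1 - g 0 1 * g 1 0 with hD
  have h1 : D * dt a b = α * β * dt (g • a) (g • b) := by
    unfold dt
    linear_combination (g 1 0 * c0 b + g 1 1 * c1 b) * a0 + α * c0 (g • a) * b1
      - (g 0 0 * c0 b + g 0 1 * c1 b) * a1 - α * c1 (g • a) * b0
  have h2 : D * dt b c = β * γ * dt (g • b) (g • c) := by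
    unfold dt
    linear_combination (g 1 0 * c0 c + g 1 1 * c1 c) * b0 + β * c0 (g • b) * e1
      - (g 0 0 * c0 c + g 0 1 * c1 c) * b1 - β * c1 (g • b) * e0
  have h3 : D * dt c a = γ * α * dt (g • c) (g • a) := by
    unfold dt
    linear_combination (g 1 0 * c0 a + g 1 1 * c1 a) * e0 + γ * c0 (g • c) * a1
      - (g 0 0 * c0 a + g 0 1 * c1 a) * e1 - γ * c1 (g • c) * a0
  have h4 : D ^ 3 * (dt a b * dt b c * dt c a) =
      (α * β * γ) ^ 2 * (dt (g • a) (g • b) * dt (g • b) (g • c) * dt (g • c) (g • a)) := by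
    calc D ^ 3 * (dt a b * dt b c * dt c a) = (D * dt a b) * (D * dt b c) * (D * dt c a) := by ring
      _ = _ := by rw [h1, h2, h3]; ring
  have h5 := congrArg sg h4
  rw [sg_mul (D ^ 3), sg_mul ((α * β * γ) ^ 2), sg_pos (pow_pos hg 3),
    sg_pos (by positivity : 0 < (α * β * γ) ^ 2), one_mul, one_mul] at h5
  exact h5.symm

theorem orc_base : orc ∞ ((0 : ℚ) : OnePoint ℚ) (((-1 : ℚ)) : OnePoint ℚ) = -1 := by
  simp only [orc, dt, c0_infty, c1_infty, c0_coe, c1_coe]
  rw [sg_neg' (by norm_num)]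

end Fermat.Agent.S41.Orient
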