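import Fermat.Agent.S41.Ops
import Fermat.Agent.S41.Bd
import Fermat.Agent.S41.PD.Adj
import Fermat.Agent.S41.PD.Nondeg
import Fermat.Agent.S41.PD.WInv
import Fermat.Agent.S41.PD.Wire

/-!
# S41 / G5 : the pairing `pd M` on `HH ℤ M` (`= b3 / 3`), from the deliverables of block PD

* `exists_pd`: `f x y := b3 Γ (sec x) (sec y) / 3`, `sec = Function.surjInv bd_surjective`; bilinear by `PD.b3_add_right`, `PD.b3_smul_right`, `PD.b3_swap`,
  `PD.b3_of_isInv` (`sec (x + x') - sec x - sec x' ∈ Inv`), `PD.three_dvd_b3`.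
* `pd_nondeg_mod`: `PD.nondeg` (+ `pd_swap`).
* `pd_res_cores`: `PD.b3_tr` + `tr_sub_opC_const`: `PD.tr Γ Γ' v` and `opC v` are sums over two systems of representatives of `Γ' \ Γ` (`repC_cover`).
* `pd_wH`: `PD.b3_comp_W` with `matW_normalizes`, `matW_det_pos`.
-/

set_option autoImplicit false

open Matrix Matrix.SpecialLinearGroup CongruenceSubgroup OnePoint
open scoped MatrixGroups

namespace Fermat.Agent.S41

noncomputable instance fintypeQuotGamma0 (M : ℕ) [NeZero M] : Fintype (SL(2, ℤ) ⧸ Gamma0 M) :=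
  Subgroup.fintypeQuotientOfFiniteIndex

noncomputable instance fintypeQuotGamma0' (N q : ℕ) [NeZero N] [NeZero q] :
    Fintype (Gamma0 N ⧸ (Gamma0 (N * q)).subgroupOf (Gamma0 N)) :=
  Subgroup.fintypeQuotientOfFiniteIndex

theorem neg_one_mem_Gamma0' (M : ℕ) : (-1 : SL(2, ℤ)) ∈ Gamma0 M := by
  rw [Gamma0_mem]
  simp

theorem exists_pd (M : ℕ) [NeZero M] : ∃ pd : HH ℤ M →ₗ[ℤ] HH ℤ M →ₗ[ℤ] ℤ,
    ∀ u v : Symb (Gamma0 M) ℤ,
      3 * pd (bd (Gamma0 M) ℤ u) (bd (Gamma0 M) ℤ v) = PD.b3 (Gamma0 M) u.1 v.1 :=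
  exists_isPd (Gamma0 M) (neg_one_mem_Gamma0' M)

/-- the Poincaré pairing on `HH ℤ M`. -/
noncomputable def pd (M : ℕ) [NeZero M] : HH ℤ M →ₗ[ℤ] HH ℤ M →ₗ[ℤ] ℤ := (exists_pd M).choose

theorem three_mul_pd (M : ℕ) [NeZero M] (u v : Symb (Gamma0 M) ℤ) :
    3 * pd M (bd (Gamma0 M) ℤ u) (bd (Gamma0 M) ℤ v) = PD.b3 (Gamma0 M) u.1 v.1 :=
  (exists_pd M).choose_spec u v

theorem isPd_pd (M : ℕ) [NeZero M] : IsPd (Gamma0 M) (pd M) := three_mul_pd M

theorem pd_swap (M : ℕ) [NeZero M] (a b : HH ℤ M) : pd M a b = - pd M b a :=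
  (isPd_pd M).swap b a

theorem pd_nondeg_mod (M : ℕ) [NeZero M] {p : ℕ} (hp : p.Prime) (hp2 : p ≠ 2) (a : HH ℤ M)
    (h : ∀ b, (p : ℤ) ∣ pd M a b) : ∃ a', a = (p : ℤ) • a' :=
  (isPd_pd M).nondeg (neg_one_mem_Gamma0' M) hp hp2 a h

/-- the two traces agree modulo constants. -/
theorem tr_sub_opC_const {N q : ℕ} [NeZero N] [NeZero q] {x y : ℤ} (hq : q.Prime)
    (hxy : (q : ℤ) * x - N * y = 1) {v : OnePoint ℚ → ℤ} (hv : v ∈ Symb (Gamma0 (N * q)) ℤ) :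
    ∃ c : ℤ, ∀ s, opC ℤ N q x y v s = PD.tr (Gamma0 N) (Gamma0 (N * q)) v s + c := by
  classical
  -- the representatives
  let r : Option (Fin q) → Gamma0 N := fun i =>
    i.elim 1 (fun b => ⟨repC N q x y hxy (b : ℕ), repC_mem hxy _⟩)
  let φ : Option (Fin q) → Gamma0 N ⧸ (Gamma0 (N * q)).subgroupOf (Gamma0 N) := fun i =>
    (((r i)⁻¹ : Gamma0 N) : Gamma0 N ⧸ (Gamma0 (N * q)).subgroupOf (Gamma0 N))
  have hφeq : ∀ i (g : Gamma0 N), φ i = (g : Gamma0 N ⧸ (Gamma0 (N * q)).subgroupOf (Gamma0 N)) ↔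
      ((r i : Gamma0 N) : SL(2, ℤ)) * (g : SL(2, ℤ)) ∈ Gamma0 (N * q) := by
    intro i g
    show (((r i)⁻¹ : Gamma0 N) : Gamma0 N ⧸ (Gamma0 (N * q)).subgroupOf (Gamma0 N)) = _ ↔ _
    rw [QuotientGroup.eq, inv_inv, Subgroup.mem_subgroupOf]
    rfl
  have hinj : Function.Injective φ := by
    intro i j hij
    have h1 := (hφeq i (r j)⁻¹).1 hij
    rcases i with _ | b <;> rcases j with _ | b'
    · rfl
    · exfalso
      have h2 : ((repC N q x y hxy ((b' : ℕ) : ℤ)))⁻¹ ∈ Gamma0 (N * q) := by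
        simpa [r] using h1
      exact repC_not_mem hq hxy _ ((Subgroup.inv_mem_iff _).1 h2)
    · exfalso
      have h2 : (repC N q x y hxy ((b : ℕ) : ℤ)) ∈ Gamma0 (N * q) := by
        simpa [r] using h1
      exact repC_not_mem hq hxy _ h2
    · have h2 : (repC N q x y hxy ((b : ℕ) : ℤ)) * (repC N q x y hxy ((b' : ℕ) : ℤ))⁻¹
          ∈ Gamma0 (N * q) := by
        simpa [r] using h1
      obtain ⟨b₀, -, huniq⟩ := repC_cover hq hxy (repC N q x y hxy ((b : ℕ) : ℤ)) (repC_mem hxy _)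
        (repC_not_mem hq hxy _)
      have e1 := huniq (b : ℕ) ⟨b.2, by rw [mul_inv_cancel]; exact Subgroup.one_mem _⟩
      have e2 := huniq (b' : ℕ) ⟨b'.2, h2⟩
      congr 1
      exact Fin.ext (e1.trans e2.symm)
  have hsurj : Function.Surjective φ := by
    intro z
    obtain ⟨g, rfl⟩ := QuotientGroup.mk_surjective z
    by_cases hg : ((g : Gamma0 N) : SL(2, ℤ)) ∈ Gamma0 (N * q)
    · refine ⟨none, (hφeq none g).2 ?_⟩
      simpa [r] using hg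
    · have hg' : ((g : Gamma0 N) : SL(2, ℤ))⁻¹ ∉ Gamma0 (N * q) := by
        rwa [Subgroup.inv_mem_iff]
      obtain ⟨b, ⟨hb, hmem⟩, -⟩ := repC_cover hq hxy ((g : Gamma0 N) : SL(2, ℤ))⁻¹
        ((Gamma0 N).inv_mem g.2) hg'
      refine ⟨Option.some ⟨b, hb⟩, (hφeq _ g).2 ?_⟩
      have := (Gamma0 (N * q)).inv_mem hmem
      simpa [r] using this
  let e : Option (Fin q) ≃ Gamma0 N ⧸ (Gamma0 (N * q)).subgroupOf (Gamma0 N) :=
    Equiv.ofBijective φ ⟨hinj, hsurj⟩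
  -- comparison of representatives
  have hmem : ∀ i, ((r i : Gamma0 N) : SL(2, ℤ)) * (((φ i).out : Gamma0 N) : SL(2, ℤ))
      ∈ Gamma0 (N * q) := by
    intro i
    exact (hφeq i (φ i).out).1 (Quotient.out_eq' _).symm
  have hv' := mem_Symb_iff_pd.1 hv
  choose c hc using hv'
  refine ⟨- ∑ i, c _ ((Gamma0 (N * q)).inv_mem (hmem i)), fun s => ?_⟩
  have htr : PD.tr (Gamma0 N) (Gamma0 (N * q)) v s
      = ∑ i, v (PD.act (((φ i).out : Gamma0 N) : SL(2, ℤ))⁻¹ s) := by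
    unfold PD.tr
    exact (Equiv.sum_comp e (fun z : Gamma0 N ⧸ (Gamma0 (N * q)).subgroupOf (Gamma0 N) =>
      v (PD.act ((z.out : Gamma0 N) : SL(2, ℤ))⁻¹ s))).symm
  have hterm : ∀ i, v (PD.act (((φ i).out : Gamma0 N) : SL(2, ℤ))⁻¹ s)
      = v (PD.act ((r i : Gamma0 N) : SL(2, ℤ)) s) + c _ ((Gamma0 (N * q)).inv_mem (hmem i)) := by
    intro i
    rw [← hc _ ((Gamma0 (N * q)).inv_mem (hmem i)), ← PD.act_mul]
    congr 2
    group
  rw [htr]
  simp only [hterm, Finset.sum_add_distrib]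
  rw [opC_apply hq.pos hxy, Fintype.sum_option, Finset.sum_range]
  have h1 : v (PD.act ((r none : Gamma0 N) : SL(2, ℤ)) s) = v s := by
    simp [r, PD.act_one]
  rw [h1]
  have h2 : ∀ b : Fin q, v (PD.act ((r (Option.some b) : Gamma0 N) : SL(2, ℤ)) s)
      = v (mapGL ℚ (repC N q x y hxy ((b : ℕ) : ℤ)) • s) := fun b => rfl
  simp only [h2]
  abel

theorem pd_res_cores {N q : ℕ} [NeZero N] [NeZero q] [NeZero (N * q)] {x y : ℤ} (hq : q.Prime)
    (hqN : ¬ q ∣ N) (hxy : (q : ℤ) * x - N * y = 1) (a : HH ℤ N) (b : HH ℤ (N * q)) :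
    pd (N * q) (resH ℤ N q a) b = pd N a (coresH ℤ N q x y b) :=
  (isPd_pd N).res_cores (Gamma0_mul_le N q) (isPd_pd (N * q)) (isOp_C hq hxy) (by
    intro v hv
    obtain ⟨c, hc⟩ := tr_sub_opC_const hq hxy hv
    have : opC ℤ N q x y v - PD.tr (Gamma0 N) (Gamma0 (N * q)) v = fun _ => c := by
      funext s
      rw [Pi.sub_apply, hc s]
      abel
    rw [this]
    exact const_mem_Inv c) a b

theorem pd_wH {N q : ℕ} [NeZero (N * q)] {x y : ℤ} (hq : q.Prime)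
    (hxy : (q : ℤ) * x - N * y = 1) (a b : HH ℤ (N * q)) :
    pd (N * q) (wH ℤ N q x y a) (wH ℤ N q x y b) = pd (N * q) a b :=
  (isPd_pd (N * q)).pull_W (neg_one_mem_Gamma0' _) (matW N q x y) (matW_det_pos hq.pos hxy)
    (matW_normalizes hq.pos hxy) a b

end Fermat.Agent.S41
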