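import Mathlib

/-!
# S41: soft Ihara lemma, step 2 (pure form)

`F : ℚ → A` invariant under `s ↦ s+1`, `s ↦ s/(N y s+1)` and `s ↦ q² s`.  Then at a suitable cusp
`s_k = a₀/(c₀ l^k)` all the `l+1` terms of `T_l F` are equal to `F (a₀/c₀)`.
-/

set_option autoImplicit false

namespace Fermat.Agent.S41

section aux

variable {A : Type*} [AddCommGroup A] (F : ℚ → A)

theorem F_add_nat (hT : ∀ s, F (s + 1) = F s) (s : ℚ) (n : ℕ) : F (s + n) = F s := by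
  induction n with
  | zero => simp
  | succ n ih =>
    rw [Nat.cast_succ, ← add_assoc, hT, ih]

theorem F_add_int (hT : ∀ s, F (s + 1) = F s) (s : ℚ) (n : ℤ) : F (s + n) = F s := by
  obtain ⟨m, rfl | rfl⟩ := n.eq_nat_or_neg
  · exact_mod_cast F_add_nat F hT s m
  · have := F_add_nat F hT (s + ((-(m : ℤ) : ℤ) : ℚ)) m
    rw [← this]
    congr 1
    push_cast
    ring

theorem F_pow_mul {q : ℕ} (hq2 : ∀ s, F ((q : ℚ) ^ 2 * s) = F s) (n : ℕ) (s : ℚ) :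
    F (((q : ℚ) ^ 2) ^ n * s) = F s := by
  induction n with
  | zero => simp
  | succ n ih =>
    rw [pow_succ', mul_assoc, hq2, ih]

end aux

theorem one_add_pow_expand (y : ℤ) (m : ℕ) : ∃ z : ℤ, (1 + y) ^ m = 1 + m * y + y ^ 2 * z := by
  induction m with
  | zero => exact ⟨0, by simp⟩
  | succ m ih =>
    obtain ⟨z, hz⟩ := ih
    refine ⟨z + m + y * z, ?_⟩
    rw [pow_succ, hz]
    push_cast
    ring

/-- a power `g = (q²)^j = 1 + c₀ l^k r` with `k ≥ 1`, `l ∤ r`. -/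
theorem exists_good_power {q l : ℕ} (hq : 1 < q) (hl : l.Prime) (c0 : ℤ) (hc : c0 ≠ 0)
    (hqc : IsCoprime (q : ℤ) c0) (hlq : ¬ l ∣ q) :
    ∃ (j e : ℕ) (r : ℤ), ((q : ℤ) ^ 2) ^ j = 1 + c0 * (l : ℤ) ^ (e + 1) * r ∧ ¬ (l : ℤ) ∣ r := by
  set n : ℕ := c0.natAbs * l with hn
  have hn0 : 0 < n := Nat.mul_pos (Int.natAbs_pos.2 hc) hl.pos
  have hcop : Nat.Coprime q n := by
    apply Nat.Coprime.mul_right
    · have := Int.isCoprime_iff_gcd_eq_one.1 hqc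
      rw [Int.gcd_eq_natAbs] at this
      simpa using this
    · exact (Nat.Coprime.symm ((Nat.Prime.coprime_iff_not_dvd hl).2 hlq))
  have h1 := Nat.ModEq.pow_totient hcop
  have h2 : (n : ℤ) ∣ 1 - (q : ℤ) ^ (Nat.totient n) := by
    have := (Nat.modEq_iff_dvd).1 h1
    simpa using this
  have h3 : c0 * (l : ℤ) ∣ (n : ℤ) := by
    rw [hn]
    push_cast
    exact mul_dvd_mul ((dvd_abs _ _).2 dvd_rfl) dvd_rfl
  set j := Nat.totient n with hj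
  have hj0 : 0 < j := Nat.totient_pos.2 hn0
  have h4 : c0 * (l : ℤ) ∣ ((q : ℤ) ^ 2) ^ j - 1 := by
    have : ((q : ℤ) ^ 2) ^ j - 1 = (1 - (q : ℤ) ^ j) * (-(1 + (q : ℤ) ^ j)) := by ring
    rw [this]
    exact Dvd.dvd.mul_right (h3.trans h2) _
  obtain ⟨w, hw⟩ := h4
  have hne : ((q : ℤ) ^ 2) ^ j - 1 ≠ 0 := by
    have hq' : (1 : ℤ) < (q : ℤ) ^ 2 := by
      have : (1 : ℤ) < q := by exact_mod_cast hq
      nlinarith
    have := one_lt_pow₀ hq' hj0.ne'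
    omega
  have hw0 : w ≠ 0 := by
    rintro rfl
    apply hne
    rw [hw, mul_zero]
  have hfin : FiniteMultiplicity (l : ℤ) w := by
    rw [Int.finiteMultiplicity_iff]
    refine ⟨?_, hw0⟩
    simpa using hl.ne_one
  obtain ⟨r, hr, hlr⟩ := hfin.exists_eq_pow_mul_and_not_dvd
  refine ⟨j, multiplicity (l : ℤ) w, r, ?_, hlr⟩
  have : ((q : ℤ) ^ 2) ^ j = 1 + c0 * (l : ℤ) * w := by linarith
  rw [this]
  conv_lhs => rw [hr]
  ring

theorem soft_step2 {A : Type*} [AddCommGroup A] (F : ℚ → A) {N q l : ℕ} (hq : 1 < q) (hl : l.Prime)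
    (hT : ∀ s, F (s + 1) = F s)
    (hL : ∀ (y : ℤ) (s : ℚ), (N : ℚ) * y * s + 1 ≠ 0 → F (s / ((N : ℚ) * y * s + 1)) = F s)
    (hq2 : ∀ s, F ((q : ℚ) ^ 2 * s) = F s)
    (a0 c0 : ℤ) (hc : c0 ≠ 0) (hqc : IsCoprime (q : ℤ) c0)
    (hl1 : (N : ℤ) * a0 ∣ (l : ℤ) - 1) (hlq : ¬ l ∣ q) :
    ∃ k : ℕ, 1 ≤ k ∧ F ((a0 : ℚ) / (c0 * (l : ℚ) ^ k)) = F ((a0 : ℚ) / c0) ∧
      F ((l : ℚ) * ((a0 : ℚ) / (c0 * (l : ℚ) ^ k))) +
        ∑ i ∈ Finset.range l, F (((a0 : ℚ) / (c0 * (l : ℚ) ^ k) + i) / l)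
          = (l + 1) • F ((a0 : ℚ) / c0) := by
  have hl0 : (l : ℚ) ≠ 0 := by exact_mod_cast hl.ne_zero
  have hc0 : (c0 : ℚ) ≠ 0 := by exact_mod_cast hc
  have : Fact l.Prime := ⟨hl⟩
  -- (i)
  have hi : ∀ k : ℕ, F ((a0 : ℚ) / (c0 * (l : ℚ) ^ k)) = F ((a0 : ℚ) / c0) := by
    intro k
    have hdvd : (N : ℤ) * a0 ∣ (l : ℤ) ^ k - 1 :=
      hl1.trans (by simpa using sub_dvd_pow_sub_pow (l : ℤ) 1 k)
    obtain ⟨t, ht⟩ := hdvd
    have htQ : (l : ℚ) ^ k - 1 = (N : ℚ) * a0 * t := by exact_mod_cast ht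
    have e1 : (N : ℚ) * ((c0 * t : ℤ) : ℚ) * ((a0 : ℚ) / c0) + 1 = (l : ℚ) ^ k := by
      push_cast
      field_simp
      linarith
    have := hL (c0 * t) ((a0 : ℚ) / c0) (by rw [e1]; exact pow_ne_zero _ hl0)
    rw [e1] at this
    rw [← this]
    congr 1
    field_simp
  have hla : ¬ (l : ℤ) ∣ a0 := by
    intro h
    have h1 : (l : ℤ) ∣ (l : ℤ) - 1 := (h.mul_left _).trans hl1
    have h2 : (l : ℤ) ∣ 1 := by
      have := dvd_sub (dvd_refl (l : ℤ)) h1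
      simpa using this
    have := Int.eq_one_of_dvd_one (by positivity) h2
    exact hl.ne_one (by exact_mod_cast this)
  obtain ⟨j, e, r, hg, hlr⟩ := exists_good_power hq hl c0 hc hqc hlq
  refine ⟨e + 1, by omega, hi _, ?_⟩
  -- the `l` terms
  have hterm : ∀ i : ℕ, F (((a0 : ℚ) / (c0 * (l : ℚ) ^ (e + 1)) + i) / l) = F ((a0 : ℚ) / c0) := by
    intro i
    have hunit : ((r * a0 : ℤ) : ZMod l) ≠ 0 := by
      rw [Ne, ZMod.intCast_zmod_eq_zero_iff_dvd]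
      intro h
      rcases (Int.prime_iff_natAbs_prime.2 (by simpa using hl)).dvd_or_dvd h with h | h
      · exact hlr h
      · exact hla h
    set m : ℕ := ((i : ZMod l) * ((r * a0 : ℤ) : ZMod l)⁻¹).val with hm
    have hm1 : ((m * (r * a0) - i : ℤ) : ZMod l) = 0 := by
      have h5 : ((m : ℕ) : ZMod l) = (i : ZMod l) * ((r * a0 : ℤ) : ZMod l)⁻¹ := by
        rw [hm, ZMod.natCast_val, ZMod.cast_id', id]
      have h6 : ((m * (r * a0) - i : ℤ) : ZMod l)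
          = ((m : ℕ) : ZMod l) * ((r * a0 : ℤ) : ZMod l) - (i : ZMod l) := by
        push_cast; ring
      rw [h6, h5, mul_assoc, inv_mul_cancel₀ hunit, mul_one, sub_self]
    obtain ⟨u, hu⟩ := (ZMod.intCast_zmod_eq_zero_iff_dvd _ _).1 hm1
    obtain ⟨z, hz⟩ := one_add_pow_expand (c0 * (l : ℤ) ^ (e + 1) * r) m
    have hint : (((q : ℤ) ^ 2) ^ j) ^ m * a0 = a0 + i * c0 * (l : ℤ) ^ (e + 1)
        + c0 * (l : ℤ) ^ (e + 1 + 1) * (u + c0 * (l : ℤ) ^ e * r ^ 2 * z * a0) := by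
      rw [hg, hz]
      have : (m : ℤ) * (r * a0) = i + l * u := by linarith
      have e2 : (1 + (m : ℤ) * (c0 * (l : ℤ) ^ (e + 1) * r) + (c0 * (l : ℤ) ^ (e + 1) * r) ^ 2 * z) * a0
          = a0 + ((m : ℤ) * (r * a0)) * (c0 * (l : ℤ) ^ (e + 1))
            + (c0 * (l : ℤ) ^ (e + 1) * r) ^ 2 * z * a0 := by ring
      rw [e2, this]
      ring
    have hintQ : (((q : ℚ) ^ 2) ^ j) ^ m * a0 = a0 + i * c0 * (l : ℚ) ^ (e + 1)
        + c0 * (l : ℚ) ^ (e + 1 + 1) * ((u + c0 * (l : ℤ) ^ e * r ^ 2 * z * a0 : ℤ) : ℚ) := by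
      exact_mod_cast hint
    have key : ((a0 : ℚ) / (c0 * (l : ℚ) ^ (e + 1)) + i) / l
        = ((q : ℚ) ^ 2) ^ (j * m) * ((a0 : ℚ) / (c0 * (l : ℚ) ^ (e + 1 + 1)))
          + ((-(u + c0 * (l : ℤ) ^ e * r ^ 2 * z * a0) : ℤ) : ℚ) := by
      rw [pow_mul, mul_div_assoc', hintQ]
      push_cast
      field_simp
      ring
    rw [key, F_add_int F hT, F_pow_mul F hq2, hi]
  have hfirst : F ((l : ℚ) * ((a0 : ℚ) / (c0 * (l : ℚ) ^ (e + 1)))) = F ((a0 : ℚ) / c0) := by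
    rw [← hi e]
    congr 1
    field_simp
    ring
  rw [hfirst, Finset.sum_congr rfl (fun i _ => hterm i), Finset.sum_const, Finset.card_range,
    add_smul, one_smul, add_comm]

end Fermat.Agent.S41
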