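import Fermat.Agent.S41.SoftTT
import Fermat.Agent.S41.SoftStep2

/-!
# S41: the soft Ihara lemma (function level)

`F₁, F₂` potentials on the cusps for `Γ₀(N)` such that `F₁ + F₂ ∘ diag(q,1)` is `Γ₀(Nq)`-invariant.
Then `(T_l - l - 1)(T_{l₁} - l₁ - 1) F_i` is `Γ₀(N)`-invariant for all primes `l ≡ 1 mod M₀`, `l ≠ q`,
`l₁ ≡ 1 mod N q`, where `M₀` depends only on `N` and `q`.
-/

set_option autoImplicit false

open Matrix Matrix.SpecialLinearGroup CongruenceSubgroup OnePoint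
open scoped MatrixGroups

namespace Fermat.Agent.S41.Soft

noncomputable section

/-- the lower unipotent matrix `[[1,0],[N y,1]]` -/
def Lw (N : ℕ) (y : ℤ) : SL(2, ℤ) := ⟨!![1, 0; (N : ℤ) * y, 1], by simp [Matrix.det_fin_two_of]⟩

theorem Lw_mem (N : ℕ) (y : ℤ) : Lw N y ∈ Gamma0 N := by
  rw [Gamma0_mem]
  simp [Lw]

theorem T_zpow_mem (N : ℕ) (m : ℤ) : ModularGroup.T ^ m ∈ Gamma0 N := by
  rw [Gamma0_mem, ModularGroup.coe_T_zpow]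
  simp

theorem Lw_smul_coe (N : ℕ) (y : ℤ) (s : ℚ) (h : (N : ℚ) * y * s + 1 ≠ 0) :
    mapGL ℚ (Lw N y) • (s : OnePoint ℚ) = ((s / ((N : ℚ) * y * s + 1) : ℚ) : OnePoint ℚ) := by
  rw [smul_some_eq_ite]
  simp only [mapGL_apply]
  have e10 : ((Lw N y) 1 0 : ℤ) = (N : ℤ) * y := rfl
  have e11 : ((Lw N y) 1 1 : ℤ) = 1 := rfl
  have e00 : ((Lw N y) 0 0 : ℤ) = 1 := rfl
  have e01 : ((Lw N y) 0 1 : ℤ) = 0 := rfl
  rw [e10, e11, e00, e01]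
  push_cast
  rw [if_neg h]
  simp

theorem T_smul_coe (s : ℚ) :
    mapGL ℚ ModularGroup.T • (s : OnePoint ℚ) = ((s + 1 : ℚ) : OnePoint ℚ) := by
  rw [smul_some_eq_ite]
  simp only [mapGL_apply]
  simp [ModularGroup.T]

theorem T_zpow_smul_infty (m : ℤ) :
    mapGL ℚ (ModularGroup.T ^ m) • (∞ : OnePoint ℚ) = ∞ := by
  rw [smul_infty_eq_self_iff, mapGL_apply, ModularGroup.coe_T_zpow]
  simp

section

variable {A : Type*} [AddCommGroup A]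

theorem IsPot.inv_T_zpow {N : ℕ} {P : OnePoint ℚ → A} (hP : IsPot (Gamma0 N) P) (m : ℤ)
    (s : OnePoint ℚ) : P (mapGL ℚ (ModularGroup.T ^ m) • s) = P s :=
  hP.inv_of_fixed (T_zpow_mem N m) (T_zpow_smul_infty m) s

theorem IsPot.inv_Lw {N : ℕ} {P : OnePoint ℚ → A} (hP : IsPot (Gamma0 N) P) (y : ℤ)
    (s : OnePoint ℚ) : P (mapGL ℚ (Lw N y) • s) = P s := by
  refine hP.inv_of_fixed (Lw_mem N y) (t := ((0 : ℚ) : OnePoint ℚ)) ?_ s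
  rw [Lw_smul_coe N y 0 (by simp)]
  simp

theorem IsPot.hT {N : ℕ} {P : OnePoint ℚ → A} (hP : IsPot (Gamma0 N) P) (s : ℚ) :
    P ((s + 1 : ℚ) : OnePoint ℚ) = P (s : OnePoint ℚ) := by
  have := hP.inv_T_zpow 1 (s : OnePoint ℚ)
  rwa [zpow_one, T_smul_coe] at this

theorem IsPot.hL {N : ℕ} {P : OnePoint ℚ → A} (hP : IsPot (Gamma0 N) P) (y : ℤ) (s : ℚ)
    (h : (N : ℚ) * y * s + 1 ≠ 0) :
    P ((s / ((N : ℚ) * y * s + 1) : ℚ) : OnePoint ℚ) = P (s : OnePoint ℚ) := by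
  have := hP.inv_Lw y (s : OnePoint ℚ)
  rwa [Lw_smul_coe N y s h] at this

theorem IsPot.sk {N l : ℕ} {P : OnePoint ℚ → A} (hP : IsPot (Gamma0 N) P) (hl : l ≠ 0)
    (a0 c0 : ℤ) (hc : c0 ≠ 0) (hl1 : (N : ℤ) * a0 ∣ (l : ℤ) - 1) (k : ℕ) :
    P (((a0 : ℚ) / (c0 * (l : ℚ) ^ k) : ℚ) : OnePoint ℚ) = P (((a0 : ℚ) / c0 : ℚ) : OnePoint ℚ) := by
  have hl0 : (l : ℚ) ≠ 0 := by exact_mod_cast hl
  have hc0 : (c0 : ℚ) ≠ 0 := by exact_mod_cast hc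
  have hdvd : (N : ℤ) * a0 ∣ (l : ℤ) ^ k - 1 :=
    hl1.trans (by simpa using sub_dvd_pow_sub_pow (l : ℤ) 1 k)
  obtain ⟨t, ht⟩ := hdvd
  have htQ : (l : ℚ) ^ k - 1 = (N : ℚ) * a0 * t := by exact_mod_cast ht
  have e1 : (N : ℚ) * ((c0 * t : ℤ) : ℚ) * ((a0 : ℚ) / c0) + 1 = (l : ℚ) ^ k := by
    push_cast
    field_simp
    linarith
  have := hP.hL (c0 * t) ((a0 : ℚ) / c0) (by rw [e1]; exact pow_ne_zero _ hl0)
  rw [e1] at this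
  rw [← this]
  congr 2
  field_simp

/-- **Step 1.** -/
theorem step1 {N q l₁ : ℕ} (hq : q.Prime) (hqN : ¬ q ∣ N) (hl₁ : l₁.Prime)
    (hl₁M : ((N * q : ℕ) : ℤ) ∣ (l₁ : ℤ) - 1) (F₁ F₂ : OnePoint ℚ → A)
    (h₁ : IsPot (Gamma0 N) F₁) (h₂ : IsPot (Gamma0 N) F₂)
    (hG : IsInv (Gamma0 (N * q)) (fun s => F₁ s + F₂ (dgQ q • s))) :
    (∀ s, DD l₁ F₁ (dgQ q • dgQ q • s) = DD l₁ F₁ s) ∧
      (∀ s, DD l₁ F₂ (dgQ q • dgQ q • s) = DD l₁ F₂ s) := by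
  have hq0 : q ≠ 0 := hq.ne_zero
  have hqQ : (q : ℚ) ≠ 0 := by exact_mod_cast hq0
  obtain ⟨k, hk⟩ := hl₁M
  have hcop : Nat.Coprime q l₁ := by
    rw [← Nat.isCoprime_iff_coprime]
    refine ⟨-(N * k), 1, ?_⟩
    push_cast at hk
    linear_combination hk
  have hl₁N : ¬ l₁ ∣ N := by
    intro h
    have h1 : (l₁ : ℤ) ∣ (N : ℤ) := by exact_mod_cast h
    have h2 : (l₁ : ℤ) ∣ 1 := by
      have : (1 : ℤ) = l₁ - (N : ℤ) * (q * k) := by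
        push_cast at hk
        linear_combination -hk
      rw [this]
      exact dvd_sub (dvd_refl _) (h1.mul_right _)
    have h3 : l₁ ∣ 1 := by exact_mod_cast h2
    exact hl₁.one_lt.ne' (Nat.dvd_one.mp h3)
  have hF : IsPot (Gamma0 N) (DD l₁ F₁) := h₁.DD hl₁ hl₁N
  have hF' : IsPot (Gamma0 N) (DD l₁ F₂) := h₂.DD hl₁ hl₁N
  have hrel : ∀ s, DD l₁ F₁ s + DD l₁ F₂ (dgQ q • s) = 0 := by
    intro s
    rw [← DD_comp_dgQ hl₁.ne_zero hq0 hcop F₂ h₂.hT, ← DD_add]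
    exact DD_eq_zero_of_isInv hl₁ ⟨k, hk⟩ hG s
  -- the two matrices
  have hcopZ : IsCoprime (q : ℤ) (N : ℤ) :=
    Nat.isCoprime_iff_coprime.mpr ((Nat.Prime.coprime_iff_not_dvd hq).mpr hqN)
  obtain ⟨u, v, huv⟩ := hcopZ
  let γ₁ : SL(2, ℤ) := ⟨!![u, -v; (N : ℤ), (q : ℤ)], by
    rw [Matrix.det_fin_two_of]; linear_combination huv⟩
  let γ₂ : SL(2, ℤ) := ⟨!![(q : ℤ) * u, -v; (N : ℤ), 1], by
    rw [Matrix.det_fin_two_of]; linear_combination huv⟩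
  have hγ₁ : γ₁ ∈ Gamma0 N := by
    rw [Gamma0_mem]; simp [γ₁]
  have hγ₂ : γ₂ ∈ Gamma0 N := by
    rw [Gamma0_mem]; simp [γ₂]
  have hW : ∀ s : OnePoint ℚ, dgQ q • mapGL ℚ γ₁ • dgQ q • s = mapGL ℚ γ₂ • s := by
    intro s
    rw [← mul_smul, ← mul_smul]
    apply smul_eq_of_proportional _ _ hqQ
    intro i j
    rw [Matrix.GeneralLinearGroup.coe_mul, Matrix.GeneralLinearGroup.coe_mul, val_dgQ hq0,
      Matrix.mul_apply, Fin.sum_univ_two, Matrix.mul_apply, Matrix.mul_apply, Fin.sum_univ_two,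
      Fin.sum_univ_two]
    have e : ∀ a b, ((mapGL ℚ γ₁ : GL (Fin 2) ℚ) : Matrix (Fin 2) (Fin 2) ℚ) a b
        = ((!![u, -v; (N : ℤ), (q : ℤ)] : Matrix (Fin 2) (Fin 2) ℤ) a b : ℚ) := by
      intro a b
      exact mapGL_apply γ₁ a b
    have e' : (mapGL ℚ γ₂ : GL (Fin 2) ℚ) i j
        = ((!![(q : ℤ) * u, -v; (N : ℤ), 1] : Matrix (Fin 2) (Fin 2) ℤ) i j : ℚ) :=
      mapGL_apply γ₂ i j
    rw [e, e, e, e, e']
    fin_cases i <;> fin_cases j <;> simp <;> ring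
  obtain ⟨c₁, hc₁⟩ := hF γ₁ hγ₁
  obtain ⟨c₂, hc₂⟩ := hF' γ₂ hγ₂
  have star : ∀ s, DD l₁ F₁ (dgQ q • s) + c₁ = - DD l₁ F₂ s - c₂ := by
    intro s
    have h1 := hrel (mapGL ℚ γ₁ • dgQ q • s)
    rw [hW, hc₁, hc₂] at h1
    have : DD l₁ F₁ (dgQ q • s) + c₁ = -(DD l₁ F₂ s + c₂) := eq_neg_of_add_eq_zero_left h1
    rw [this]; abel
  have hcc : c₁ + c₂ = 0 := by
    have h1 := star ∞
    rw [dgQ_smul_infty hq0, DD_infty hl₁.ne_zero, DD_infty hl₁.ne_zero] at h1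
    have : c₁ = -c₂ := by simpa using h1
    rw [this]; abel
  have hc₂' : c₂ = -c₁ := eq_neg_of_add_eq_zero_right hcc
  have star' : ∀ s, DD l₁ F₁ (dgQ q • s) = - DD l₁ F₂ s := by
    intro s
    have := star s
    rw [hc₂'] at this
    have h2 : DD l₁ F₁ (dgQ q • s) + c₁ = - DD l₁ F₂ s + c₁ := by rw [this]; abel
    exact add_right_cancel h2
  constructor
  · intro s
    rw [star', eq_comm]
    exact eq_neg_of_add_eq_zero_left (hrel s)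
  · intro s
    have h1 := hrel (dgQ q • s)
    rw [star'] at h1
    have := eq_neg_of_add_eq_zero_right h1
    rw [this, neg_neg]

/-- **Step 2.** -/
theorem step2 {N q l : ℕ} (hq : q.Prime) (hl : l.Prime) (hlN : ¬ l ∣ N) (hlq : l ≠ q)
    (F : OnePoint ℚ → A) (hF : IsPot (Gamma0 N) F) (hq2 : ∀ s, F (dgQ q • dgQ q • s) = F s)
    (γ₀ : SL(2, ℤ)) (hγ₀ : γ₀ ∈ Gamma0 N) (hqc : IsCoprime (q : ℤ) (γ₀ 1 0))
    (hl1 : (N : ℤ) * γ₀ 0 0 ∣ (l : ℤ) - 1) (s : OnePoint ℚ) :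
    DD l F (mapGL ℚ γ₀ • s) = DD l F s := by
  have hc : γ₀ 1 0 ≠ 0 := by
    intro h
    rw [h, isCoprime_zero_right, Int.isUnit_iff] at hqc
    have := hq.one_lt
    omega
  have hcQ : ((γ₀ 1 0 : ℤ) : ℚ) ≠ 0 := by exact_mod_cast hc
  refine (hF.DD hl hlN).inv_of_eq hγ₀ (t := ∞) ?_ s
  rw [DD_infty hl.ne_zero, smul_infty_eq_ite, mapGL_apply, mapGL_apply, if_neg hcQ]
  obtain ⟨k, -, -, hk⟩ := soft_step2 (fun t : ℚ => F (t : OnePoint ℚ)) (N := N) (q := q) (l := l)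
    hq.one_lt hl hF.hT hF.hL (fun t => by
      have := hq2 (t : OnePoint ℚ)
      rw [dgQ_smul_coe hq.ne_zero, dgQ_smul_coe hq.ne_zero] at this
      rw [← this]
      congr 2
      ring) (γ₀ 0 0) (γ₀ 1 0) hc hqc hl1
    (fun h => hlq ((Nat.prime_dvd_prime_iff_eq hl hq).mp h))
  have h1 := (hF.TT hl hlN).sk hl.ne_zero (γ₀ 0 0) (γ₀ 1 0) hc hl1 k
  rw [TT_coe hl.ne_zero] at h1
  rw [DD]
  change TT l F ((((γ₀ 0 0 : ℤ) : ℚ) / ((γ₀ 1 0 : ℤ) : ℚ) : ℚ) : OnePoint ℚ) - _ = 0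
  rw [← h1, hk, sub_self]

end

end

end Fermat.Agent.S41.Soft
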