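import Fermat.Agent.S41.CuspEquiv
import Fermat.Prelude.Sol.S_ModularForm_heckeT_slash_eq_self_of_mem_Gamma0

/-!
# S41, soft Ihara lemma: potentials on the cusps and the operator `T_l` on them
-/

set_option autoImplicit false

open Matrix Matrix.SpecialLinearGroup CongruenceSubgroup OnePoint
open scoped MatrixGroups

namespace Fermat.Agent.S41.Soft

noncomputable section

/-- upper triangular matrices in `GL₂(ℚ)` -/
def utQ (a b d : ℚ) (had : a * d ≠ 0) : GL (Fin 2) ℚ :=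
  Matrix.GeneralLinearGroup.mkOfDetNeZero !![a, b; 0, d]
    (by rwa [Matrix.det_fin_two_of, mul_zero, sub_zero])

@[simp] theorem val_utQ (a b d : ℚ) (had : a * d ≠ 0) :
    ((utQ a b d had : GL (Fin 2) ℚ) : Matrix (Fin 2) (Fin 2) ℚ) = !![a, b; 0, d] := rfl

/-- `[[1, j], [0, l]]` -/
def upQ (l j : ℕ) : GL (Fin 2) ℚ :=
  if hl : l = 0 then 1 else utQ 1 j l (by rw [one_mul]; exact_mod_cast hl)

/-- `diag(l, 1)` -/
def dgQ (l : ℕ) : GL (Fin 2) ℚ :=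
  if hl : l = 0 then 1 else utQ l 0 1 (by rw [mul_one]; exact_mod_cast hl)

theorem val_upQ {l : ℕ} (hl : l ≠ 0) (j : ℕ) :
    ((upQ l j : GL (Fin 2) ℚ) : Matrix (Fin 2) (Fin 2) ℚ) = !![(1 : ℚ), (j : ℚ); 0, (l : ℚ)] := by
  simp [upQ, hl]

theorem val_dgQ {l : ℕ} (hl : l ≠ 0) :
    ((dgQ l : GL (Fin 2) ℚ) : Matrix (Fin 2) (Fin 2) ℚ) = !![(l : ℚ), 0; 0, 1] := by
  simp [dgQ, hl]

theorem upQ_smul_infty {l : ℕ} (hl : l ≠ 0) (j : ℕ) : upQ l j • (∞ : OnePoint ℚ) = ∞ := by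
  rw [smul_infty_eq_self_iff]
  show ((upQ l j : GL (Fin 2) ℚ) : Matrix (Fin 2) (Fin 2) ℚ) 1 0 = 0
  rw [val_upQ hl]; simp

theorem dgQ_smul_infty {l : ℕ} (hl : l ≠ 0) : dgQ l • (∞ : OnePoint ℚ) = ∞ := by
  rw [smul_infty_eq_self_iff]
  show ((dgQ l : GL (Fin 2) ℚ) : Matrix (Fin 2) (Fin 2) ℚ) 1 0 = 0
  rw [val_dgQ hl]; simp

theorem upQ_smul_coe {l : ℕ} (hl : l ≠ 0) (j : ℕ) (s : ℚ) :
    upQ l j • (s : OnePoint ℚ) = (((s + j) / l : ℚ) : OnePoint ℚ) := by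
  have hl' : (l : ℚ) ≠ 0 := by exact_mod_cast hl
  rw [smul_some_eq_ite]
  have e : ∀ a b, (upQ l j : GL (Fin 2) ℚ) a b
      = (!![(1 : ℚ), (j : ℚ); 0, (l : ℚ)] : Matrix (Fin 2) (Fin 2) ℚ) a b := by
    intro a b
    rw [← val_upQ hl]
  rw [e, e, e, e]
  simp [hl']

theorem dgQ_smul_coe {l : ℕ} (hl : l ≠ 0) (s : ℚ) :
    dgQ l • (s : OnePoint ℚ) = (((l : ℚ) * s : ℚ) : OnePoint ℚ) := by
  rw [smul_some_eq_ite]
  have e : ∀ a b, (dgQ l : GL (Fin 2) ℚ) a b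
      = (!![(l : ℚ), 0; 0, 1] : Matrix (Fin 2) (Fin 2) ℚ) a b := by
    intro a b
    rw [← val_dgQ hl]
  rw [e, e, e, e]
  simp

/-- proportional matrices act in the same way on the cusps -/
theorem smul_eq_of_proportional (A B : GL (Fin 2) ℚ) {c : ℚ} (hc : c ≠ 0)
    (h : ∀ i j, A i j = c * B i j) (s : OnePoint ℚ) : A • s = B • s := by
  obtain ⟨g, rfl⟩ := exists_mem_SL2 ℤ s
  rw [← mul_smul, ← mul_smul]
  apply smul_infty_eq_of_col _ _ hc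
  · rw [Matrix.GeneralLinearGroup.coe_mul, Matrix.GeneralLinearGroup.coe_mul, Matrix.mul_apply,
      Matrix.mul_apply, Fin.sum_univ_two, Fin.sum_univ_two, h, h]
    ring
  · rw [Matrix.GeneralLinearGroup.coe_mul, Matrix.GeneralLinearGroup.coe_mul, Matrix.mul_apply,
      Matrix.mul_apply, Fin.sum_univ_two, Fin.sum_univ_two, h, h]
    ring

section Pot

variable {A : Type*} [AddCommGroup A]

/-- `P` is a potential for `Γ`: `P (γ s) - P s` does not depend on `s`. -/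
def IsPot (Γ : Subgroup SL(2, ℤ)) (P : OnePoint ℚ → A) : Prop :=
  ∀ γ ∈ Γ, ∃ c : A, ∀ s, P (mapGL ℚ γ • s) = P s + c

/-- `P` is invariant under `Γ`. -/
def IsInv (Γ : Subgroup SL(2, ℤ)) (P : OnePoint ℚ → A) : Prop :=
  ∀ γ ∈ Γ, ∀ s, P (mapGL ℚ γ • s) = P s

theorem IsInv.isPot {Γ : Subgroup SL(2, ℤ)} {P : OnePoint ℚ → A} (h : IsInv Γ P) : IsPot Γ P :=
  fun γ hγ => ⟨0, fun s => by rw [h γ hγ, add_zero]⟩

theorem IsPot.add {Γ : Subgroup SL(2, ℤ)} {P Q : OnePoint ℚ → A} (hP : IsPot Γ P)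
    (hQ : IsPot Γ Q) : IsPot Γ (fun s => P s + Q s) := by
  intro γ hγ
  obtain ⟨c, hc⟩ := hP γ hγ
  obtain ⟨d, hd⟩ := hQ γ hγ
  exact ⟨c + d, fun s => by simp only [hc, hd]; abel⟩

theorem IsPot.sub {Γ : Subgroup SL(2, ℤ)} {P Q : OnePoint ℚ → A} (hP : IsPot Γ P)
    (hQ : IsPot Γ Q) : IsPot Γ (fun s => P s - Q s) := by
  intro γ hγ
  obtain ⟨c, hc⟩ := hP γ hγ
  obtain ⟨d, hd⟩ := hQ γ hγ
  exact ⟨c - d, fun s => by simp only [hc, hd]; abel⟩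

theorem IsPot.nsmul {Γ : Subgroup SL(2, ℤ)} {P : OnePoint ℚ → A} (hP : IsPot Γ P) (n : ℕ) :
    IsPot Γ (fun s => n • P s) := by
  intro γ hγ
  obtain ⟨c, hc⟩ := hP γ hγ
  exact ⟨n • c, fun s => by simp only [hc, nsmul_add]⟩

/-- a potential is invariant under an element fixing a cusp -/
theorem IsPot.inv_of_fixed {Γ : Subgroup SL(2, ℤ)} {P : OnePoint ℚ → A} (hP : IsPot Γ P)
    {γ : SL(2, ℤ)} (hγ : γ ∈ Γ) {t : OnePoint ℚ} (ht : mapGL ℚ γ • t = t) (s : OnePoint ℚ) :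
    P (mapGL ℚ γ • s) = P s := by
  obtain ⟨c, hc⟩ := hP γ hγ
  have h0 : c = 0 := by
    have := hc t
    rw [ht] at this
    simpa using this
  rw [hc, h0, add_zero]

/-- a potential is invariant under an element as soon as it is at one cusp -/
theorem IsPot.inv_of_eq {Γ : Subgroup SL(2, ℤ)} {P : OnePoint ℚ → A} (hP : IsPot Γ P)
    {γ : SL(2, ℤ)} (hγ : γ ∈ Γ) {t : OnePoint ℚ} (ht : P (mapGL ℚ γ • t) = P t) (s : OnePoint ℚ) :
    P (mapGL ℚ γ • s) = P s := by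
  obtain ⟨c, hc⟩ := hP γ hγ
  have h0 : c = 0 := by
    have := hc t
    rw [ht] at this
    simpa using this
  rw [hc, h0, add_zero]

/-- the operator `T_l` on functions on the cusps -/
def TT (l : ℕ) (P : OnePoint ℚ → A) (s : OnePoint ℚ) : A :=
  P (dgQ l • s) + ∑ i ∈ Finset.range l, P (upQ l i • s)

/-- `T_l - l - 1` -/
def DD (l : ℕ) (P : OnePoint ℚ → A) (s : OnePoint ℚ) : A := TT l P s - (l + 1) • P s

end Pot

end

end Fermat.Agent.S41.Soft
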