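import Fermat.Agent.S41.SoftBasic

/-!
# S41, soft Ihara lemma: `T_l` preserves potentials; formal properties
-/

set_option autoImplicit false

open Matrix Matrix.SpecialLinearGroup CongruenceSubgroup OnePoint ModularForm
open scoped MatrixGroups
open P2MW.S_ModularForm_heckeT_slash_eq_self_of_mem_Gamma0.ModularForm.HeckeSlashInvariance

namespace Fermat.Agent.S41.Soft

noncomputable section

/-- `GL₂(ℚ) → GL₂(ℝ)` -/
def castGL : GL (Fin 2) ℚ →* GL (Fin 2) ℝ := Matrix.GeneralLinearGroup.map (Rat.castHom ℝ)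

theorem castGL_apply (g : GL (Fin 2) ℚ) (i j : Fin 2) : castGL g i j = ((g i j : ℚ) : ℝ) := rfl

theorem castGL_injective : Function.Injective castGL := by
  intro g h hgh
  ext i j
  have := congrArg (fun m : GL (Fin 2) ℝ => m i j) hgh
  simp only [castGL_apply] at this
  exact_mod_cast this

theorem castGL_upQ (l j : ℕ) : castGL (upQ l j) = heckeMatrix l j := by
  rcases eq_or_ne l 0 with rfl | hl
  · simp [upQ]
  · ext a b
    rw [castGL_apply]
    show (((upQ l j : GL (Fin 2) ℚ) : Matrix (Fin 2) (Fin 2) ℚ) a b : ℝ) =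
      ((heckeMatrix l j : GL (Fin 2) ℝ) : Matrix (Fin 2) (Fin 2) ℝ) a b
    rw [val_upQ hl, val_heckeMatrix hl]
    fin_cases a <;> fin_cases b <;> simp

theorem castGL_dgQ (l : ℕ) : castGL (dgQ l) = heckeDiagMatrix l := by
  rcases eq_or_ne l 0 with rfl | hl
  · simp [dgQ]
  · ext a b
    rw [castGL_apply]
    show (((dgQ l : GL (Fin 2) ℚ) : Matrix (Fin 2) (Fin 2) ℚ) a b : ℝ) =
      ((heckeDiagMatrix l : GL (Fin 2) ℝ) : Matrix (Fin 2) (Fin 2) ℝ) a b
    rw [val_dgQ hl, val_heckeDiagMatrix hl]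
    fin_cases a <;> fin_cases b <;> simp

theorem castGL_mapGL (g : SL(2, ℤ)) : castGL (mapGL ℚ g) = mapGL ℝ g := by
  ext a b
  rw [castGL_apply, mapGL_apply]
  simp

/-- the representatives of `T_l` in `GL₂(ℚ)` -/
def repQ (l : ℕ) (x : OnePoint (ZMod l)) : GL (Fin 2) ℚ :=
  x.elim (dgQ l) (fun j => upQ l j.val)

theorem castGL_repQ (l : ℕ) (x : OnePoint (ZMod l)) : castGL (repQ l x) = heckeRep l x := by
  induction x using OnePoint.rec with
  | infty => exact castGL_dgQ l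
  | coe j => exact castGL_upQ l j.val

theorem repQ_mul {l N : ℕ} [Fact l.Prime] (hlN : ¬ l ∣ N) (g : SL(2, ℤ)) (hg : g ∈ Gamma0 N)
    (x : OnePoint (ZMod l)) :
    ∃ g' ∈ Gamma0 N, repQ l x * mapGL ℚ g = mapGL ℚ g' * repQ l (redMatrix l g • x) := by
  obtain ⟨g', hg', h⟩ := heckeRep_mul hlN g
    ((ZMod.intCast_zmod_eq_zero_iff_dvd _ _).mp (Gamma0_mem.mp hg)) x
  refine ⟨g', Gamma0_mem.mpr ((ZMod.intCast_zmod_eq_zero_iff_dvd _ _).mpr hg'), ?_⟩
  apply castGL_injective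
  rw [map_mul, map_mul, castGL_repQ, castGL_repQ, castGL_mapGL, castGL_mapGL, h]

variable {A : Type*} [AddCommGroup A]

theorem TT_eq_sum (l : ℕ) [NeZero l] (P : OnePoint ℚ → A) (s : OnePoint ℚ) :
    TT l P s = ∑ x : OnePoint (ZMod l), P (repQ l x • s) := by
  have h1 : ∑ x : OnePoint (ZMod l), P (repQ l x • s)
      = P (dgQ l • s) + ∑ j : ZMod l, P (upQ l j.val • s) :=
    Fintype.sum_option (fun x : OnePoint (ZMod l) => P (repQ l x • s))
  rw [h1, TT]
  congr 1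
  exact sum_range_eq_sum_zmod _

theorem IsPot.TT {l N : ℕ} (hl : l.Prime) (hlN : ¬ l ∣ N) {P : OnePoint ℚ → A}
    (hP : IsPot (Gamma0 N) P) : IsPot (Gamma0 N) (TT l P) := by
  have : Fact l.Prime := ⟨hl⟩
  have : NeZero l := ⟨hl.ne_zero⟩
  intro γ hγ
  choose g' hg' hmul using fun x => repQ_mul hlN γ hγ x
  choose c hc using fun x => hP (g' x) (hg' x)
  refine ⟨∑ x, c x, fun s => ?_⟩
  rw [TT_eq_sum, TT_eq_sum]
  have : ∀ x, P (repQ l x • mapGL ℚ γ • s) = P (repQ l (redMatrix l γ • x) • s) + c x := by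
    intro x
    rw [← mul_smul, hmul, mul_smul, hc]
  simp only [this]
  rw [Finset.sum_add_distrib]
  congr 1
  exact Equiv.sum_comp (MulAction.toPerm (redMatrix l γ)) (fun x => P (repQ l x • s))

theorem sum_range_mul_coprime {M : Type*} [AddCommMonoid M] {q l : ℕ} [NeZero l] (φ : ℕ → M)
    (hφ : ∀ n, φ (n + l) = φ n) (hql : Nat.Coprime q l) :
    ∑ i ∈ Finset.range l, φ (q * i) = ∑ i ∈ Finset.range l, φ i := by
  have hper : Function.Periodic φ l := hφ
  rw [sum_range_eq_sum_zmod, sum_range_eq_sum_zmod]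
  let u : (ZMod l)ˣ := ZMod.unitOfCoprime q hql
  have h1 : ∀ x : ZMod l, φ (q * x.val) = φ (((u : ZMod l) * x).val) := by
    intro x
    rw [ZMod.val_mul, ZMod.coe_unitOfCoprime, ZMod.val_natCast, hper.map_mod_nat,
      ← hper.map_mod_nat (q * x.val), ← hper.map_mod_nat (q % l * x.val), Nat.mod_mul_mod]
  simp only [h1]
  exact Equiv.sum_comp (Units.mulLeft u) (fun x : ZMod l => φ x.val)

theorem TT_infty {l : ℕ} (hl : l ≠ 0) (P : OnePoint ℚ → A) : TT l P ∞ = (l + 1) • P ∞ := by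
  unfold Soft.TT
  rw [dgQ_smul_infty hl]
  simp only [upQ_smul_infty hl]
  rw [Finset.sum_const, Finset.card_range, add_smul, one_smul, add_comm]

theorem TT_coe {l : ℕ} (hl : l ≠ 0) (P : OnePoint ℚ → A) (s : ℚ) :
    TT l P (s : OnePoint ℚ) = P (((l : ℚ) * s : ℚ) : OnePoint ℚ) +
      ∑ i ∈ Finset.range l, P (((s + i) / l : ℚ) : OnePoint ℚ) := by
  unfold Soft.TT
  rw [dgQ_smul_coe hl]
  simp only [upQ_smul_coe hl]

theorem DD_infty {l : ℕ} (hl : l ≠ 0) (P : OnePoint ℚ → A) : DD l P ∞ = 0 := by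
  rw [DD, TT_infty hl, sub_self]

theorem IsPot.DD {l N : ℕ} (hl : l.Prime) (hlN : ¬ l ∣ N) {P : OnePoint ℚ → A}
    (hP : IsPot (Gamma0 N) P) : IsPot (Gamma0 N) (DD l P) :=
  (hP.TT hl hlN).sub (hP.nsmul (l + 1))

/-- `T_l` commutes with `P ↦ P ∘ diag(q,1)` on translation invariant functions. -/
theorem TT_comp_dgQ {l q : ℕ} (hl : l ≠ 0) (hq : q ≠ 0) (hql : Nat.Coprime q l)
    (P : OnePoint ℚ → A) (hT : ∀ s : ℚ, P ((s + 1 : ℚ) : OnePoint ℚ) = P (s : OnePoint ℚ))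
    (s : OnePoint ℚ) : TT l (fun t => P (dgQ q • t)) s = TT l P (dgQ q • s) := by
  have : NeZero l := ⟨hl⟩
  have hl' : (l : ℚ) ≠ 0 := by exact_mod_cast hl
  induction s using OnePoint.rec with
  | infty =>
    rw [dgQ_smul_infty hq, TT_infty hl, TT_infty hl, dgQ_smul_infty hq]
  | coe s =>
    rw [dgQ_smul_coe hq, TT_coe hl, TT_coe hl]
    simp only [dgQ_smul_coe hq]
    congr 1
    · congr 2; ring
    · have h := sum_range_mul_coprime (q := q) (l := l)
        (fun n : ℕ => P ((((q : ℚ) * s + n) / l : ℚ) : OnePoint ℚ)) (fun n => by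
          have : ((q : ℚ) * s + ((n + l : ℕ) : ℚ)) / l = ((q : ℚ) * s + n) / l + 1 := by
            push_cast
            field_simp
            ring
          simp only [this, hT]) hql
      rw [← h]
      refine Finset.sum_congr rfl fun i _ => ?_
      congr 2
      push_cast
      field_simp

theorem DD_comp_dgQ {l q : ℕ} (hl : l ≠ 0) (hq : q ≠ 0) (hql : Nat.Coprime q l)
    (P : OnePoint ℚ → A) (hT : ∀ s : ℚ, P ((s + 1 : ℚ) : OnePoint ℚ) = P (s : OnePoint ℚ))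
    (s : OnePoint ℚ) : DD l (fun t => P (dgQ q • t)) s = DD l P (dgQ q • s) := by
  rw [DD, DD, TT_comp_dgQ hl hq hql P hT]

theorem TT_add (l : ℕ) (P Q : OnePoint ℚ → A) (s : OnePoint ℚ) :
    TT l (fun t => P t + Q t) s = TT l P s + TT l Q s := by
  unfold Soft.TT
  rw [Finset.sum_add_distrib]
  exact add_add_add_comm _ _ _ _

theorem DD_add (l : ℕ) (P Q : OnePoint ℚ → A) (s : OnePoint ℚ) :
    DD l (fun t => P t + Q t) s = DD l P s + DD l Q s := by
  rw [DD, DD, DD, TT_add, nsmul_add]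
  abel

/-- `T_l = l + 1` on `Γ₀(M)`-invariant functions, `l ≡ 1 mod M`. -/
theorem DD_eq_zero_of_isInv {l M : ℕ} (hl : l.Prime) (hlM : (M : ℤ) ∣ (l : ℤ) - 1)
    {P : OnePoint ℚ → A} (hP : IsInv (Gamma0 M) P) (s : OnePoint ℚ) : DD l P s = 0 := by
  rw [DD, Soft.TT, invariant_diag_left P hP hl hlM (dgQ l) (val_dgQ hl.ne_zero) s]
  have : ∀ i ∈ Finset.range l, P (upQ l i • s) = P s := by
    intro i _
    exact invariant_upper P hP hl hlM (i : ℤ) (upQ l i) (by rw [val_upQ hl.ne_zero]; simp) s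
  rw [Finset.sum_congr rfl this, Finset.sum_const, Finset.card_range, add_smul, one_smul,
    add_comm, sub_self]

end

end Fermat.Agent.S41.Soft
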