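import Fermat.Agent.S41.Ops
import Fermat.Agent.S41.Bd
import Fermat.Agent.S41.Pair

/-!
# S41 / G-9a : formal consequences of the pairing lemmas (self-adjointness of `T_l`, adjoint of `β^*`, nondegeneracy over `ℤ`)
-/

set_option autoImplicit false

open Matrix Matrix.SpecialLinearGroup CongruenceSubgroup OnePoint
open scoped MatrixGroups

namespace Fermat.Agent.S41

theorem exists_bezout {q N : ℕ} (hq : q.Prime) (hqN : ¬ q ∣ N) :
    ∃ x y : ℤ, (q : ℤ) * x - N * y = 1 := by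
  have hc : IsCoprime (q : ℤ) (N : ℤ) :=
    Nat.isCoprime_iff_coprime.2 ((Nat.Prime.coprime_iff_not_dvd hq).2 hqN)
  obtain ⟨a, b, hab⟩ := hc
  exact ⟨a, -b, by linarith⟩

/-- an element of `H Γ ℤ` which is infinitely `p`-divisible vanishes. -/
theorem pd_left_nondeg (M : ℕ) [NeZero M] (a : HH ℤ M) (h : ∀ b, pd M a b = 0) : a = 0 := by
  have key : ∀ n : ℕ, ∀ a : HH ℤ M, (∀ b, pd M a b = 0) →
      ∀ γ, (3 : ℤ) ^ n ∣ (a : Additive (Gamma0 M) →+ ℤ) γ := by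
    intro n
    induction n with
    | zero => intro a _ γ; simp
    | succ n ih =>
      intro a ha γ
      obtain ⟨a', rfl⟩ := pd_nondeg_mod M Nat.prime_three (by norm_num) a
        (fun b => by rw [ha b]; exact dvd_zero _)
      have ha' : ∀ b, pd M a' b = 0 := by
        intro b
        have := ha b
        rw [_root_.map_smul, LinearMap.smul_apply, smul_eq_mul] at this
        rcases mul_eq_zero.1 this with h | h
        · norm_num at h
        · exact h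
      obtain ⟨k, hk⟩ := ih a' ha' γ
      refine ⟨k, ?_⟩
      change ((3 : ℕ) : ℤ) • (a' : Additive (Gamma0 M) →+ ℤ) γ = _
      rw [hk, smul_eq_mul]
      push_cast
      ring
  apply Subtype.ext
  refine AddMonoidHom.ext fun γ => ?_
  by_contra hne
  change (a : Additive (Gamma0 M) →+ ℤ) γ ≠ 0 at hne
  set v := (a : Additive (Gamma0 M) →+ ℤ) γ with hv
  have h1 := key v.natAbs a h γ
  have h2 : (3 : ℤ) ^ v.natAbs ≤ |v| := by
    have := Int.le_of_dvd (abs_pos.2 hne) ((dvd_abs _ _).2 h1)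
    exact this
  have h3 : (v.natAbs : ℤ) < 3 ^ v.natAbs := by
    exact_mod_cast Nat.lt_pow_self (by norm_num)
  rw [Int.abs_eq_natAbs] at h2
  omega

theorem pd_right_nondeg (M : ℕ) [NeZero M] (b : HH ℤ M) (h : ∀ a, pd M a b = 0) : b = 0 :=
  pd_left_nondeg M b fun a => by rw [pd_swap, h a, neg_zero]

/-- `T_l` is self-adjoint. -/
theorem pd_TH (M l : ℕ) [NeZero M] (hl : l.Prime) (hlM : ¬ l ∣ M) (a b : HH ℤ M) :
    pd M (TH ℤ M l a) b = pd M a (TH ℤ M l b) := by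
  obtain ⟨x, y, hxy⟩ := exists_bezout hl hlM
  have : NeZero l := ⟨hl.ne_zero⟩
  have : NeZero (M * l) := ⟨Nat.mul_ne_zero (NeZero.ne M) hl.ne_zero⟩
  rw [← coresH_wH_resH hl hlM hxy a, ← coresH_wH_resH hl hlM hxy b,
    ← pd_res_cores hl hlM hxy, pd_swap, ← pd_res_cores hl hlM hxy, pd_swap, neg_neg,
    ← pd_wH hl hxy (wH ℤ M l x y (resH ℤ M l a)), wH_wH hl hxy]

/-- the adjoint of `β^*` is `cores ∘ w`. -/
theorem pd_betaH {N q : ℕ} [NeZero N] [NeZero q] [NeZero (N * q)] {x y : ℤ} (hq : q.Prime)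
    (hqN : ¬ q ∣ N) (hxy : (q : ℤ) * x - N * y = 1) (a : HH ℤ N) (b : HH ℤ (N * q)) :
    pd (N * q) (betaH ℤ N q a) b = pd N a (coresH ℤ N q x y (wH ℤ N q x y b)) := by
  rw [betaH_eq hq hqN hxy, LinearMap.comp_apply, ← pd_res_cores hq hqN hxy,
    ← pd_wH hq hxy (resH ℤ N q a), wH_wH hq hxy]

/-- `T_l` commutes with the trace (by adjointness). -/
theorem coresH_TH {N q l : ℕ} [NeZero N] {x y : ℤ} (hq : q.Prime) (hqN : ¬ q ∣ N)
    (hxy : (q : ℤ) * x - N * y = 1) (hl : l.Prime) (hlN : ¬ l ∣ N * q) (b : HH ℤ (N * q)) :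
    coresH ℤ N q x y (TH ℤ (N * q) l b) = TH ℤ N l (coresH ℤ N q x y b) := by
  have : NeZero q := ⟨hq.ne_zero⟩
  have : NeZero (N * q) := ⟨Nat.mul_ne_zero (NeZero.ne N) hq.ne_zero⟩
  have hlN' : ¬ l ∣ N := fun h => hlN (h.mul_right q)
  rw [← sub_eq_zero]
  apply pd_right_nondeg N
  intro a
  rw [map_sub, ← pd_res_cores hq hqN hxy, ← pd_TH N l hl hlN', ← pd_res_cores hq hqN hxy,
    ← pd_TH (N * q) l hl hlN, TH_resH hl hlN, sub_self]

theorem coresH_wH_TH {N q l : ℕ} [NeZero N] {x y : ℤ} (hq : q.Prime) (hqN : ¬ q ∣ N)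
    (hxy : (q : ℤ) * x - N * y = 1) (hl : l.Prime) (hlN : ¬ l ∣ N * q) (b : HH ℤ (N * q)) :
    coresH ℤ N q x y (wH ℤ N q x y (TH ℤ (N * q) l b))
      = TH ℤ N l (coresH ℤ N q x y (wH ℤ N q x y b)) := by
  have : NeZero q := ⟨hq.ne_zero⟩
  have : NeZero (N * q) := ⟨Nat.mul_ne_zero (NeZero.ne N) hq.ne_zero⟩
  have hlN' : ¬ l ∣ N := fun h => hlN (h.mul_right q)
  rw [← sub_eq_zero]
  apply pd_right_nondeg N
  intro a
  rw [map_sub, ← pd_betaH hq hqN hxy, ← pd_TH N l hl hlN', ← pd_betaH hq hqN hxy,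
    ← pd_TH (N * q) l hl hlN, TH_betaH hq hqN hl hlN, sub_self]

/-- on `ker γ†` : `U_q ^ 2 = 1`. -/
theorem UH_UH_of_ker {N q : ℕ} {x y : ℤ} (hq : q.Prime) (hqN : ¬ q ∣ N)
    (hxy : (q : ℤ) * x - N * y = 1) (z : HH ℤ (N * q)) (h1 : coresH ℤ N q x y z = 0)
    (h2 : coresH ℤ N q x y (wH ℤ N q x y z) = 0) : UH ℤ (N * q) q (UH ℤ (N * q) q z) = z := by
  have e1 := resH_coresH hq hqN hxy z
  have e2 := resH_coresH hq hqN hxy (wH ℤ N q x y z)
  rw [h1, map_zero] at e1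
  rw [h2, map_zero, wH_wH hq hxy] at e2
  have e3 : wH ℤ N q x y z = - UH ℤ (N * q) q z := eq_neg_of_add_eq_zero_left e2.symm
  rw [e3, map_neg] at e1
  exact (sub_eq_zero.1 (by rw [sub_eq_add_neg]; exact e1.symm)).symm

theorem exists_eq_smul_of_coprime {G : Type*} [AddCommGroup G] {p c : ℤ} (hc : IsCoprime c p)
    (h : G) (hh : ∃ h', c • h = p • h') : ∃ h', h = p • h' := by
  obtain ⟨a, b, hab⟩ := hc
  obtain ⟨h', hh'⟩ := hh
  refine ⟨a • h' + b • h, ?_⟩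
  calc h = (a * c + b * p) • h := by rw [hab, one_smul]
    _ = a • (c • h) + p • (b • h) := by rw [add_smul, mul_smul, mul_comm b p, mul_smul]
    _ = p • (a • h' + b • h) := by rw [hh', smul_add, smul_comm a p]

end Fermat.Agent.S41
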