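import Fermat.Agent.S41.TopA
import Fermat.Agent.S41.IharaH
import Fermat.Agent.S41.AbstractLR

/-!
# S41 / G-9b : level raising on the lattices `HH ℤ N`, `HH ℤ (N q)` (instantiation of `abstract_level_raising`)
-/

set_option autoImplicit false

open Matrix Matrix.SpecialLinearGroup CongruenceSubgroup OnePoint
open scoped MatrixGroups

namespace Fermat.Agent.S41

theorem lattice_level_raising {N q p : ℕ} [NeZero N] (hp : p.Prime) (hp2 : p ≠ 2) (hq : q.Prime)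
    (hqN : ¬ q ∣ N) {x0 y0 : ℤ} (hxy : (q : ℤ) * x0 - N * y0 = 1)
    (S : Set ℕ) (hS : ∀ ℓ ∈ S, ℓ.Prime ∧ ¬ ℓ ∣ N * q) (θ : ℕ → ℤ)
    (hNE : ∀ m : ℕ, 0 < m → ∃ ℓ ∈ S, ℓ ≡ 1 [MOD m] ∧ ¬ (p : ℤ) ∣ θ ℓ - ((ℓ : ℤ) + 1))
    (ε : ℤ) (hε : ε * ε = 1)
    (x : HH ℤ N) (hx : ¬ ∃ x', x = (p : ℤ) • x')
    (hxT : ∀ ℓ ∈ S, ∃ x', TH ℤ N ℓ x - θ ℓ • x = (p : ℤ) • x')
    (hxq : ∃ x', TH ℤ N q x - (ε * ((q : ℤ) + 1)) • x = (p : ℤ) • x') :
    ∃ y : HH ℤ (N * q), coresH ℤ N q x0 y0 y = 0 ∧ coresH ℤ N q x0 y0 (wH ℤ N q x0 y0 y) = 0 ∧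
      (¬ ∃ y', y = (p : ℤ) • y') ∧ ∀ ℓ ∈ S, ∃ y', TH ℤ (N * q) ℓ y - θ ℓ • y = (p : ℤ) • y' := by
  have hN : 0 < N := Nat.pos_of_ne_zero (NeZero.ne N)
  have : NeZero q := ⟨hq.ne_zero⟩
  have : NeZero (N * q) := ⟨Nat.mul_ne_zero (NeZero.ne N) hq.ne_zero⟩
  have : Fact p.Prime := ⟨hp⟩
  have := HH_finite N
  have := HH_free N
  have hSN : ∀ ℓ ∈ S, ¬ ℓ ∣ N := fun ℓ hℓ h => (hS ℓ hℓ).2 (h.mul_right q)
  -- the data
  let T : S → Module.End ℤ (HH ℤ N × HH ℤ N) := fun i => (TH ℤ N i).prodMap (TH ℤ N i)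
  let T' : S → Module.End ℤ (HH ℤ (N * q)) := fun i => TH ℤ (N * q) i
  let γ : (HH ℤ N × HH ℤ N) →ₗ[ℤ] HH ℤ (N * q) := (resH ℤ N q).coprod (betaH ℤ N q)
  let γd : HH ℤ (N * q) →ₗ[ℤ] (HH ℤ N × HH ℤ N) :=
    (coresH ℤ N q x0 y0).prod (coresH ℤ N q x0 y0 ∘ₗ wH ℤ N q x0 y0)
  let bX : (HH ℤ N × HH ℤ N) →ₗ[ℤ] (HH ℤ N × HH ℤ N) →ₗ[ℤ] ℤ :=
    (pd N).compl₁₂ (LinearMap.fst ℤ _ _) (LinearMap.fst ℤ _ _) +
      (pd N).compl₁₂ (LinearMap.snd ℤ _ _) (LinearMap.snd ℤ _ _)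
  have hbX : ∀ a b : HH ℤ N × HH ℤ N, bX a b = pd N a.1 b.1 + pd N a.2 b.2 := fun a b => rfl
  have hT : ∀ (i : S) (a : HH ℤ N × HH ℤ N), T i a = (TH ℤ N i a.1, TH ℤ N i a.2) := fun i a => rfl
  have hγa : ∀ a : HH ℤ N × HH ℤ N, γ a = resH ℤ N q a.1 + betaH ℤ N q a.2 := fun a => rfl
  have hγda : ∀ b, γd b = (coresH ℤ N q x0 y0 b, coresH ℤ N q x0 y0 (wH ℤ N q x0 y0 b)) :=
    fun b => rfl
  have hcomm : ∀ i j, Commute (T i) (T j) := by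
    intro i j
    refine LinearMap.ext fun a => ?_
    change T i (T j a) = T j (T i a)
    rw [hT, hT, hT, hT]
    simp only
    rw [TH_comm (hS i i.2).1 (hS j j.2).1 (hSN i i.2) (hSN j j.2),
      TH_comm (hS i i.2).1 (hS j j.2).1 (hSN i i.2) (hSN j j.2)]
  have hγ : ∀ i a, γ (T i a) = T' i (γ a) := by
    intro i a
    rw [hγa, hγa, hT]
    change _ = TH ℤ (N * q) i _
    rw [map_add, TH_resH (hS i i.2).1 (hS i i.2).2, TH_betaH hq hqN (hS i i.2).1 (hS i i.2).2]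
  have hadj : ∀ a b, pd (N * q) (γ a) b = bX a (γd b) := by
    intro a b
    rw [hγa, map_add, LinearMap.add_apply, hbX, hγda, pd_res_cores hq hqN hxy,
      pd_betaH hq hqN hxy]
  have hsa : ∀ i a b, bX (T i a) b = bX a (T i b) := by
    intro i a b
    rw [hbX, hbX, hT, hT]
    simp only
    rw [pd_TH N i (hS i i.2).1 (hSN i i.2), pd_TH N i (hS i i.2).1 (hSN i i.2)]
  have hγd : ∀ i b, γd (T' i b) = T i (γd b) := by
    intro i b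
    have key : ∀ a, bX a (γd (T' i b) - T i (γd b)) = 0 := by
      intro a
      rw [map_sub, ← hadj, ← hsa, ← hadj, hγ]
      change pd (N * q) (γ a) (TH ℤ (N * q) i b) - pd (N * q) (TH ℤ (N * q) i (γ a)) b = 0
      rw [pd_TH (N * q) i (hS i i.2).1 (hS i i.2).2, sub_self]
    set Z := γd (T' i b) - T i (γd b) with hZ
    have h1 : Z.1 = 0 := pd_right_nondeg N _ fun a => by
      have := key (a, 0)
      rw [hbX] at this
      simpa using this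
    have h2 : Z.2 = 0 := pd_right_nondeg N _ fun a => by
      have := key (0, a)
      rw [hbX] at this
      simpa using this
    have : Z = 0 := Prod.ext h1 h2
    exact sub_eq_zero.1 this
  have hndX : ∀ a, (∀ b, (p : ℤ) ∣ bX a b) → ∃ a', a = (p : ℤ) • a' := by
    intro a h
    obtain ⟨a1, h1⟩ := pd_nondeg_mod N hp hp2 a.1 fun b => by
      have := h (b, 0)
      rw [hbX] at this
      simpa using this
    obtain ⟨a2, h2⟩ := pd_nondeg_mod N hp hp2 a.2 fun b => by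
      have := h (0, b)
      rw [hbX] at this
      simpa using this
    exact ⟨(a1, a2), Prod.ext h1 h2⟩
  have hndL : ∀ b, (∀ b', (p : ℤ) ∣ pd (N * q) b b') → ∃ b'', b = (p : ℤ) • b'' :=
    fun b h => pd_nondeg_mod (N * q) hp hp2 b h
  -- Ihara
  have hIhara : ∀ h, (∀ i : S, ∃ h', T i h - θ i • h = (p : ℤ) • h') →
      (∃ z, γ h = (p : ℤ) • z) → ∃ h', h = (p : ℤ) • h' := by
    intro h heig hker
    obtain ⟨M₀, hM₀, hI⟩ := ihara_H hN hq hqN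
    obtain ⟨ℓ, hℓS, hℓ1, hℓp⟩ := hNE (M₀ * (N * q)) (Nat.mul_pos hM₀ (Nat.mul_pos hN hq.pos))
    have hℓq : ℓ ≠ q := by
      rintro rfl
      exact (hS ℓ hℓS).2 (Dvd.intro_left N rfl)
    obtain ⟨⟨k1, hk1⟩, ⟨k2, hk2⟩⟩ := hI ℓ ℓ (hS ℓ hℓS).1 (hS ℓ hℓS).1
      (Nat.ModEq.of_mul_right _ hℓ1) hℓq (Nat.ModEq.of_mul_left _ hℓ1) p hp h.1 h.2 hker
    obtain ⟨e, he⟩ := heig ⟨ℓ, hℓS⟩
    rw [hT] at he
    have he1 : TH ℤ N ℓ h.1 - θ ℓ • h.1 = (p : ℤ) • e.1 := congrArg Prod.fst he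
    have he2 : TH ℤ N ℓ h.2 - θ ℓ • h.2 = (p : ℤ) • e.2 := congrArg Prod.snd he
    set c : ℤ := θ ℓ - ((ℓ : ℤ) + 1) with hc
    have hcop : IsCoprime (c * c) (p : ℤ) := by
      have h1 : IsCoprime c (p : ℤ) :=
        ((Nat.prime_iff_prime_int.1 hp).coprime_iff_not_dvd.2 hℓp).symm
      exact h1.mul_left h1
    have gen : ∀ (v e k : HH ℤ N), TH ℤ N ℓ v - θ ℓ • v = (p : ℤ) • e →
        TH ℤ N ℓ (TH ℤ N ℓ v - ((ℓ : ℤ) + 1) • v) - ((ℓ : ℤ) + 1) • (TH ℤ N ℓ v - ((ℓ : ℤ) + 1) • v)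
          = (p : ℤ) • k → ∃ v', v = (p : ℤ) • v' := by
      intro v e k h1 h2
      apply exists_eq_smul_of_coprime hcop
      have h3 : TH ℤ N ℓ v = θ ℓ • v + (p : ℤ) • e := by rw [← h1]; abel
      have h4 : TH ℤ N ℓ v - ((ℓ : ℤ) + 1) • v = c • v + (p : ℤ) • e := by
        rw [h3, hc, sub_smul]; abel
      rw [h4, map_add, _root_.map_smul, _root_.map_smul, h3] at h2
      refine ⟨k - c • e - TH ℤ N ℓ e + ((ℓ : ℤ) + 1) • e, ?_⟩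
      have hθ : θ ℓ = c + ((ℓ : ℤ) + 1) := by rw [hc]; ring
      rw [hθ] at h2
      linear_combination (norm := module) h2
    obtain ⟨v1, hv1⟩ := gen h.1 e.1 k1 he1 hk1
    obtain ⟨v2, hv2⟩ := gen h.2 e.2 k2 he2 hk2
    exact ⟨(v1, v2), Prod.ext hv1 hv2⟩
  -- the class `h₀`
  obtain ⟨xq, hxq⟩ := hxq
  have hTq : TH ℤ N q x = (ε * ((q : ℤ) + 1)) • x + (p : ℤ) • xq := by rw [← hxq]; abel
  obtain ⟨y, hy0, hyp, hyT⟩ := abstract_level_raising (p := p) T T' (fun i => θ i) hcomm γ γd hγ hγd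
    bX (pd (N * q)) hadj hsa hndX hndL hIhara (x, -(ε • x))
    (by
      rintro ⟨h', hh'⟩
      exact hx ⟨h'.1, congrArg Prod.fst hh'⟩)
    (by
      intro i
      obtain ⟨x', hx'⟩ := hxT i i.2
      refine ⟨(x', -(ε • x')), ?_⟩
      rw [hT]
      refine Prod.ext hx' ?_
      change TH ℤ N i (-(ε • x)) - θ i • (-(ε • x)) = (p : ℤ) • (-(ε • x'))
      rw [map_neg, _root_.map_smul, smul_neg, smul_neg, smul_comm (p : ℤ) ε, ← hx', smul_sub,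
        smul_comm (θ i) ε]
      abel)
    (by
      refine ⟨(-(ε • xq), xq), ?_⟩
      rw [hγa, hγda]
      simp only
      rw [betaH_eq hq hqN hxy, LinearMap.comp_apply, map_add, map_add, map_add, wH_wH hq hxy,
        map_neg, map_neg, map_neg, map_neg, _root_.map_smul, _root_.map_smul, _root_.map_smul,
        _root_.map_smul, coresH_resH hq hxy, coresH_wH_resH hq hqN hxy, hTq]
      refine Prod.ext ?_ ?_
      · change ((q : ℤ) + 1) • x + -(ε • ((ε * ((q : ℤ) + 1)) • x + (p : ℤ) • xq))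
          = (p : ℤ) • (-(ε • xq))
        rw [smul_add, ← mul_smul, ← mul_assoc, hε, one_mul, smul_neg, smul_comm (p : ℤ) ε]
        abel
      · change (ε * ((q : ℤ) + 1)) • x + (p : ℤ) • xq + -(ε • ((q : ℤ) + 1) • x) = (p : ℤ) • xq
        rw [mul_smul]
        abel)
  rw [hγda] at hy0
  exact ⟨y, congrArg Prod.fst hy0, congrArg Prod.snd hy0, hyp, fun ℓ hℓ => hyT ⟨ℓ, hℓ⟩⟩

end Fermat.Agent.S41
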